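import Mathlib

set_option autoImplicit false

/-!
# S17 / package HT — definitions (sub-architect helper636).  FROZEN v0.1.  No sorry in this file.

* `ht x` : the ABSOLUTE logarithmic Weil height of a finite tuple `x : ι → Ω` of algebraic numbers
  (`Ω` any field of characteristic zero; in the project `Ω = AlgebraicClosure ℚ`).  It is the
  projective height of the point `[x]`: computed in the number field `ℚ(x)` with Mathlib's
  `Height.logHeight` and divided by `[ℚ(x) : ℚ]`.  Junk value `0` if `ι` is infinite or some
  coordinate is transcendental; `ht 0 = 0`.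
  NEVER unfold `ht`: use `ht_eq_logHeight_div` (file `Descent.lean`) and the API of `Basic.lean`.
* `htPoly F` : the height of the coefficient vector of a polynomial `F`.
* `supNorm v F` : the sup (Gauss) norm of the coefficients of `F` for an absolute value `v`.
* `IsMultiHomogeneous p d` : multi-homogeneity for polynomials in blocks of variables `Σ c, κ c`.
* `blockEval x p` : evaluation of such a polynomial at a family of block vectors `x c : κ c → Ω`.
-/

namespace Fermat.Agent.S17.HT

open Height

/-! ### Instances for `ℚ̄` (added v0.1)

The `ℚ`-algebra structure found by instance search on `AlgebraicClosure ℚ` is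
`DivisionRing.toRatAlgebra`, for which Mathlib's `AlgebraicClosure.isAlgebraic` is not found
automatically (same workaround as in `Fermat/Prelude/Def_GaloisRep_CompletionBridge.lean`). -/

instance isAlgebraicQbar : Algebra.IsAlgebraic ℚ (AlgebraicClosure ℚ) :=
  AlgebraicClosure.isAlgebraic ℚ

instance isAlgClosureQbar : IsAlgClosure ℚ (AlgebraicClosure ℚ) :=
  ⟨inferInstance, inferInstance⟩

instance normalQbar : Normal ℚ (AlgebraicClosure ℚ) :=
  IsAlgClosure.normal ℚ (AlgebraicClosure ℚ)

section Def

variable {Ω : Type*} [Field Ω] [CharZero Ω]

/-- The field generated over `ℚ` by a finite tuple of algebraic numbers is a number field. -/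
theorem finiteDimensional_adjoin_range {ι : Type*} [Finite ι] (x : ι → Ω)
    (h : ∀ i, IsIntegral ℚ (x i)) :
    FiniteDimensional ℚ (IntermediateField.adjoin ℚ (Set.range x)) := by
  have : Finite (Set.range x) := (Set.finite_range x).to_subtype
  exact IntermediateField.finiteDimensional_adjoin
    (fun a ha => by obtain ⟨i, rfl⟩ := ha; exact h i)

open Classical in
/-- The absolute logarithmic height of a finite tuple of algebraic numbers (projective height). -/
noncomputable def ht {ι : Type*} (x : ι → Ω) : ℝ :=
  if h : Finite ι ∧ ∀ i, IsIntegral ℚ (x i) then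
    haveI := h.1
    haveI : FiniteDimensional ℚ (IntermediateField.adjoin ℚ (Set.range x)) :=
      finiteDimensional_adjoin_range x h.2
    haveI : NumberField (IntermediateField.adjoin ℚ (Set.range x)) := {}
    logHeight (fun i => (⟨x i, IntermediateField.subset_adjoin ℚ _ (Set.mem_range_self i)⟩ :
      IntermediateField.adjoin ℚ (Set.range x))) /
      (Module.finrank ℚ (IntermediateField.adjoin ℚ (Set.range x)) : ℝ)
  else 0

/-- The height of (the coefficient vector of) a polynomial. -/
noncomputable def htPoly {ι : Type*} (F : MvPolynomial ι Ω) : ℝ :=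
  ht (fun m : F.support => MvPolynomial.coeff (m : ι →₀ ℕ) F)

end Def

/-- Sup norm of the coefficients of a polynomial with respect to an absolute value. -/
noncomputable def supNorm {K : Type*} [Field K] {ι : Type*} (v : AbsoluteValue K ℝ)
    (F : MvPolynomial ι K) : ℝ :=
  ⨆ m : F.support, v (MvPolynomial.coeff (m : ι →₀ ℕ) F)

/-- `p` is multi-homogeneous of multidegree `d` in the blocks of variables `κ c`, `c : β`. -/
def IsMultiHomogeneous {R : Type*} [CommSemiring R] {β : Type*} {κ : β → Type*}
    [∀ c, Fintype (κ c)] (p : MvPolynomial (Σ c, κ c) R) (d : β → ℕ) : Prop :=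
  ∀ m ∈ p.support, ∀ c, ∑ i : κ c, m ⟨c, i⟩ = d c

/-- Evaluation of a polynomial in blocks of variables at a family of block vectors. -/
noncomputable def blockEval {R : Type*} [CommSemiring R] {β : Type*} {κ : β → Type*}
    (x : (c : β) → κ c → R) (p : MvPolynomial (Σ c, κ c) R) : R :=
  MvPolynomial.eval (fun s : Σ c, κ c => x s.1 s.2) p

end Fermat.Agent.S17.HT
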