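import Mathlib

set_option autoImplicit false
set_option linter.style.haveILetI false
set_option linter.unnecessarySimpa false

/-!
# Heights under extension of number fields (helper636, S17 library, Mathlib-only)

Main results (all for number fields `K`, `L`, a ring homomorphism `f : K →+* L`, finite `ι`):

* `mulHeight_comp_ringHom` : `mulHeight (fun i => f (x i)) = mulHeight x ^ finrank K L`
* `logHeight_comp_ringHom` : `logHeight (fun i => f (x i)) = finrank K L * logHeight x`
* `mulHeight_comp_ringEquiv` / `logHeight_comp_ringEquiv` : invariance under isomorphisms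

(`finrank K L` is taken with respect to `f.toAlgebra`.)  Ingredients: the archimedean part as a
product over complex embeddings (each embedding of `K` has `[L : K]` extensions), the finite
part of an integral tuple as the inverse absolute norm of the ideal it generates and
`Ideal.absNorm_algebraMap`.
-/

namespace Fermat.Agent.S17.HT.H636

open NumberField Height Module

section Arch

variable {K : Type*} [Field K] [NumberField K] {ι : Type*}

/-- The archimedean part of the height as a product over complex embeddings. -/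
theorem prod_infinitePlace_iSup_eq_prod_embeddings (x : ι → K) :
    ∏ v : InfinitePlace K, (⨆ i, v (x i)) ^ v.mult = ∏ φ : K →+* ℂ, ⨆ i, ‖φ (x i)‖ := by
  classical
  rw [← Finset.prod_fiberwise Finset.univ InfinitePlace.mk (fun φ : K →+* ℂ => ⨆ i, ‖φ (x i)‖)]
  refine Finset.prod_congr rfl fun w _ => ?_
  have h : ∀ φ ∈ ({φ | InfinitePlace.mk φ = w} : Finset (K →+* ℂ)),
      (⨆ i, ‖φ (x i)‖) = ⨆ i, w (x i) := by
    intro φ hφ
    rw [← (Finset.mem_filter.mp hφ).2]
    rfl
  rw [Finset.prod_congr rfl h, Finset.prod_const, InfinitePlace.card_filter_mk_eq]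

end Arch

section Fiber

variable {K L : Type*} [Field K] [NumberField K] [Field L] [NumberField L]

/-- Each complex embedding of `K` has exactly `[L : K]` extensions along `f : K →+* L`. -/
theorem card_filter_comp_eq (f : K →+* L) (φ : K →+* ℂ) [DecidableEq (K →+* ℂ)] :
    (Finset.univ.filter (fun ψ : L →+* ℂ => ψ.comp f = φ)).card =
      (letI := f.toAlgebra; finrank K L) := by
  letI := f.toAlgebra
  letI := φ.toAlgebra
  haveI : IsScalarTower ℚ K L := IsScalarTower.of_algebraMap_eq' (Subsingleton.elim _ _)
  haveI : FiniteDimensional K L := Module.Finite.of_restrictScalars_finite ℚ K L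
  rw [← AlgHom.card K L ℂ, ← Fintype.card_subtype]
  refine (Fintype.card_congr ?_).symm
  exact
    { toFun := fun g => ⟨g.toRingHom, by
        ext a
        exact g.commutes a⟩
      invFun := fun ψ => { (ψ.1 : L →+* ℂ) with
        commutes' := fun r => by
          have := congrArg (fun h : K →+* ℂ => h r) ψ.2
          exact this }
      left_inv := fun g => by ext; rfl
      right_inv := fun ψ => by ext; rfl }

variable {ι : Type*}

/-- The archimedean part of the height is raised to the power `[L : K]` under `f : K →+* L`. -/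
theorem prod_infinitePlace_comp (f : K →+* L) (x : ι → K) :
    ∏ w : InfinitePlace L, (⨆ i, w (f (x i))) ^ w.mult =
      (∏ v : InfinitePlace K, (⨆ i, v (x i)) ^ v.mult) ^ (letI := f.toAlgebra; finrank K L) := by
  classical
  rw [prod_infinitePlace_iSup_eq_prod_embeddings, prod_infinitePlace_iSup_eq_prod_embeddings,
    ← Finset.prod_pow,
    ← Finset.prod_fiberwise Finset.univ (fun ψ : L →+* ℂ => ψ.comp f)
      (fun ψ : L →+* ℂ => ⨆ i, ‖ψ (f (x i))‖)]
  refine Finset.prod_congr rfl fun φ _ => ?_
  have h : ∀ ψ ∈ (Finset.univ.filter (fun ψ : L →+* ℂ => ψ.comp f = φ)),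
      (⨆ i, ‖ψ (f (x i))‖) = ⨆ i, ‖φ (x i)‖ := by
    intro ψ hψ
    rw [← (Finset.mem_filter.mp hψ).2]
    rfl
  rw [Finset.prod_congr rfl h, Finset.prod_const]
  congr 1
  convert card_filter_comp_eq f φ

end Fiber

section Fin

variable {K L : Type*} [Field K] [NumberField K] [Field L] [NumberField L]
variable {ι : Type*} [Finite ι]

/-- The nonarchimedean part of the height of an integral tuple is raised to the power `[L : K]`
under `f : K →+* L`. -/
theorem finprod_finitePlace_comp (f : K →+* L) (y : ι → 𝓞 K) (hy : y ≠ 0) :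
    ∏ᶠ w : FinitePlace L, ⨆ i, w (f (y i : K)) =
      (∏ᶠ v : FinitePlace K, ⨆ i, v (y i : K)) ^ (letI := f.toAlgebra; finrank K L) := by
  letI := f.toAlgebra
  haveI : IsScalarTower ℚ K L := IsScalarTower.of_algebraMap_eq' (Subsingleton.elim _ _)
  haveI : FiniteDimensional K L := Module.Finite.of_restrictScalars_finite ℚ K L
  set y' : ι → 𝓞 L := fun i => algebraMap (𝓞 K) (𝓞 L) (y i) with hy'
  have hinj : Function.Injective (algebraMap (𝓞 K) (𝓞 L)) := by
    intro a b hab
    have : f (a : K) = f (b : K) := congrArg (fun z : 𝓞 L => (z : L)) hab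
    exact RingOfIntegers.ext (f.injective this)
  have hy'0 : y' ≠ 0 := by
    obtain ⟨i, hi⟩ := Function.ne_iff.mp hy
    refine Function.ne_iff.mpr ⟨i, ?_⟩
    simp only [hy', Pi.zero_apply]
    intro h
    exact hi (hinj (h.trans (map_zero _).symm))
  have h1 := absNorm_mul_finprod_finitePlace_eq_one hy
  have h2 := absNorm_mul_finprod_finitePlace_eq_one hy'0
  have hspan : Ideal.span (Set.range y') =
      (Ideal.span (Set.range y)).map (algebraMap (𝓞 K) (𝓞 L)) := by
    rw [Ideal.map_span, ← Set.range_comp]
    rfl
  have hnorm : Ideal.absNorm (Ideal.span (Set.range y')) =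
      Ideal.absNorm (Ideal.span (Set.range y)) ^ finrank K L := by
    rw [hspan, Ideal.absNorm_algebraMap, IsFractionRing.finrank_eq (𝓞 K) K (𝓞 L) L]
  have hcoe : ∀ i, ((y' i : 𝓞 L) : L) = f (y i : K) := fun i => rfl
  simp only [hcoe] at h2
  rw [hnorm] at h2
  have e1 : (∏ᶠ v : FinitePlace K, ⨆ i, v (y i : K)) =
      ((Ideal.absNorm (Ideal.span (Set.range y)) : ℕ) : ℝ)⁻¹ := eq_inv_of_mul_eq_one_right h1
  rw [e1, inv_pow]
  exact eq_inv_of_mul_eq_one_right (by exact_mod_cast h2)

end Fin

section Main

variable {K L : Type*} [Field K] [NumberField K] [Field L] [NumberField L]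
variable {ι : Type*} [Finite ι]

/-- **Heights under extension of number fields**: the (relative) multiplicative height of a
tuple is raised to the power `[L : K]` under a ring homomorphism `f : K →+* L`. -/
theorem mulHeight_comp_ringHom (f : K →+* L) (x : ι → K) :
    mulHeight (fun i => f (x i)) = mulHeight x ^ (letI := f.toAlgebra; finrank K L) := by
  rcases eq_or_ne x 0 with rfl | hx
  · have : (fun i : ι => f ((0 : ι → K) i)) = 0 := by
      funext i; simp
    rw [this, mulHeight_zero, mulHeight_zero, one_pow]
  obtain ⟨b, hb⟩ := IsLocalization.exist_integer_multiples_of_finite (nonZeroDivisors (𝓞 K)) x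
  choose y hy using hb
  have hb0 : ((b : 𝓞 K) : K) ≠ 0 := by
    have := nonZeroDivisors.coe_ne_zero b
    exact_mod_cast this
  have hy' : ∀ i, ((y i : 𝓞 K) : K) = ((b : 𝓞 K) : K) * x i := by
    intro i
    have := hy i
    rw [Algebra.smul_def] at this
    exact this
  have hy0 : y ≠ 0 := by
    obtain ⟨i, hi⟩ := Function.ne_iff.mp hx
    refine Function.ne_iff.mpr ⟨i, ?_⟩
    intro h
    have h' : ((y i : 𝓞 K) : K) = 0 := by rw [h]; rfl
    rw [hy' i] at h'
    exact (mul_ne_zero hb0 hi) h'
  have hyK : (fun i => ((y i : 𝓞 K) : K)) ≠ 0 := by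
    obtain ⟨i, hi⟩ := Function.ne_iff.mp hy0
    refine Function.ne_iff.mpr ⟨i, ?_⟩
    intro h
    exact hi (RingOfIntegers.ext h)
  have hyL : (fun i => f ((y i : 𝓞 K) : K)) ≠ 0 := by
    obtain ⟨i, hi⟩ := Function.ne_iff.mp hyK
    refine Function.ne_iff.mpr ⟨i, ?_⟩
    intro h
    exact hi (f.injective (h.trans (map_zero f).symm))
  have e1 : mulHeight x = mulHeight (fun i => ((y i : 𝓞 K) : K)) := by
    rw [← mulHeight_smul_eq_mulHeight x hb0]
    congr 1
    funext i
    rw [hy' i]; rfl
  have e2 : mulHeight (fun i => f (x i)) = mulHeight (fun i => f ((y i : 𝓞 K) : K)) := by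
    rw [← mulHeight_smul_eq_mulHeight (fun i => f (x i)) (c := f ((b : 𝓞 K) : K))
      (by simpa using hb0)]
    congr 1
    funext i
    rw [hy' i, map_mul]; rfl
  rw [e1, e2, NumberField.mulHeight_eq hyK, NumberField.mulHeight_eq hyL,
    prod_infinitePlace_comp f, finprod_finitePlace_comp f y hy0, mul_pow]


/-- Logarithmic version of `mulHeight_comp_ringHom`. -/
theorem logHeight_comp_ringHom (f : K →+* L) (x : ι → K) :
    logHeight (fun i => f (x i)) = (letI := f.toAlgebra; finrank K L : ℕ) * logHeight x := by
  rw [logHeight_eq_log_mulHeight, logHeight_eq_log_mulHeight, mulHeight_comp_ringHom,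
    Real.log_pow]

/-- The degree `[L : K]` with respect to a ring isomorphism is one. -/
theorem finrank_toAlgebra_ringEquiv (e : K ≃+* L) :
    (letI := (e : K →+* L).toAlgebra; finrank K L) = 1 := by
  letI := (e : K →+* L).toAlgebra
  have h : Function.Surjective (algebraMap K L) := e.surjective
  exact finrank_eq_one_iff'.mpr ⟨1, one_ne_zero, fun w => by
    obtain ⟨c, rfl⟩ := h w
    exact ⟨c, by rw [Algebra.smul_def, mul_one]⟩⟩

/-- Heights are invariant under isomorphisms of number fields. -/
theorem mulHeight_comp_ringEquiv (e : K ≃+* L) (x : ι → K) :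
    mulHeight (fun i => e (x i)) = mulHeight x := by
  have := mulHeight_comp_ringHom (e : K →+* L) x
  rw [finrank_toAlgebra_ringEquiv, pow_one] at this
  exact this

/-- Heights are invariant under isomorphisms of number fields. -/
theorem logHeight_comp_ringEquiv (e : K ≃+* L) (x : ι → K) :
    logHeight (fun i => e (x i)) = logHeight x := by
  rw [logHeight_eq_log_mulHeight, logHeight_eq_log_mulHeight, mulHeight_comp_ringEquiv]

end Main

end Fermat.Agent.S17.HT.H636
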