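import Mathlib
import Fermat.Agent.S17.HT.Defs
import Fermat.Agent.S17.HT.HeightExt636

set_option autoImplicit false
set_option linter.style.haveILetI false

/-!
# S17 / HT leaf L0 `Descent` — FROZEN v0, PROVED (helper636), no sorry

`ht` of a tuple coming from ANY number field `K` (via any ring hom `j : K →+* Ω`) is Mathlib's
`logHeight` over `K` divided by `[K : ℚ]`.  This is the only place where the definition of `ht`
is unfolded.  Proof: `ℚ(x) ↪ K` through `j`, tower law, and `H636.logHeight_comp_ringHom`
(heights under extension of number fields, proved in `HeightExt636.lean`).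
-/

namespace Fermat.Agent.S17.HT

open Height

variable {Ω : Type*} [Field Ω] [CharZero Ω] {ι : Type*} [Finite ι]

/-- Unfolding lemma for `ht` (auxiliary; use `ht_eq_logHeight_div` instead). -/
theorem ht_eq_of_isIntegral (x : ι → Ω) (hx : ∀ i, IsIntegral ℚ (x i))
    [NumberField (IntermediateField.adjoin ℚ (Set.range x))] :
    ht x = logHeight (fun i => (⟨x i, IntermediateField.subset_adjoin ℚ _ (Set.mem_range_self i)⟩ :
      IntermediateField.adjoin ℚ (Set.range x))) /
      (Module.finrank ℚ (IntermediateField.adjoin ℚ (Set.range x)) : ℝ) := by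
  unfold ht
  rw [dif_pos ⟨inferInstance, hx⟩]

/-- Auxiliary: two number fields, one inside `Ω` and contained in the image of the other. -/
theorem logHeight_div_eq_of_le {K : Type*} [Field K] [NumberField K] (j : K →+* Ω)
    (E : IntermediateField ℚ Ω) [NumberField E] (hle : ∀ e : E, ∃ k : K, j k = (e : Ω))
    (xE : ι → E) (y : ι → K) (hxy : ∀ i, j (y i) = (xE i : Ω)) :
    logHeight xE / (Module.finrank ℚ E : ℝ) = logHeight y / (Module.finrank ℚ K : ℝ) := by
  choose g hg using hle
  let gR : E →+* K :=
    { toFun := g
      map_one' := j.injective (by rw [hg, map_one]; rfl)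
      map_mul' := fun a b => j.injective (by rw [hg, map_mul, hg, hg]; rfl)
      map_zero' := j.injective (by rw [hg, map_zero]; rfl)
      map_add' := fun a b => j.injective (by rw [hg, map_add, hg, hg]; rfl) }
  have hgy : ∀ i, gR (xE i) = y i := fun i => j.injective ((hg _).trans (hxy i).symm)
  have h1 := H636.logHeight_comp_ringHom gR xE
  simp only [hgy] at h1
  letI : Algebra E K := gR.toAlgebra
  haveI : IsScalarTower ℚ E K := IsScalarTower.of_algebraMap_eq' (Subsingleton.elim _ _)
  haveI : FiniteDimensional E K := Module.Finite.of_restrictScalars_finite ℚ E K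
  have h2 : Module.finrank ℚ K = Module.finrank ℚ E * Module.finrank E K :=
    (Module.finrank_mul_finrank ℚ E K).symm
  have h3 : (Module.finrank E K : ℝ) ≠ 0 := by
    have : 0 < Module.finrank E K := Module.finrank_pos
    positivity
  have h4 : (Module.finrank ℚ E : ℝ) ≠ 0 := by
    have : 0 < Module.finrank ℚ E := Module.finrank_pos
    positivity
  rw [h1, h2]
  push_cast
  field_simp

/-- L0.1 -/
theorem ht_eq_logHeight_div {K : Type*} [Field K] [NumberField K] (j : K →+* Ω) (y : ι → K) :
    ht (fun i => j (y i)) = logHeight y / (Module.finrank ℚ K : ℝ) := by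
  have hx : ∀ i, IsIntegral ℚ (j (y i)) := fun i =>
    (Algebra.IsIntegral.isIntegral (R := ℚ) (y i)).map j.toRatAlgHom
  haveI : FiniteDimensional ℚ (IntermediateField.adjoin ℚ (Set.range fun i => j (y i))) :=
    finiteDimensional_adjoin_range _ hx
  haveI : NumberField (IntermediateField.adjoin ℚ (Set.range fun i => j (y i))) := {}
  rw [ht_eq_of_isIntegral _ hx]
  have hle : IntermediateField.adjoin ℚ (Set.range fun i => j (y i)) ≤ j.toRatAlgHom.fieldRange := by
    rw [IntermediateField.adjoin_le_iff]
    rintro _ ⟨i, rfl⟩
    exact ⟨y i, rfl⟩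
  exact logHeight_div_eq_of_le j _ (fun e => by
    obtain ⟨k, hk⟩ := hle e.2
    exact ⟨k, hk⟩) _ y (fun i => rfl)

/-- L0.2: every finite set of algebraic numbers lies in a number field inside `ℚ̄`. -/
theorem exists_numberField_of_finite (s : Set (AlgebraicClosure ℚ)) (hs : s.Finite) :
    ∃ K : IntermediateField ℚ (AlgebraicClosure ℚ), FiniteDimensional ℚ K ∧ s ⊆ K := by
  haveI : Finite s := hs.to_subtype
  exact ⟨IntermediateField.adjoin ℚ s,
    IntermediateField.finiteDimensional_adjoin (fun a _ => Algebra.IsIntegral.isIntegral a),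
    IntermediateField.subset_adjoin ℚ s⟩

end Fermat.Agent.S17.HT
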