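import Mathlib
import Fermat.Agent.S17.HT.Defs
import Fermat.Agent.S17.HT.Descent

set_option autoImplicit false

/-!
# S17 / HT leaf L1 `Basic` — FROZEN v0

Formal properties of the absolute height on `ℚ̄`-tuples.  Every proof: put all data in one number
field `K ⊆ ℚ̄` (`exists_numberField_of_finite`), rewrite with `ht_eq_logHeight_div`, and use the
corresponding Mathlib lemma (`Mathlib/NumberTheory/Height/Basic.lean`):
`logHeight_nonneg`, `logHeight_smul_eq_logHeight`, `logHeight_comp_le`, `logHeight_comp_equiv`,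
`logHeight_fun_mul_eq`, `logHeight_fun_prod_eq`, `logHeight_pow`, `logHeight_mul_le`,
`logHeight_eq_logHeight_restrict_support`, `logHeight_eq_zero_of_subsingleton`.
`ht_map`: `σ ∘ (K ↪ ℚ̄)` is another embedding of the same number field.
-/

namespace Fermat.Agent.S17.HT

open Height

local notation "ℚ̄" => AlgebraicClosure ℚ

variable {ι ι' : Type*} [Finite ι] [Finite ι']

/-- helper (helper5554): a finite set of algebraic numbers comes from a number field. -/
theorem basic5554_exists_field (s : Set ℚ̄) (hs : s.Finite) :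
    ∃ (K : Type) (_ : Field K) (_ : NumberField K) (j : K →+* ℚ̄), ∀ a ∈ s, ∃ b : K, j b = a := by
  obtain ⟨K, hK, hsK⟩ := exists_numberField_of_finite s hs
  have : NumberField K := {}
  exact ⟨K, inferInstance, inferInstance, algebraMap K ℚ̄, fun a ha => ⟨⟨a, hsK ha⟩, rfl⟩⟩

/-- helper (helper5554): lift a finite family (and a finite set) to a number field. -/
theorem basic5554_exists_lift (x : ι → ℚ̄) (s : Set ℚ̄) (hs : s.Finite) :
    ∃ (K : Type) (_ : Field K) (_ : NumberField K) (j : K →+* ℚ̄) (y : ι → K),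
      (x = fun i => j (y i)) ∧ ∀ a ∈ s, ∃ b : K, j b = a := by
  obtain ⟨K, _, _, j, hj⟩ :=
    basic5554_exists_field (Set.range x ∪ s) ((Set.finite_range x).union hs)
  choose y hy using fun i => hj (x i) (Or.inl (Set.mem_range_self i))
  exact ⟨K, inferInstance, inferInstance, j, y, funext fun i => (hy i).symm,
    fun a ha => hj a (Or.inr ha)⟩

/-- L1.1 -/
theorem ht_nonneg (x : ι → ℚ̄) : 0 ≤ ht x := by
  obtain ⟨K, _, _, j, y, rfl, -⟩ := basic5554_exists_lift x ∅ Set.finite_empty
  rw [ht_eq_logHeight_div j y]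
  exact div_nonneg (logHeight_nonneg y) (Nat.cast_nonneg _)

/-- L1.2 -/
theorem ht_zero : ht (0 : ι → ℚ̄) = 0 := by
  have h : (0 : ι → ℚ̄) = fun i => (algebraMap ℚ ℚ̄) ((0 : ι → ℚ) i) := by
    funext i
    simp
  rw [h, ht_eq_logHeight_div (algebraMap ℚ ℚ̄) (0 : ι → ℚ), logHeight_zero, zero_div]

/-- L1.3: `ht` is a projective height. -/
theorem ht_smul (x : ι → ℚ̄) {c : ℚ̄} (hc : c ≠ 0) : ht (c • x) = ht x := by
  obtain ⟨K, _, _, j, y, rfl, hs⟩ := basic5554_exists_lift x {c} (Set.finite_singleton c)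
  obtain ⟨c', rfl⟩ := hs c rfl
  have hc' : c' ≠ 0 := fun h => hc (by rw [h, map_zero])
  have h : (j c' • fun i => j (y i)) = fun i => j ((c' • y) i) := by
    funext i
    simp
  rw [h, ht_eq_logHeight_div, ht_eq_logHeight_div, logHeight_smul_eq_logHeight y hc']

/-- L1.4: passing to a subfamily (or repeating coordinates) does not increase the height. -/
theorem ht_comp_le (f : ι → ι') (x : ι' → ℚ̄) : ht (x ∘ f) ≤ ht x := by
  obtain ⟨K, _, _, j, y, rfl, -⟩ := basic5554_exists_lift x ∅ Set.finite_empty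
  have h : ((fun i => j (y i)) ∘ f) = fun i => j ((y ∘ f) i) := rfl
  rw [h, ht_eq_logHeight_div, ht_eq_logHeight_div]
  exact div_le_div_of_nonneg_right (logHeight_comp_le f y) (Nat.cast_nonneg _)

/-- L1.5 -/
theorem ht_comp_equiv (e : ι ≃ ι') (x : ι' → ℚ̄) : ht (x ∘ e) = ht x := by
  obtain ⟨K, _, _, j, y, rfl, -⟩ := basic5554_exists_lift x ∅ Set.finite_empty
  have h : ((fun i => j (y i)) ∘ e) = fun i => j ((y ∘ e) i) := rfl
  rw [h, ht_eq_logHeight_div, ht_eq_logHeight_div, logHeight_comp_equiv e y]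

/-- L1.6: Galois invariance (any ring endomorphism of `ℚ̄`). -/
theorem ht_map (σ : ℚ̄ →+* ℚ̄) (x : ι → ℚ̄) : ht (fun i => σ (x i)) = ht x := by
  obtain ⟨K, _, _, j, y, rfl, -⟩ := basic5554_exists_lift x ∅ Set.finite_empty
  have h : (fun i => σ (j (y i))) = fun i => (σ.comp j) (y i) := rfl
  rw [h, ht_eq_logHeight_div, ht_eq_logHeight_div]

/-- L1.7: on rational tuples `ht` is Mathlib's height over `ℚ`. -/
theorem ht_ratCast (y : ι → ℚ) : ht (fun i => ((y i : ℚ) : ℚ̄)) = logHeight y := by
  have h : (fun i => ((y i : ℚ) : ℚ̄)) = fun i => (algebraMap ℚ ℚ̄) (y i) := by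
    funext i
    simp
  rw [h, ht_eq_logHeight_div (algebraMap ℚ ℚ̄) y, Module.finrank_self, Nat.cast_one, div_one]

/-- L1.8 -/
theorem ht_of_subsingleton [Subsingleton ι] (x : ι → ℚ̄) : ht x = 0 := by
  obtain ⟨K, _, _, j, y, rfl, -⟩ := basic5554_exists_lift x ∅ Set.finite_empty
  rw [ht_eq_logHeight_div, logHeight_eq_zero_of_subsingleton, zero_div]

/-- L1.9: Segre: the height of the tensor product is the sum of the heights. -/
theorem ht_tensor (x : ι → ℚ̄) (y : ι' → ℚ̄) (hx : x ≠ 0) (hy : y ≠ 0) :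
    ht (fun p : ι × ι' => x p.1 * y p.2) = ht x + ht y := by
  obtain ⟨K, _, _, j, x', rfl, hs⟩ :=
    basic5554_exists_lift x (Set.range y) (Set.finite_range y)
  choose y' hy' using fun i => hs (y i) (Set.mem_range_self i)
  obtain rfl : y = fun i => j (y' i) := funext fun i => (hy' i).symm
  have hx' : x' ≠ 0 := fun h => hx (by funext i; simp [h])
  have hy'' : y' ≠ 0 := fun h => hy (by funext i; simp [h])
  have h : (fun p : ι × ι' => j (x' p.1) * j (y' p.2)) =
      fun p => j ((fun a : ι × ι' => x' a.1 * y' a.2) p) := by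
    funext p
    simp
  rw [h, ht_eq_logHeight_div, ht_eq_logHeight_div, ht_eq_logHeight_div,
    logHeight_fun_mul_eq hx' hy'', add_div]

/-- L1.10: Segre for finite families. -/
theorem ht_pi_prod {α : Type*} [Fintype α] {κ : α → Type*} [∀ a, Finite (κ a)]
    (x : (a : α) → κ a → ℚ̄) (hx : ∀ a, x a ≠ 0) :
    ht (fun s : (a : α) → κ a => ∏ a, x a (s a)) = ∑ a, ht (x a) := by
  have hfin : (⋃ a, Set.range (x a)).Finite := Set.finite_iUnion fun a => Set.finite_range (x a)
  obtain ⟨K, _, _, j, hj⟩ := basic5554_exists_field _ hfin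
  choose y hy using fun (a : α) (i : κ a) =>
    hj (x a i) (Set.mem_iUnion.mpr ⟨a, Set.mem_range_self i⟩)
  have hxy : ∀ a, x a = fun i => j (y a i) := fun a => funext fun i => (hy a i).symm
  have hy0 : ∀ a, y a ≠ 0 := fun a h => hx a (by rw [hxy a]; funext i; simp [h])
  have h : (fun s : (a : α) → κ a => ∏ a, x a (s a)) =
      fun s => j ((fun I : (a : α) → κ a => ∏ a, y a (I a)) s) := by
    funext s
    simp [hxy, map_prod]
  rw [h, ht_eq_logHeight_div, logHeight_fun_prod_eq hy0, Finset.sum_div]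
  refine Finset.sum_congr rfl fun a _ => ?_
  rw [hxy a, ht_eq_logHeight_div]

/-- L1.11 -/
theorem ht_pow (x : ι → ℚ̄) (n : ℕ) : ht (fun i => x i ^ n) = n * ht x := by
  obtain ⟨K, _, _, j, y, rfl, -⟩ := basic5554_exists_lift x ∅ Set.finite_empty
  have h : (fun i => j (y i) ^ n) = fun i => j ((y ^ n) i) := by
    funext i
    simp
  rw [h, ht_eq_logHeight_div, ht_eq_logHeight_div, logHeight_pow, mul_div_assoc]

/-- L1.12 -/
theorem ht_mul_le (x y : ι → ℚ̄) : ht (fun i => x i * y i) ≤ ht x + ht y := by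
  obtain ⟨K, _, _, j, x', rfl, hs⟩ :=
    basic5554_exists_lift x (Set.range y) (Set.finite_range y)
  choose y' hy' using fun i => hs (y i) (Set.mem_range_self i)
  obtain rfl : y = fun i => j (y' i) := funext fun i => (hy' i).symm
  have h : (fun i => j (x' i) * j (y' i)) = fun i => j ((x' * y') i) := by
    funext i
    simp
  rw [h, ht_eq_logHeight_div, ht_eq_logHeight_div, ht_eq_logHeight_div, ← add_div]
  exact div_le_div_of_nonneg_right (logHeight_mul_le x' y') (Nat.cast_nonneg _)

/-- L1.13: zero coordinates can be dropped. -/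
theorem ht_restrict_support (x : ι → ℚ̄) : ht (fun i : {i // x i ≠ 0} => x i) = ht x := by
  obtain ⟨K, _, _, j, y, rfl, -⟩ := basic5554_exists_lift x ∅ Set.finite_empty
  let e : {i // j (y i) ≠ 0} ≃ Function.support y :=
    Equiv.subtypeEquivRight fun i => by
      rw [Function.mem_support]
      exact map_ne_zero j
  have h : (fun i : {i // j (y i) ≠ 0} => j (y i)) =
      (fun i : Function.support y => j ((fun k : Function.support y => y k) i)) ∘ e := rfl
  rw [h, ht_comp_equiv, ht_eq_logHeight_div, ht_eq_logHeight_div,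
    ← logHeight_eq_logHeight_restrict_support]

/-- L1.14: the height of an affine point dominates the height of each coordinate. -/
theorem ht_pair_le (x : ι → ℚ̄) (i i₀ : ι) : ht ![x i, x i₀] ≤ ht x := by
  have h : ![x i, x i₀] = x ∘ ![i, i₀] := by
    funext k
    fin_cases k <;> rfl
  rw [h]
  exact ht_comp_le _ x

end Fermat.Agent.S17.HT
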