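import Mathlib
import Fermat.Agent.S17.H.Defs
import Fermat.Agent.S17.HT.Defs
import Fermat.Agent.S17.HT.Descent
import Fermat.Agent.S17.HT.Basic

set_option autoImplicit false
set_option linter.style.haveILetI false

/-!
# S17 / HT leaf L9 `Bridge` — the HT deliverables of the shared H-interface (helper2014)

`H.hbar` (the absolute height of `Fermat/Agent/S17/H/Defs.lean`) IS `ht` (`hbar_eq_ht`, proved
here by unfolding both definitions once), so the H-interface statements
`hbar_nonneg`, `hbar_smul`, `hbar_galois`, `hbar_tensor`, `hbar_rat` of `H/Interfaces.lean` are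
one-liners from leaf L1 (`Basic.lean`).  This file has NO sorry of its own (it depends on the
sorries of `Basic.lean` until L1 is delivered).  Statements are verbatim those of
`H/Interfaces.lean` (v2), in namespace `Fermat.Agent.S17.HT`.
-/

namespace Fermat.Agent.S17.HT

open Height

/-- Bridge: the height `hbar` of the shared H-interface (helper2014) is `ht`. -/
theorem hbar_eq_ht {ι : Type*} [Finite ι] (x : ι → AlgebraicClosure ℚ) : H.hbar x = ht x := by
  have hx : ∀ i, IsIntegral ℚ (x i) := fun i => Algebra.IsIntegral.isIntegral _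
  haveI : FiniteDimensional ℚ (IntermediateField.adjoin ℚ (Set.range x)) :=
    finiteDimensional_adjoin_range x hx
  haveI : NumberField (IntermediateField.adjoin ℚ (Set.range x)) := {}
  rw [ht_eq_of_isIntegral x hx]
  unfold H.hbar
  rw [inv_mul_eq_div]

/-- **HT** (H-interface): heights are nonnegative. -/
theorem hbar_nonneg {ι : Type*} [Finite ι] (x : ι → H.Qbar) : 0 ≤ H.hbar x := by
  rw [hbar_eq_ht]
  exact ht_nonneg x

/-- **HT** (H-interface): the absolute height is invariant under scaling (product formula). -/
theorem hbar_smul {ι : Type*} [Finite ι] (x : ι → H.Qbar) {c : H.Qbar} (hc : c ≠ 0) :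
    H.hbar (c • x) = H.hbar x := by
  rw [hbar_eq_ht, hbar_eq_ht, ht_smul x hc]

/-- **HT** (H-interface): the absolute height is Galois invariant. -/
theorem hbar_galois {ι : Type*} [Finite ι] (x : ι → H.Qbar) (σ : H.GalQ) :
    H.hbar (fun i => σ (x i)) = H.hbar x := by
  rw [hbar_eq_ht, hbar_eq_ht]
  exact ht_map (σ : H.Qbar →+* H.Qbar) x

/-- **HT** (H-interface): the absolute height of a tensor product is the sum of the heights. -/
theorem hbar_tensor {ι κ : Type*} [Finite ι] [Finite κ] {x : ι → H.Qbar} {y : κ → H.Qbar}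
    (hx : x ≠ 0) (hy : y ≠ 0) :
    H.hbar (fun p : ι × κ => x p.1 * y p.2) = H.hbar x + H.hbar y := by
  rw [hbar_eq_ht, hbar_eq_ht, hbar_eq_ht]
  exact ht_tensor x y hx hy

/-- **HT** (H-interface): on rational tuples the absolute height is Mathlib's `Height.logHeight`
over `ℚ`. -/
theorem hbar_rat {ι : Type*} [Finite ι] (x : ι → ℚ) :
    H.hbar (fun i => algebraMap ℚ H.Qbar (x i)) = Height.logHeight x := by
  rw [hbar_eq_ht]
  have : (fun i => algebraMap ℚ H.Qbar (x i)) = fun i => ((x i : ℚ) : AlgebraicClosure ℚ) := by
    funext i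
    exact eq_ratCast _ _
  rw [this]
  exact ht_ratCast x

end Fermat.Agent.S17.HT
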