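/-
S17 / HT (helper7378): evaluation `FND.evalAt` of functions at places — basic algebra, for the
frozen definitions of `Fermat/Agent/S17/FND/Defs.lean` (helper8457) used by `H/Defs.lean` v2.
Standing hypotheses: `K` algebraically closed, `[IsCurveOver K F]` (so every residue field is `K`).
Everything below is derived from `evalAt_of_notMem`, `residue_bijective`, `evalAt_spec`.
-/
import Fermat.Agent.S17.H.Defs
import Fermat.Agent.S24.A564.PlaceBasic

set_option autoImplicit false

namespace Fermat.Agent.S17.HT.H7378

open AlgebraicCurve Fermat.Agent.S17.H Fermat.Agent.S17.FND Fermat.Agent.S24.A564.SO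

section Eval

variable {K F : Type*} [Field K] [Field F] [Algebra K F]

/-- `evalAt` vanishes at non-regular functions. -/
theorem evalAt_of_notMem (P : Place K F) {f : F} (hf : f ∉ P.toValuationSubring) :
    evalAt P f = 0 := by
  classical
  unfold evalAt
  rw [dif_neg hf]

variable [IsAlgClosed K] [IsCurveOver K F]

theorem residue_bijective (P : Place K F) :
    Function.Bijective (algebraMap K P.ResidueField) := by
  have : Module.Finite K P.ResidueField := IsCurveOver.finiteResidue P
  have : Algebra.IsIntegral K P.ResidueField := Algebra.IsIntegral.of_finite K P.ResidueField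
  exact IsAlgClosed.algebraMap_bijective_of_isIntegral

/-- Defining property of `evalAt` at regular functions. -/
theorem evalAt_spec (P : Place K F) {f : F} (hf : f ∈ P.toValuationSubring) :
    algebraMap K P.ResidueField (evalAt P f) =
      IsLocalRing.residue P.toValuationSubring ⟨f, hf⟩ := by
  classical
  unfold evalAt
  rw [dif_pos hf]
  exact Function.invFun_eq ((residue_bijective P).2 _)

theorem evalAt_eq_of_residue (P : Place K F) {f : F} (hf : f ∈ P.toValuationSubring) {a : K}
    (ha : algebraMap K P.ResidueField a = IsLocalRing.residue P.toValuationSubring ⟨f, hf⟩) :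
    evalAt P f = a :=
  (residue_bijective P).1 ((evalAt_spec P hf).trans ha.symm)

theorem evalAt_algebraMap (P : Place K F) (c : K) : evalAt P (algebraMap K F c) = c :=
  evalAt_eq_of_residue P (P.algebraMap_mem' c) rfl

theorem evalAt_one (P : Place K F) : evalAt P (1 : F) = 1 := by
  have h := evalAt_algebraMap P (1 : K)
  rwa [map_one] at h

theorem evalAt_zero (P : Place K F) : evalAt P (0 : F) = 0 := by
  have h := evalAt_algebraMap P (0 : K)
  rwa [map_zero] at h

theorem evalAt_add (P : Place K F) {f g : F} (hf : f ∈ P.toValuationSubring)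
    (hg : g ∈ P.toValuationSubring) : evalAt P (f + g) = evalAt P f + evalAt P g := by
  refine evalAt_eq_of_residue P (add_mem hf hg) ?_
  rw [map_add, evalAt_spec P hf, evalAt_spec P hg, ← map_add]
  rfl

theorem evalAt_mul (P : Place K F) {f g : F} (hf : f ∈ P.toValuationSubring)
    (hg : g ∈ P.toValuationSubring) : evalAt P (f * g) = evalAt P f * evalAt P g := by
  refine evalAt_eq_of_residue P (mul_mem hf hg) ?_
  rw [map_mul, evalAt_spec P hf, evalAt_spec P hg, ← map_mul]
  rfl

theorem evalAt_const_mul (P : Place K F) (c : K) {f : F} (hf : f ∈ P.toValuationSubring) :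
    evalAt P (algebraMap K F c * f) = c * evalAt P f := by
  rw [evalAt_mul P (P.algebraMap_mem' c) hf, evalAt_algebraMap]

theorem evalAt_sum (P : Place K F) {ι : Type*} (s : Finset ι) (f : ι → F)
    (hf : ∀ i ∈ s, f i ∈ P.toValuationSubring) :
    evalAt P (∑ i ∈ s, f i) = ∑ i ∈ s, evalAt P (f i) := by
  classical
  induction s using Finset.induction_on with
  | empty => simp [evalAt_zero]
  | insert a s ha ih =>
    rw [Finset.sum_insert ha, Finset.sum_insert ha,
      evalAt_add P (hf a (Finset.mem_insert_self a s))
        (sum_mem fun i hi => hf i (Finset.mem_insert_of_mem hi)),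
      ih fun i hi => hf i (Finset.mem_insert_of_mem hi)]

/-- For regular `f`: `f(P) = 0` iff `f = 0` or `ord_P f > 0`. -/
theorem evalAt_eq_zero_iff (P : Place K F) {f : F} (hf : f ∈ P.toValuationSubring) :
    evalAt P f = 0 ↔ f = 0 ∨ 0 < P.ord f := by
  have h1 : evalAt P f = 0 ↔ IsLocalRing.residue P.toValuationSubring ⟨f, hf⟩ = 0 := by
    rw [← evalAt_spec P hf, map_eq_zero_iff _ (residue_bijective P).1]
  rw [h1, IsLocalRing.residue_eq_zero_iff, IsLocalRing.mem_maximalIdeal, mem_nonunits_iff,
    ← P.adicValuation_coe_eq_one_iff]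
  rcases eq_or_ne f 0 with rfl | hf0
  · simp
  · have hnn := Place_ord_nonneg_of_mem P hf
    rw [P.adicValuation_eq_exp_neg_ord hf0, or_iff_right hf0]
    constructor
    · intro h
      rcases hnn.lt_or_eq with h2 | h2
      · exact h2
      · exfalso
        apply h
        rw [← h2]
        simp
    · intro h h2
      have h3 : WithZero.exp (-P.ord f) = WithZero.exp (0 : ℤ) := by rw [h2]; simp
      have h4 := WithZero.exp_injective h3
      omega

theorem evalAt_ne_zero_of_ord_eq_zero (P : Place K F) {f : F} (hf0 : f ≠ 0)
    (h : P.ord f = 0) : evalAt P f ≠ 0 := by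
  have hf : f ∈ P.toValuationSubring := Place_mem_of_ord_nonneg P h.ge
  rw [Ne, evalAt_eq_zero_iff P hf, not_or]
  exact ⟨hf0, by omega⟩

theorem evalAt_eq_zero_of_ord_pos (P : Place K F) {f : F} (h : 0 < P.ord f) :
    evalAt P f = 0 := by
  have hf : f ∈ P.toValuationSubring := Place_mem_of_ord_nonneg P h.le
  exact (evalAt_eq_zero_iff P hf).mpr (Or.inr h)

end Eval

end Fermat.Agent.S17.HT.H7378
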