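import Mathlib

/-!
# Local bounds for the coefficients of a product of multivariate polynomials (helper5554)

LIB for project S17, package HT.  Everything is stated "sup-free":
`∀ s t, ∃ u, c * (v (coeff s f) * v (coeff t g)) ≤ v (coeff u (f * g))`
means `c * ‖f‖_v * ‖g‖_v ≤ ‖f g‖_v` for the Gauss (sup) norm of the coefficient vector.

* `exists_le_abv_coeff_mul_of_isNonarchimedean` : Gauss lemma, constant `1`, any nonarchimedean
  absolute value on a field, any set of variables.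
* `exists_pos_mul_le_norm_coeff_mul` : over `ℂ`, for polynomials supported in fixed finite sets of
  monomials `S`, `T`, there is `c = c(S, T) > 0` (compactness of unit spheres; "Gelfond").
* `exists_pos_mul_le_norm_map_coeff_mul` : the same for any field with a ring hom to `ℂ`
  (archimedean places of number fields), the constant does not depend on the field.
* `abv_coeff_mul_le` / `abv_coeff_mul_le_of_isNonarchimedean` : the trivial upper bounds.
-/

namespace Fermat.Agent.S17.HT.H5554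

open MvPolynomial

open scoped Classical

universe u

variable {σ : Type*}

section polyOf

variable {R : Type*} [CommSemiring R]

/-- The polynomial with prescribed coefficients on a finite set of monomials. -/
noncomputable def polyOf (S : Finset (σ →₀ ℕ)) (a : S → R) : MvPolynomial σ R :=
  ∑ s : S, monomial s.1 (a s)

theorem coeff_polyOf (S : Finset (σ →₀ ℕ)) (a : S → R) (u : σ →₀ ℕ) :
    coeff u (polyOf S a) = if h : u ∈ S then a ⟨u, h⟩ else 0 := by
  classical
  simp only [polyOf, coeff_sum, coeff_monomial]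
  split_ifs with h
  · rw [Finset.sum_eq_single ⟨u, h⟩]
    · simp
    · intro b _ hb
      rw [if_neg]
      intro hbu
      exact hb (Subtype.ext hbu)
    · intro hu
      exact absurd (Finset.mem_univ _) hu
  · refine Finset.sum_eq_zero fun b _ => ?_
    rw [if_neg]
    intro hbu
    exact h (hbu ▸ b.2)

theorem polyOf_coeff (S : Finset (σ →₀ ℕ)) (f : MvPolynomial σ R)
    (hf : ∀ u, coeff u f ≠ 0 → u ∈ S) :
    polyOf S (fun s => coeff s.1 f) = f := by
  ext u
  rw [coeff_polyOf]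
  split_ifs with h
  · rfl
  · by_contra hne
    exact h (hf u (Ne.symm hne))

theorem polyOf_smul (S : Finset (σ →₀ ℕ)) (r : R) (a : S → R) :
    polyOf S (r • a) = C r * polyOf S a := by
  simp only [polyOf, Finset.mul_sum, C_mul_monomial, Pi.smul_apply, smul_eq_mul]

theorem coeff_polyOf_mul (S T : Finset (σ →₀ ℕ)) (a : S → R) (b : T → R) (u : σ →₀ ℕ) :
    coeff u (polyOf S a * polyOf T b) =
      ∑ s : S, ∑ t : T, if s.1 + t.1 = u then a s * b t else 0 := by
  classical
  simp only [polyOf, Finset.sum_mul_sum, monomial_mul, coeff_sum, coeff_monomial]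

end polyOf

section complex

/-- Compactness kernel: on the product of the unit spheres the product polynomial has a
coefficient bounded below. -/
theorem exists_pos_le_norm_coeff_polyOf_mul (S T : Finset (σ →₀ ℕ)) :
    ∃ c : ℝ, 0 < c ∧ ∀ (a : S → ℂ) (b : T → ℂ), ‖a‖ = 1 → ‖b‖ = 1 →
      ∃ u : σ →₀ ℕ, c ≤ ‖coeff u (polyOf S a * polyOf T b)‖ := by
  classical
  set U : Finset (σ →₀ ℕ) := (S ×ˢ T).image (fun p => p.1 + p.2) with hU
  set Ψ : (S → ℂ) × (T → ℂ) → (U → ℂ) := fun p u =>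
    ∑ s : S, ∑ t : T, if s.1 + t.1 = u.1 then p.1 s * p.2 t else 0 with hΨ
  have hΨc : Continuous Ψ := by
    refine continuous_pi fun u => ?_
    refine continuous_finsetSum _ fun s _ => continuous_finsetSum _ fun t _ => ?_
    by_cases h : s.1 + t.1 = u.1
    · simp only [h, if_true]
      exact ((continuous_apply s).comp continuous_fst).mul
        ((continuous_apply t).comp continuous_snd)
    · simp only [h, if_false]
      exact continuous_const
  have hΨcoeff : ∀ (p : (S → ℂ) × (T → ℂ)) (u : U),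
      Ψ p u = coeff u.1 (polyOf S p.1 * polyOf T p.2) := by
    intro p u
    rw [coeff_polyOf_mul]
  -- a nonzero coefficient of the product lies in `U`
  have hmemU : ∀ (a : S → ℂ) (b : T → ℂ) (u : σ →₀ ℕ),
      coeff u (polyOf S a * polyOf T b) ≠ 0 → u ∈ U := by
    intro a b u hu
    rw [coeff_polyOf_mul] at hu
    obtain ⟨s, -, hs⟩ := Finset.exists_ne_zero_of_sum_ne_zero hu
    obtain ⟨t, -, ht⟩ := Finset.exists_ne_zero_of_sum_ne_zero hs
    have hst : s.1 + t.1 = u := by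
      by_contra h
      exact ht (if_neg h)
    rw [hU, Finset.mem_image]
    exact ⟨(s.1, t.1), Finset.mem_product.mpr ⟨s.2, t.2⟩, hst⟩
  have hpoly_ne : ∀ (S' : Finset (σ →₀ ℕ)) (a : S' → ℂ), a ≠ 0 → polyOf S' a ≠ 0 := by
    intro S' a ha h0
    apply ha
    funext s
    have := coeff_polyOf S' a s.1
    rw [h0, dif_pos s.2] at this
    simpa using this.symm
  set Z : Set ((S → ℂ) × (T → ℂ)) := Metric.sphere 0 1 ×ˢ Metric.sphere 0 1 with hZ
  have hZc : IsCompact Z := (isCompact_sphere 0 1).prod (isCompact_sphere 0 1)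
  by_cases hne : Z.Nonempty
  · obtain ⟨p₀, hp₀, hmin⟩ := hZc.exists_isMinOn hne (continuous_norm.comp hΨc).continuousOn
    have hp₀' : ‖p₀.1‖ = 1 ∧ ‖p₀.2‖ = 1 := by
      simpa [hZ, Set.mem_prod, mem_sphere_iff_norm] using hp₀
    have h1 : p₀.1 ≠ 0 := by
      intro h
      rw [h, norm_zero] at hp₀'
      exact zero_ne_one hp₀'.1
    have h2 : p₀.2 ≠ 0 := by
      intro h
      rw [h, norm_zero] at hp₀'
      exact zero_ne_one hp₀'.2
    have hprod : polyOf S p₀.1 * polyOf T p₀.2 ≠ 0 :=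
      mul_ne_zero (hpoly_ne S _ h1) (hpoly_ne T _ h2)
    obtain ⟨u₀, hu₀⟩ := MvPolynomial.ne_zero_iff.mp hprod
    have hu₀U := hmemU _ _ u₀ hu₀
    have hΨ₀ : Ψ p₀ ≠ 0 := by
      intro h
      apply hu₀
      rw [← hΨcoeff p₀ ⟨u₀, hu₀U⟩, h]
      rfl
    refine ⟨‖Ψ p₀‖, norm_pos_iff.mpr hΨ₀, fun a b ha hb => ?_⟩
    have hab : (a, b) ∈ Z := by
      simp [hZ, Set.mem_prod, mem_sphere_iff_norm, ha, hb]
    have hle : ‖Ψ p₀‖ ≤ ‖Ψ (a, b)‖ := hmin hab
    by_contra hcon
    push Not at hcon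
    have : ‖Ψ (a, b)‖ < ‖Ψ p₀‖ := by
      rw [pi_norm_lt_iff (norm_pos_iff.mpr hΨ₀)]
      intro u
      rw [hΨcoeff]
      exact hcon u.1
    exact absurd hle (not_le.mpr this)
  · refine ⟨1, one_pos, fun a b ha hb => ?_⟩
    exfalso
    apply hne
    exact ⟨(a, b), by simp [hZ, Set.mem_prod, mem_sphere_iff_norm, ha, hb]⟩

/-- **Archimedean bound ("Gelfond", by compactness).** For polynomials over `ℂ` supported in fixed
finite sets of monomials `S`, `T`: `c * ‖f‖ * ‖g‖ ≤ ‖f * g‖` for the sup norm of coefficients. -/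
theorem exists_pos_mul_le_norm_coeff_mul (S T : Finset (σ →₀ ℕ)) :
    ∃ c : ℝ, 0 < c ∧ ∀ f g : MvPolynomial σ ℂ,
      (∀ u, coeff u f ≠ 0 → u ∈ S) → (∀ u, coeff u g ≠ 0 → u ∈ T) →
      ∀ s t : σ →₀ ℕ, ∃ u : σ →₀ ℕ,
        c * (‖coeff s f‖ * ‖coeff t g‖) ≤ ‖coeff u (f * g)‖ := by
  obtain ⟨c, hc, H⟩ := exists_pos_le_norm_coeff_polyOf_mul S T
  refine ⟨c, hc, fun f g hf hg s t => ?_⟩
  set a : S → ℂ := fun s => coeff s.1 f with ha
  set b : T → ℂ := fun t => coeff t.1 g with hb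
  have hfa : polyOf S a = f := polyOf_coeff S f hf
  have hgb : polyOf T b = g := polyOf_coeff T g hg
  have hsa : ‖coeff s f‖ ≤ ‖a‖ := by
    by_cases hs : s ∈ S
    · exact norm_le_pi_norm a ⟨s, hs⟩
    · have : coeff s f = 0 := by
        by_contra h
        exact hs (hf s h)
      rw [this, norm_zero]
      exact norm_nonneg _
  have htb : ‖coeff t g‖ ≤ ‖b‖ := by
    by_cases ht : t ∈ T
    · exact norm_le_pi_norm b ⟨t, ht⟩
    · have : coeff t g = 0 := by
        by_contra h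
        exact ht (hg t h)
      rw [this, norm_zero]
      exact norm_nonneg _
  by_cases ha0 : a = 0
  · refine ⟨0, ?_⟩
    have : ‖coeff s f‖ = 0 := le_antisymm (by simpa [ha0] using hsa) (norm_nonneg _)
    rw [this, zero_mul, mul_zero]
    exact norm_nonneg _
  by_cases hb0 : b = 0
  · refine ⟨0, ?_⟩
    have : ‖coeff t g‖ = 0 := le_antisymm (by simpa [hb0] using htb) (norm_nonneg _)
    rw [this, mul_zero, mul_zero]
    exact norm_nonneg _
  have hna : 0 < ‖a‖ := norm_pos_iff.mpr ha0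
  have hnb : 0 < ‖b‖ := norm_pos_iff.mpr hb0
  have h1 : ‖((‖a‖⁻¹ : ℝ) : ℂ) • a‖ = 1 := by
    rw [norm_smul, Complex.norm_real, norm_inv, norm_norm, inv_mul_cancel₀ hna.ne']
  have h2 : ‖((‖b‖⁻¹ : ℝ) : ℂ) • b‖ = 1 := by
    rw [norm_smul, Complex.norm_real, norm_inv, norm_norm, inv_mul_cancel₀ hnb.ne']
  obtain ⟨u, hu⟩ := H _ _ h1 h2
  refine ⟨u, ?_⟩
  rw [polyOf_smul, polyOf_smul, hfa, hgb,
    show C ((‖a‖⁻¹ : ℝ) : ℂ) * f * (C ((‖b‖⁻¹ : ℝ) : ℂ) * g)
      = C (((‖a‖⁻¹ : ℝ) : ℂ) * ((‖b‖⁻¹ : ℝ) : ℂ)) * (f * g) by rw [C_mul]; ring,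
    coeff_C_mul, norm_mul, norm_mul, Complex.norm_real, Complex.norm_real, norm_inv, norm_inv,
    norm_norm, norm_norm] at hu
  have hu' : c * (‖a‖ * ‖b‖) ≤ ‖coeff u (f * g)‖ := by
    have := mul_le_mul_of_nonneg_right hu (mul_pos hna hnb).le
    calc c * (‖a‖ * ‖b‖) ≤ ‖a‖⁻¹ * ‖b‖⁻¹ * ‖coeff u (f * g)‖ * (‖a‖ * ‖b‖) := this
      _ = ‖coeff u (f * g)‖ := by field_simp
  refine le_trans ?_ hu'
  gcongr

/-- The same bound for polynomials over any field mapping to `ℂ` (an archimedean place of a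
number field); the constant depends only on `S`, `T`, not on the field. -/
theorem exists_pos_mul_le_norm_map_coeff_mul (S T : Finset (σ →₀ ℕ)) :
    ∃ c : ℝ, 0 < c ∧ ∀ (K : Type u) [Field K] (φ : K →+* ℂ) (f g : MvPolynomial σ K),
      (∀ u, coeff u f ≠ 0 → u ∈ S) → (∀ u, coeff u g ≠ 0 → u ∈ T) →
      ∀ s t : σ →₀ ℕ, ∃ u : σ →₀ ℕ,
        c * (‖φ (coeff s f)‖ * ‖φ (coeff t g)‖) ≤ ‖φ (coeff u (f * g))‖ := by
  obtain ⟨c, hc, H⟩ := exists_pos_mul_le_norm_coeff_mul S T
  refine ⟨c, hc, fun K _ φ f g hf hg s t => ?_⟩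
  have hf' : ∀ u, coeff u (map φ f) ≠ 0 → u ∈ S := by
    intro u hu
    apply hf u
    intro h
    apply hu
    rw [coeff_map, h, map_zero]
  have hg' : ∀ u, coeff u (map φ g) ≠ 0 → u ∈ T := by
    intro u hu
    apply hg u
    intro h
    apply hu
    rw [coeff_map, h, map_zero]
  obtain ⟨u, hu⟩ := H (map φ f) (map φ g) hf' hg' s t
  refine ⟨u, ?_⟩
  rw [← map_mul, coeff_map, coeff_map, coeff_map] at hu
  exact hu

end complex

section nonarch

variable {K : Type*} [Field K]

/-- A nonzero polynomial has a coefficient of maximal absolute value which is minimal, among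
those, for a lexicographic order on monomials. -/
theorem exists_max_abv_coeff_lexMin [LinearOrder σ] (v : AbsoluteValue K ℝ)
    (f : MvPolynomial σ K) (hf : f ≠ 0) :
    ∃ s₀ : σ →₀ ℕ, 0 < v (coeff s₀ f) ∧ (∀ s, v (coeff s f) ≤ v (coeff s₀ f)) ∧
      ∀ s, toLex s < toLex s₀ → v (coeff s f) < v (coeff s₀ f) := by
  have hne : f.support.Nonempty := by
    rw [Finset.nonempty_iff_ne_empty, ne_eq, MvPolynomial.support_eq_empty]
    exact hf
  obtain ⟨m, hm, hmax⟩ := Finset.exists_max_image f.support (fun s => v (coeff s f)) hne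
  have hmpos : 0 < v (coeff m f) := v.pos (MvPolynomial.mem_support_iff.mp hm)
  have hle : ∀ s, v (coeff s f) ≤ v (coeff m f) := by
    intro s
    by_cases hs : s ∈ f.support
    · exact hmax s hs
    · rw [MvPolynomial.notMem_support_iff.mp hs, map_zero]
      exact hmpos.le
  set A : Finset (σ →₀ ℕ) := f.support.filter (fun s => v (coeff s f) = v (coeff m f)) with hA
  have hAne : A.Nonempty := ⟨m, by simp [hA, hm]⟩
  obtain ⟨s₀, hs₀, hmin⟩ := Finset.exists_min_image A (fun s => toLex s) hAne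
  have hs₀' : v (coeff s₀ f) = v (coeff m f) := by
    have := hs₀
    rw [hA, Finset.mem_filter] at this
    exact this.2
  refine ⟨s₀, hs₀' ▸ hmpos, fun s => hs₀' ▸ hle s, fun s hs => ?_⟩
  rw [hs₀']
  refine lt_of_le_of_ne (hle s) fun heq => ?_
  have hsA : s ∈ A := by
    rw [hA, Finset.mem_filter]
    refine ⟨?_, heq⟩
    rw [MvPolynomial.mem_support_iff]
    intro h0
    rw [h0, map_zero] at heq
    exact hmpos.ne heq
  exact absurd (hmin s hsA) (not_le.mpr hs)

/-- **Gauss lemma** for a nonarchimedean absolute value, sup-free form: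
`‖f‖ * ‖g‖ ≤ ‖f * g‖` for the sup norm of coefficients. -/
theorem exists_le_abv_coeff_mul_of_isNonarchimedean (v : AbsoluteValue K ℝ)
    (hv : IsNonarchimedean v) (f g : MvPolynomial σ K) (s t : σ →₀ ℕ) :
    ∃ u : σ →₀ ℕ, v (coeff s f) * v (coeff t g) ≤ v (coeff u (f * g)) := by
  by_cases hf : f = 0
  · exact ⟨0, by simp [hf]⟩
  by_cases hg : g = 0
  · exact ⟨0, by simp [hg]⟩
  let _ : LinearOrder σ := IsWellOrder.linearOrder WellOrderingRel
  obtain ⟨s₀, hs₀pos, hs₀max, hs₀min⟩ := exists_max_abv_coeff_lexMin v f hf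
  obtain ⟨t₀, ht₀pos, ht₀max, ht₀min⟩ := exists_max_abv_coeff_lexMin v g hg
  refine ⟨s₀ + t₀, ?_⟩
  have key : v (coeff (s₀ + t₀) (f * g)) = v (coeff s₀ f * coeff t₀ g) := by
    rw [coeff_mul]
    have hmem : (s₀, t₀) ∈ Finset.HasAntidiagonal.antidiagonal (s₀ + t₀) :=
      Finset.HasAntidiagonal.mem_antidiagonal.mpr rfl
    refine IsNonarchimedean.apply_sum_eq_of_lt hv (fun a => (v.map_neg a).symm)
      (k := (s₀, t₀)) hmem ?_
    intro p hp hpne
    have hp' : p.1 + p.2 = s₀ + t₀ := Finset.HasAntidiagonal.mem_antidiagonal.mp hp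
    rw [map_mul, map_mul]
    rcases lt_trichotomy (toLex p.1) (toLex s₀) with h | h | h
    · exact lt_of_le_of_lt (mul_le_mul_of_nonneg_left (ht₀max p.2) (v.nonneg _))
        (mul_lt_mul_of_pos_right (hs₀min p.1 h) ht₀pos)
    · exfalso
      have h1 : p.1 = s₀ := toLex.injective h
      apply hpne
      rw [h1] at hp'
      exact Prod.ext h1 (add_left_cancel hp')
    · have h' : toLex p.2 < toLex t₀ := by
        by_contra hcon
        push Not at hcon
        have hlt : toLex s₀ + toLex t₀ < toLex p.1 + toLex p.2 := add_lt_add_of_lt_of_le h hcon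
        rw [← toLex_add, ← toLex_add, hp'] at hlt
        exact lt_irrefl _ hlt
      exact lt_of_le_of_lt (mul_le_mul_of_nonneg_right (hs₀max p.1) (v.nonneg _))
        (mul_lt_mul_of_pos_left (ht₀min p.2 h') hs₀pos)
  rw [key, map_mul]
  exact mul_le_mul (hs₀max s) (ht₀max t) (v.nonneg _) hs₀pos.le

end nonarch

section upper

variable {K : Type*} [Field K]

/-- A polynomial has a coefficient of maximal absolute value. -/
theorem exists_max_abv_coeff (v : AbsoluteValue K ℝ) (f : MvPolynomial σ K) :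
    ∃ s₀ : σ →₀ ℕ, ∀ s, v (coeff s f) ≤ v (coeff s₀ f) := by
  by_cases hf : f = 0
  · exact ⟨0, fun s => by simp [hf]⟩
  have hne : f.support.Nonempty := by
    rw [Finset.nonempty_iff_ne_empty, ne_eq, MvPolynomial.support_eq_empty]
    exact hf
  obtain ⟨m, hm, hmax⟩ := Finset.exists_max_image f.support (fun s => v (coeff s f)) hne
  refine ⟨m, fun s => ?_⟩
  by_cases hs : s ∈ f.support
  · exact hmax s hs
  · rw [MvPolynomial.notMem_support_iff.mp hs, map_zero]
    exact v.nonneg _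

theorem coeff_mul_eq_sum_support (f g : MvPolynomial σ K) (u : σ →₀ ℕ) :
    coeff u (f * g) = ∑ s ∈ f.support, if s ≤ u then coeff s f * coeff (u - s) g else 0 := by
  conv_lhs => rw [f.as_sum]
  rw [Finset.sum_mul, coeff_sum]
  refine Finset.sum_congr rfl fun s _ => ?_
  rw [coeff_monomial_mul']

/-- Trivial upper bound (any absolute value): `‖f * g‖ ≤ #supp f * ‖f‖ * ‖g‖`. -/
theorem abv_coeff_mul_le (v : AbsoluteValue K ℝ) (f g : MvPolynomial σ K) :
    ∃ s t : σ →₀ ℕ, ∀ u : σ →₀ ℕ,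
      v (coeff u (f * g)) ≤ f.support.card * (v (coeff s f) * v (coeff t g)) := by
  obtain ⟨s₀, hs₀⟩ := exists_max_abv_coeff v f
  obtain ⟨t₀, ht₀⟩ := exists_max_abv_coeff v g
  refine ⟨s₀, t₀, fun u => ?_⟩
  rw [coeff_mul_eq_sum_support]
  refine le_trans (v.sum_le _ _) ?_
  rw [← nsmul_eq_mul, ← Finset.sum_const]
  refine Finset.sum_le_sum fun s _ => ?_
  split_ifs with h
  · rw [map_mul]
    exact mul_le_mul (hs₀ s) (ht₀ _) (v.nonneg _) (v.nonneg _)
  · rw [map_zero]
    exact mul_nonneg (v.nonneg _) (v.nonneg _)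

/-- Upper bound for a nonarchimedean absolute value: `‖f * g‖ ≤ ‖f‖ * ‖g‖`. -/
theorem abv_coeff_mul_le_of_isNonarchimedean (v : AbsoluteValue K ℝ) (hv : IsNonarchimedean v)
    (f g : MvPolynomial σ K) :
    ∃ s t : σ →₀ ℕ, ∀ u : σ →₀ ℕ,
      v (coeff u (f * g)) ≤ v (coeff s f) * v (coeff t g) := by
  obtain ⟨s₀, hs₀⟩ := exists_max_abv_coeff v f
  obtain ⟨t₀, ht₀⟩ := exists_max_abv_coeff v g
  refine ⟨s₀, t₀, fun u => ?_⟩
  rw [coeff_mul_eq_sum_support]
  obtain ⟨i, -, hi⟩ := IsNonarchimedean.finset_image_add (map_zero v) v.nonneg hv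
    (fun s => if s ≤ u then coeff s f * coeff (u - s) g else 0) f.support
  refine le_trans hi ?_
  split_ifs with h
  · rw [map_mul]
    exact mul_le_mul (hs₀ i) (ht₀ _) (v.nonneg _) (v.nonneg _)
  · rw [map_zero]
    exact mul_nonneg (v.nonneg _) (v.nonneg _)

end upper

end Fermat.Agent.S17.HT.H5554
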