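import Mathlib
import Fermat.Agent.S17.HT.Defs
import Fermat.Agent.S17.HT.ProdHeight5554

set_option autoImplicit false

/-!
# S17 / HT leaf L5 `Gauss` — FROZEN v0 (Mathlib only, local, nonarchimedean)

Gauss's lemma for multivariate polynomials: for a nonarchimedean absolute value `v` on a field,
the sup norm of the coefficients is multiplicative.

Proof routes: (a) `≤` is the ultrametric inequality; for `≥` order the monomials by a monomial
order (`MonomialOrder.lex`, `Finsupp.Lex`), take in `F` (resp. `G`) the SMALLEST monomial `a`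
(resp. `b`) whose coefficient has maximal absolute value; the coefficient of `a + b` in `F * G` is
`F_a G_b +` terms of strictly smaller absolute value.  (b) Induction on the number of variables
with Mathlib's univariate `Polynomial.gaussNorm_mul` / `gaussNorm_isAbsoluteValue`
(`Mathlib/RingTheory/Polynomial/GaussNorm.lean`) and `MvPolynomial.finSuccEquiv`, then
`MvPolynomial.rename` for a general finite (or arbitrary) `ι`.
-/

namespace Fermat.Agent.S17.HT

open MvPolynomial

variable {K : Type*} [Field K] {ι : Type*}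

/-- L5.1 -/
theorem supNorm_nonneg (v : AbsoluteValue K ℝ) (F : MvPolynomial ι K) : 0 ≤ supNorm v F :=
  Real.iSup_nonneg_of_nonnegHomClass v _

/-- L5.2 -/
theorem le_supNorm (v : AbsoluteValue K ℝ) (F : MvPolynomial ι K) (m : ι →₀ ℕ) :
    v (coeff m F) ≤ supNorm v F := by
  classical
  by_cases hs : m ∈ F.support
  · exact Finite.le_ciSup_of_le (f := fun i : F.support => v (coeff (i : ι →₀ ℕ) F)) ⟨m, hs⟩ le_rfl
  · rw [MvPolynomial.notMem_support_iff.mp hs, map_zero]
    exact supNorm_nonneg v F

/-- helper (helper5554): the sup norm is attained. -/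
theorem gauss5554_exists_eq_supNorm (v : AbsoluteValue K ℝ) (F : MvPolynomial ι K) :
    ∃ m : ι →₀ ℕ, supNorm v F = v (coeff m F) := by
  obtain ⟨s₀, hs₀⟩ := H5554.exists_max_abv_coeff v F
  refine ⟨s₀, le_antisymm ?_ (le_supNorm v F s₀)⟩
  rcases isEmpty_or_nonempty F.support with h | h
  · unfold supNorm
    rw [Real.iSup_of_isEmpty]
    exact v.nonneg _
  · exact ciSup_le fun m => hs₀ m

/-- helper (helper5554) -/
theorem gauss5554_supNorm_one (v : AbsoluteValue K ℝ) :
    supNorm v (1 : MvPolynomial ι K) = 1 := by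
  classical
  obtain ⟨m, hm⟩ := gauss5554_exists_eq_supNorm v (1 : MvPolynomial ι K)
  refine le_antisymm ?_ ?_
  · rw [hm, MvPolynomial.coeff_one]
    split_ifs
    · rw [map_one]
    · rw [map_zero]
      exact zero_le_one
  · have := le_supNorm v (1 : MvPolynomial ι K) 0
    rwa [MvPolynomial.coeff_zero_one, map_one] at this

/-- L5.3 -/
theorem supNorm_eq_zero_iff (v : AbsoluteValue K ℝ) (F : MvPolynomial ι K) :
    supNorm v F = 0 ↔ F = 0 := by
  constructor
  · intro h
    by_contra hF
    obtain ⟨u, hu⟩ := MvPolynomial.ne_zero_iff.mp hF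
    have := le_supNorm v F u
    rw [h] at this
    exact absurd (v.pos hu) (not_lt.mpr this)
  · rintro rfl
    obtain ⟨m, hm⟩ := gauss5554_exists_eq_supNorm v (0 : MvPolynomial ι K)
    rw [hm, MvPolynomial.coeff_zero, map_zero]

/-- L5.4: **Gauss's lemma**. -/
theorem supNorm_mul (v : AbsoluteValue K ℝ) (hv : IsNonarchimedean v) (F G : MvPolynomial ι K) :
    supNorm v (F * G) = supNorm v F * supNorm v G := by
  obtain ⟨s, hs⟩ := gauss5554_exists_eq_supNorm v F
  obtain ⟨t, ht⟩ := gauss5554_exists_eq_supNorm v G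
  apply le_antisymm
  · obtain ⟨s', t', h⟩ := H5554.abv_coeff_mul_le_of_isNonarchimedean v hv F G
    obtain ⟨u, hu⟩ := gauss5554_exists_eq_supNorm v (F * G)
    rw [hu]
    exact (h u).trans (mul_le_mul (le_supNorm v F s') (le_supNorm v G t') (v.nonneg _)
      (supNorm_nonneg v F))
  · obtain ⟨u, hu⟩ := H5554.exists_le_abv_coeff_mul_of_isNonarchimedean v hv F G s t
    rw [hs, ht]
    exact hu.trans (le_supNorm v (F * G) u)

/-- L5.5 -/
theorem supNorm_prod (v : AbsoluteValue K ℝ) (hv : IsNonarchimedean v) {α : Type*}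
    (s : Finset α) (F : α → MvPolynomial ι K) :
    supNorm v (∏ a ∈ s, F a) = ∏ a ∈ s, supNorm v (F a) := by
  classical
  induction s using Finset.induction_on with
  | empty => simp [gauss5554_supNorm_one]
  | insert a s ha ih => rw [Finset.prod_insert ha, supNorm_mul v hv, ih, Finset.prod_insert ha]

end Fermat.Agent.S17.HT
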