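import Fermat.Agent.S17.HT.Defs
import Fermat.Agent.S17.HT.ProdHeight5554

/-!
# Helper file for leaf L6 `Gelfond` (helper5554)

Two-sided archimedean comparison of `supNorm v (F * G)` with `supNorm v F * supNorm v G` for
polynomials of bounded total degree, for `v = ‖φ ·‖`, `φ : K →+* ℂ`; constants independent of `K`.
The lower bound is `H5554.exists_pos_mul_le_norm_map_coeff_mul` (compactness).
-/

namespace Fermat.Agent.S17.HT.H5554

open MvPolynomial

open scoped Classical

universe u

variable {ι : Type*}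

section supNorm

variable {K : Type*} [Field K]

theorem supNorm_nonneg_aux (v : AbsoluteValue K ℝ) (F : MvPolynomial ι K) : 0 ≤ supNorm v F :=
  Real.iSup_nonneg_of_nonnegHomClass v _

theorem le_supNorm_aux (v : AbsoluteValue K ℝ) (F : MvPolynomial ι K) (m : ι →₀ ℕ) :
    v (coeff m F) ≤ supNorm v F := by
  by_cases hs : m ∈ F.support
  · exact Finite.le_ciSup_of_le (f := fun i : F.support => v (coeff (i : ι →₀ ℕ) F)) ⟨m, hs⟩ le_rfl
  · rw [MvPolynomial.notMem_support_iff.mp hs, map_zero]
    exact supNorm_nonneg_aux v F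

theorem exists_eq_supNorm_aux (v : AbsoluteValue K ℝ) (F : MvPolynomial ι K) :
    ∃ m : ι →₀ ℕ, supNorm v F = v (coeff m F) := by
  obtain ⟨s₀, hs₀⟩ := exists_max_abv_coeff v F
  refine ⟨s₀, le_antisymm ?_ (le_supNorm_aux v F s₀)⟩
  rcases isEmpty_or_nonempty F.support with h | h
  · unfold supNorm
    rw [Real.iSup_of_isEmpty]
    exact v.nonneg _
  · exact ciSup_le fun m => hs₀ m

end supNorm

section degree

variable [Finite ι]

/-- The finite set of monomials of degree `≤ d`. -/
noncomputable def degFinset (ι : Type*) [Finite ι] (d : ℕ) : Finset (ι →₀ ℕ) :=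
  (Finsupp.finite_of_degree_le (σ := ι) d).toFinset

theorem mem_degFinset_of_coeff_ne_zero {R : Type*} [CommSemiring R] {d : ℕ}
    (F : MvPolynomial ι R) (hF : F.totalDegree ≤ d) (u : ι →₀ ℕ) (hu : coeff u F ≠ 0) :
    u ∈ degFinset ι d := by
  rw [degFinset, Set.Finite.mem_toFinset]
  have h1 := MvPolynomial.le_totalDegree (MvPolynomial.mem_support_iff.mpr hu)
  exact le_trans (le_of_eq rfl) (h1.trans hF)

theorem support_subset_degFinset {R : Type*} [CommSemiring R] {d : ℕ}
    (F : MvPolynomial ι R) (hF : F.totalDegree ≤ d) : F.support ⊆ degFinset ι d :=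
  fun u hu => mem_degFinset_of_coeff_ne_zero F hF u (MvPolynomial.mem_support_iff.mp hu)

/-- Gelfond-type two-sided bound at an archimedean place, uniform in the field. -/
theorem supNorm_mul_bounds (d : ℕ) :
    ∃ c C : ℝ, 0 < c ∧ 0 < C ∧ ∀ (K : Type u) [Field K] (φ : K →+* ℂ) (v : AbsoluteValue K ℝ),
      (∀ a, v a = ‖φ a‖) → ∀ F G : MvPolynomial ι K, F.totalDegree ≤ d → G.totalDegree ≤ d →
        c * (supNorm v F * supNorm v G) ≤ supNorm v (F * G) ∧
        supNorm v (F * G) ≤ C * (supNorm v F * supNorm v G) := by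
  obtain ⟨c, hc, H⟩ := exists_pos_mul_le_norm_map_coeff_mul.{u, _} (degFinset ι d) (degFinset ι d)
  refine ⟨c, ((degFinset ι d).card : ℝ) + 1, hc, by positivity, ?_⟩
  intro K _ φ v hv F G hF hG
  obtain ⟨s, hs⟩ := exists_eq_supNorm_aux v F
  obtain ⟨t, ht⟩ := exists_eq_supNorm_aux v G
  constructor
  · obtain ⟨w, hw⟩ := H K φ F G (mem_degFinset_of_coeff_ne_zero F hF)
      (mem_degFinset_of_coeff_ne_zero G hG) s t
    rw [hs, ht, hv, hv]
    refine hw.trans ?_
    rw [← hv]
    exact le_supNorm_aux v (F * G) w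
  · obtain ⟨s', t', h⟩ := abv_coeff_mul_le v F G
    obtain ⟨w, hw⟩ := exists_eq_supNorm_aux v (F * G)
    rw [hw]
    refine (h w).trans ?_
    have h1 : (F.support.card : ℝ) ≤ ((degFinset ι d).card : ℝ) + 1 := by
      have := Finset.card_le_card (support_subset_degFinset F hF)
      have h2 : (F.support.card : ℝ) ≤ ((degFinset ι d).card : ℝ) := by exact_mod_cast this
      linarith
    have h3 : v (coeff s' F) * v (coeff t' G) ≤ supNorm v F * supNorm v G :=
      mul_le_mul (le_supNorm_aux v F s') (le_supNorm_aux v G t') (v.nonneg _)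
        (supNorm_nonneg_aux v F)
    exact mul_le_mul h1 h3 (mul_nonneg (v.nonneg _) (v.nonneg _)) (by positivity)

end degree

end Fermat.Agent.S17.HT.H5554
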