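import Mathlib
import Fermat.Agent.S17.HT.Defs
import Fermat.Agent.S17.HT.Gelfond5554

set_option autoImplicit false

/-!
# S17 / HT leaf L6 `Gelfond` — FROZEN v0 (Mathlib only, local, archimedean)

Two-sided comparison of the sup norm of a product of complex polynomials of bounded degree with
the product of the sup norms.  Constants depend only on the degree bound and on `ι`.

`supNormC_mul_le`: each coefficient of `F * G` is a sum of at most `#F.support` products.
`supNormC_mul_ge` (Gelfond; SOFT proof by compactness, no Mahler measure): the space `P_d` of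
polynomials of total degree `≤ d` is finite-dimensional (`MvPolynomial.restrictTotalDegree`), the
unit sphere for the sup norm of coefficients is compact, `(F, G) ↦ supNormC (F * G)` is continuous
(the coefficients of the product are polynomial in the coefficients) and positive on the product
of the two spheres (`MvPolynomial ι ℂ` is a domain), so it has a positive minimum `c`; conclude by
homogeneity.  Concretely one may work with coefficient functions `{m // degree m ≤ d} → ℂ` with
the sup norm (`Pi` normed space, `isCompact_sphere`).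
-/

namespace Fermat.Agent.S17.HT

open MvPolynomial

variable {ι : Type*} [Finite ι]

/-- Sup norm of the coefficients of a complex polynomial. -/
noncomputable def supNormC (F : MvPolynomial ι ℂ) : ℝ :=
  ⨆ m : F.support, ‖coeff (m : ι →₀ ℕ) F‖

omit [Finite ι] in
/-- helper (helper5554): `supNormC` is `supNorm` for the usual absolute value of `ℂ`. -/
theorem gelfond5554_supNormC_eq (F : MvPolynomial ι ℂ) :
    supNormC F = supNorm (NormedField.toAbsoluteValue ℂ) F := rfl

/-- L6.1 -/
theorem supNormC_mul_le (d : ℕ) :
    ∃ C : ℝ, 0 < C ∧ ∀ F G : MvPolynomial ι ℂ, F.totalDegree ≤ d → G.totalDegree ≤ d →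
      supNormC (F * G) ≤ C * (supNormC F * supNormC G) := by
  obtain ⟨c, C, hc, hC, H⟩ := H5554.supNorm_mul_bounds.{0} (ι := ι) d
  refine ⟨C, hC, fun F G hF hG => ?_⟩
  simp only [gelfond5554_supNormC_eq]
  exact (H ℂ (RingHom.id ℂ) (NormedField.toAbsoluteValue ℂ) (fun a => rfl) F G hF hG).2

/-- L6.2: **Gelfond's inequality** (non-effective constant). -/
theorem supNormC_mul_ge (d : ℕ) :
    ∃ c : ℝ, 0 < c ∧ ∀ F G : MvPolynomial ι ℂ, F.totalDegree ≤ d → G.totalDegree ≤ d →
      c * (supNormC F * supNormC G) ≤ supNormC (F * G) := by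
  obtain ⟨c, C, hc, hC, H⟩ := H5554.supNorm_mul_bounds.{0} (ι := ι) d
  refine ⟨c, hc, fun F G hF hG => ?_⟩
  simp only [gelfond5554_supNormC_eq]
  exact (H ℂ (RingHom.id ℂ) (NormedField.toAbsoluteValue ℂ) (fun a => rfl) F G hF hG).1

/-- L6.3: the same for an archimedean absolute value coming from a complex embedding. -/
theorem supNorm_comp_mul_bounds (d : ℕ) :
    ∃ c C : ℝ, 0 < c ∧ 0 < C ∧ ∀ (K : Type) [Field K] (φ : K →+* ℂ) (v : AbsoluteValue K ℝ),
      (∀ a, v a = ‖φ a‖) → ∀ F G : MvPolynomial ι K, F.totalDegree ≤ d → G.totalDegree ≤ d →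
        c * (supNorm v F * supNorm v G) ≤ supNorm v (F * G) ∧
        supNorm v (F * G) ≤ C * (supNorm v F * supNorm v G) :=
  H5554.supNorm_mul_bounds.{0} (ι := ι) d

end Fermat.Agent.S17.HT
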