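import Fermat.Agent.S17.HT.ProdHeight5554

/-!
# Height of a product of polynomials over a number field (helper5554)

LIB for project S17, package HT.

* `mulHeight_le_pow_mul_mulHeight_of_local` : local-to-global comparison for any
  `AdmissibleAbsValues K`: local bounds `sup_v x ≤ C * sup_v y` (archimedean) and
  `sup_v x ≤ sup_v y` (nonarchimedean) give `mulHeight x ≤ C ^ totalWeight K * mulHeight y`.
* `polyMulHeight f` : height of the coefficient vector of a polynomial.
* `exists_pos_pow_mul_le_polyMulHeight_mul` : for fixed finite sets of monomials `S`, `T` there is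
  `c > 0` such that for EVERY number field `K` and nonzero `f`, `g` supported in `S`, `T`:
  `c ^ [K:ℚ] * (H f * H g) ≤ H (f * g)`.
* `polyMulHeight_mul_le` : `H (f * g) ≤ (#supp f) ^ [K:ℚ] * (H f * H g)`.
-/

namespace Fermat.Agent.S17.HT.H5554

open MvPolynomial Height AdmissibleAbsValues

open scoped Classical

universe u

variable {σ : Type*}

section localglobal

variable {K : Type*} [Field K] [AdmissibleAbsValues K] {ι ι' : Type*} [Finite ι] [Finite ι']

theorem hasFiniteMulSupport_iSup_nonarch {x : ι → K} (hx : x ≠ 0) :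
    (fun v : nonarchAbsVal (K := K) ↦ ⨆ i, v.val (x i)).HasFiniteMulSupport := by
  have : Nonempty {j // x j ≠ 0} := nonempty_subtype.mpr <| Function.ne_iff.mp hx
  suffices (fun v : nonarchAbsVal (K := K) ↦
      ⨆ i : {j // x j ≠ 0}, v.val (x i)).HasFiniteMulSupport by
    convert! this with v
    obtain ⟨i, hi⟩ : ∃ j, x j ≠ 0 := Function.ne_iff.mp hx
    have : Nonempty ι := .intro i
    refine le_antisymm (ciSup_le fun j ↦ ?_) (ciSup_le fun ⟨j, hj⟩ ↦ Finite.le_ciSup_of_le j le_rfl)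
    rcases eq_or_ne (x j) 0 with h | h
    · rw [h, v.val.map_zero]
      exact Real.iSup_nonneg' ⟨⟨i, hi⟩, v.val.nonneg ..⟩
    · exact Finite.le_ciSup_of_le ⟨j, h⟩ le_rfl
  fun_prop (disch := grind)

/-- Local-to-global comparison of heights. -/
theorem mulHeight_le_pow_mul_mulHeight_of_local {x : ι → K} {y : ι' → K} (hx : x ≠ 0)
    (hy : y ≠ 0) {C : ℝ} (hC : 0 ≤ C)
    (harch : ∀ v ∈ archAbsVal (K := K), ⨆ i, v (x i) ≤ C * ⨆ j, v (y j))
    (hnonarch : ∀ v ∈ nonarchAbsVal (K := K), ⨆ i, v (x i) ≤ ⨆ j, v (y j)) :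
    mulHeight x ≤ C ^ totalWeight K * mulHeight y := by
  rw [mulHeight_eq hx, mulHeight_eq hy, ← mul_assoc]
  have h1 : (archAbsVal.map fun v : AbsoluteValue K ℝ ↦ ⨆ i, v (x i)).prod ≤
      C ^ totalWeight K * (archAbsVal.map fun v : AbsoluteValue K ℝ ↦ ⨆ j, v (y j)).prod := by
    calc (archAbsVal.map fun v : AbsoluteValue K ℝ ↦ ⨆ i, v (x i)).prod
        ≤ (archAbsVal.map fun v : AbsoluteValue K ℝ ↦ C * ⨆ j, v (y j)).prod :=
          Multiset.prod_map_le_prod_map₀ _ _
            (fun v _ ↦ Real.iSup_nonneg_of_nonnegHomClass v _) harch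
      _ = C ^ totalWeight K * (archAbsVal.map fun v : AbsoluteValue K ℝ ↦ ⨆ j, v (y j)).prod := by
          rw [Multiset.prod_map_mul, Multiset.map_const', Multiset.prod_replicate]
          rfl
  have h2 : ∏ᶠ v : nonarchAbsVal (K := K), ⨆ i, v.val (x i) ≤
      ∏ᶠ v : nonarchAbsVal (K := K), ⨆ j, v.val (y j) :=
    finprod_le_finprod (hasFiniteMulSupport_iSup_nonarch hx)
      (fun v ↦ Real.iSup_nonneg_of_nonnegHomClass v.val _)
      (hasFiniteMulSupport_iSup_nonarch hy) fun v ↦ hnonarch v.val v.prop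
  refine mul_le_mul h1 h2 (finprod_nonneg fun v ↦ Real.iSup_nonneg_of_nonnegHomClass v.val _) ?_
  exact mul_nonneg (pow_nonneg hC _)
    (Multiset.prod_map_nonneg fun v _ ↦ Real.iSup_nonneg_of_nonnegHomClass v _)

end localglobal

section poly

variable {K : Type*} [Field K]

theorem coeffVec_ne_zero (f : MvPolynomial σ K) (hf : f ≠ 0) :
    (fun s : f.support => coeff (s : σ →₀ ℕ) f) ≠ 0 := by
  obtain ⟨u, hu⟩ := MvPolynomial.ne_zero_iff.mp hf
  intro h
  exact hu (congrFun h ⟨u, MvPolynomial.mem_support_iff.mpr hu⟩)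

theorem abv_coeff_le_iSup (v : AbsoluteValue K ℝ) (f : MvPolynomial σ K) (s : σ →₀ ℕ) :
    v (coeff s f) ≤ ⨆ i : f.support, v (coeff (i : σ →₀ ℕ) f) := by
  by_cases hs : s ∈ f.support
  · exact Finite.le_ciSup_of_le (f := fun i : f.support => v (coeff (i : σ →₀ ℕ) f)) ⟨s, hs⟩ le_rfl
  · rw [MvPolynomial.notMem_support_iff.mp hs, map_zero]
    exact Real.iSup_nonneg_of_nonnegHomClass v _

theorem abv_mul_le_iSup_prod (v : AbsoluteValue K ℝ) (f g : MvPolynomial σ K) (s t : σ →₀ ℕ) :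
    v (coeff s f) * v (coeff t g) ≤
      ⨆ p : f.support × g.support, v (coeff (p.1 : σ →₀ ℕ) f * coeff (p.2 : σ →₀ ℕ) g) := by
  by_cases hs : s ∈ f.support
  · by_cases ht : t ∈ g.support
    · refine Finite.le_ciSup_of_le
        (f := fun p : f.support × g.support =>
          v (coeff (p.1 : σ →₀ ℕ) f * coeff (p.2 : σ →₀ ℕ) g)) (⟨s, hs⟩, ⟨t, ht⟩) ?_
      rw [map_mul]
    · rw [MvPolynomial.notMem_support_iff.mp ht, map_zero, mul_zero]
      exact Real.iSup_nonneg_of_nonnegHomClass v _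
  · rw [MvPolynomial.notMem_support_iff.mp hs, map_zero, zero_mul]
    exact Real.iSup_nonneg_of_nonnegHomClass v _

variable [AdmissibleAbsValues K]

/-- The multiplicative height of the coefficient vector of a polynomial. -/
noncomputable def polyMulHeight (f : MvPolynomial σ K) : ℝ :=
  mulHeight (fun s : f.support => coeff (s : σ →₀ ℕ) f)

theorem one_le_polyMulHeight (f : MvPolynomial σ K) : 1 ≤ polyMulHeight f :=
  one_le_mulHeight _

theorem polyMulHeight_pos (f : MvPolynomial σ K) : 0 < polyMulHeight f :=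
  mulHeight_pos _

omit [AdmissibleAbsValues K] in
theorem tensorVec_ne_zero (f g : MvPolynomial σ K) (hf : f ≠ 0) (hg : g ≠ 0) :
    (fun p : f.support × g.support => coeff (p.1 : σ →₀ ℕ) f * coeff (p.2 : σ →₀ ℕ) g) ≠ 0 := by
  obtain ⟨u, hu⟩ := MvPolynomial.ne_zero_iff.mp hf
  obtain ⟨w, hw⟩ := MvPolynomial.ne_zero_iff.mp hg
  intro h
  exact mul_ne_zero hu hw (congrFun h (⟨u, MvPolynomial.mem_support_iff.mpr hu⟩,
    ⟨w, MvPolynomial.mem_support_iff.mpr hw⟩))

theorem mulHeight_tensorVec (f g : MvPolynomial σ K) (hf : f ≠ 0) (hg : g ≠ 0) :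
    mulHeight (fun p : f.support × g.support => coeff (p.1 : σ →₀ ℕ) f * coeff (p.2 : σ →₀ ℕ) g)
      = polyMulHeight f * polyMulHeight g :=
  mulHeight_fun_mul_eq (coeffVec_ne_zero f hf) (coeffVec_ne_zero g hg)

/-- Upper bound: `H (f * g) ≤ (#supp f) ^ totalWeight K * (H f * H g)`. -/
theorem polyMulHeight_mul_le (f g : MvPolynomial σ K) (hf : f ≠ 0) (hg : g ≠ 0) :
    polyMulHeight (f * g) ≤
      (f.support.card : ℝ) ^ totalWeight K * (polyMulHeight f * polyMulHeight g) := by
  have hfg : f * g ≠ 0 := mul_ne_zero hf hg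
  rw [← mulHeight_tensorVec f g hf hg]
  have hne : Nonempty (f * g).support := by
    obtain ⟨u, hu⟩ := MvPolynomial.ne_zero_iff.mp hfg
    exact ⟨⟨u, MvPolynomial.mem_support_iff.mpr hu⟩⟩
  refine mulHeight_le_pow_mul_mulHeight_of_local (coeffVec_ne_zero _ hfg)
    (tensorVec_ne_zero f g hf hg) (Nat.cast_nonneg _) (fun v _ => ?_) (fun v hv => ?_)
  · obtain ⟨s, t, h⟩ := abv_coeff_mul_le v f g
    refine ciSup_le fun u => (h u).trans ?_
    exact mul_le_mul_of_nonneg_left (abv_mul_le_iSup_prod v f g s t) (Nat.cast_nonneg _)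
  · obtain ⟨s, t, h⟩ := abv_coeff_mul_le_of_isNonarchimedean v
      (AdmissibleAbsValues.isNonarchimedean v hv) f g
    exact ciSup_le fun u => (h u).trans (abv_mul_le_iSup_prod v f g s t)

end poly

section numberfield

open NumberField

/-- **Height of a product of polynomials, lower bound.** For fixed finite sets of monomials `S`,
`T` there is `c > 0` such that for every number field `K` and all nonzero `f`, `g` over `K`
supported in `S`, `T`: `c ^ [K:ℚ] * (H f * H g) ≤ H (f * g)`. -/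
theorem exists_pos_pow_mul_le_polyMulHeight_mul (S T : Finset (σ →₀ ℕ)) :
    ∃ c : ℝ, 0 < c ∧ ∀ (K : Type u) [Field K] [NumberField K] (f g : MvPolynomial σ K),
      f ≠ 0 → g ≠ 0 → (∀ u, coeff u f ≠ 0 → u ∈ S) → (∀ u, coeff u g ≠ 0 → u ∈ T) →
      c ^ Module.finrank ℚ K * (polyMulHeight f * polyMulHeight g) ≤ polyMulHeight (f * g) := by
  obtain ⟨c, hc, H⟩ := exists_pos_mul_le_norm_map_coeff_mul.{u, _} S T
  refine ⟨c, hc, fun K _ _ f g hf hg hfS hgT => ?_⟩
  have hfg : f * g ≠ 0 := mul_ne_zero hf hg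
  have hne : Nonempty (f.support × g.support) := by
    obtain ⟨u, hu⟩ := MvPolynomial.ne_zero_iff.mp hf
    obtain ⟨w, hw⟩ := MvPolynomial.ne_zero_iff.mp hg
    exact ⟨(⟨u, MvPolynomial.mem_support_iff.mpr hu⟩, ⟨w, MvPolynomial.mem_support_iff.mpr hw⟩)⟩
  have key : mulHeight (fun p : f.support × g.support =>
      coeff (p.1 : σ →₀ ℕ) f * coeff (p.2 : σ →₀ ℕ) g) ≤
      c⁻¹ ^ totalWeight K * polyMulHeight (f * g) := by
    refine mulHeight_le_pow_mul_mulHeight_of_local (tensorVec_ne_zero f g hf hg)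
      (coeffVec_ne_zero _ hfg) (inv_nonneg.mpr hc.le) (fun v hv => ?_) (fun v hv => ?_)
    · have hv' : IsInfinitePlace v := mem_multisetInfinitePlace.mp hv
      obtain ⟨φ, rfl⟩ := hv'
      refine ciSup_le fun p => ?_
      obtain ⟨w, hw⟩ := H K φ f g hfS hgT p.1.1 p.2.1
      rw [place_apply, map_mul, norm_mul]
      have h1 : ‖φ (coeff w (f * g))‖ ≤
          ⨆ j : (f * g).support, (place φ) (coeff (j : σ →₀ ℕ) (f * g)) :=
        abv_coeff_le_iSup (place φ) (f * g) w
      rw [le_inv_mul_iff₀ hc]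
      exact hw.trans h1
    · have hna := AdmissibleAbsValues.isNonarchimedean v hv
      refine ciSup_le fun p => ?_
      obtain ⟨w, hw⟩ := exists_le_abv_coeff_mul_of_isNonarchimedean v hna f g p.1.1 p.2.1
      rw [map_mul]
      exact hw.trans (abv_coeff_le_iSup v (f * g) w)
  rw [mulHeight_tensorVec f g hf hg, totalWeight_eq_finrank] at key
  calc c ^ Module.finrank ℚ K * (polyMulHeight f * polyMulHeight g)
      ≤ c ^ Module.finrank ℚ K * (c⁻¹ ^ Module.finrank ℚ K * polyMulHeight (f * g)) := by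
        gcongr
    _ = polyMulHeight (f * g) := by
        rw [← mul_assoc, ← mul_pow, mul_inv_cancel₀ hc.ne', one_pow, one_mul]

end numberfield

end Fermat.Agent.S17.HT.H5554
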