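import Mathlib
import Fermat.Agent.S17.HT.Defs
import Fermat.Agent.S17.HT.Descent
import Fermat.Agent.S17.HT.Basic
import Fermat.Agent.S17.HT.Gauss
import Fermat.Agent.S17.HT.Gelfond
import Fermat.Agent.S17.HT.Gelfond5554
import Fermat.Agent.S17.HT.ProdHeightNF5554

set_option autoImplicit false

/-!
# S17 / HT leaf L7 `PolyMul` — FROZEN v0

Heights of polynomials (coefficient vectors): `htPoly (F * G) = htPoly F + htPoly G + O_d(1)`
("Gauss + Gelfond"); in particular the height of a product of linear forms (the Chow form of a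
0-cycle) is the sum of the heights of the points up to a constant depending only on the number of
points and of variables.

Proof of `htPoly_mul`: put the coefficients of `F`, `G` in a number field `K ⊆ ℚ̄`; by
`ht_eq_logHeight_div` and `NumberField.mulHeight_eq`,
`[K:ℚ] * htPoly F = ∑_{v | ∞} mult v * log (supNorm v F) + ∑ᶠ_{v finite} log (supNorm v F)`;
finite places: `supNorm_mul` (exact); infinite places: `supNorm_comp_mul_bounds`, and
`∑_{v | ∞} mult v = [K:ℚ]` (`NumberField.InfinitePlace.sum_mult_eq`), so the error is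
`≤ max |log c| |log C|` after dividing by `[K:ℚ]`.
-/

namespace Fermat.Agent.S17.HT

open Height MvPolynomial

local notation "ℚ̄" => AlgebraicClosure ℚ

variable {ι : Type*} [Fintype ι]

/-- L7.1 -/
theorem htPoly_nonneg (F : MvPolynomial ι ℚ̄) : 0 ≤ htPoly F :=
  ht_nonneg _

/-- L7.2: the coefficient vector may be indexed by any finite set of monomials containing the
support. -/
theorem htPoly_eq_ht_of_support_subset (F : MvPolynomial ι ℚ̄) {T : Finset (ι →₀ ℕ)}
    (hT : F.support ⊆ T) : htPoly F = ht (fun m : T => coeff (m : ι →₀ ℕ) F) := by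
  rw [← ht_restrict_support (fun m : T => coeff (m : ι →₀ ℕ) F)]
  let e : F.support ≃ {m : T // coeff (m : ι →₀ ℕ) F ≠ 0} :=
    { toFun := fun m => ⟨⟨m.1, hT m.2⟩, MvPolynomial.mem_support_iff.mp m.2⟩
      invFun := fun m => ⟨m.1.1, MvPolynomial.mem_support_iff.mpr m.2⟩
      left_inv := fun m => rfl
      right_inv := fun m => rfl }
  exact ht_comp_equiv e
    (fun i : {m : T // coeff (m : ι →₀ ℕ) F ≠ 0} => coeff ((i : T) : ι →₀ ℕ) F)

/-- L7.3 -/
theorem htPoly_C_mul (F : MvPolynomial ι ℚ̄) {c : ℚ̄} (hc : c ≠ 0) : htPoly (C c * F) = htPoly F := by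
  have hsub : (C c * F).support ⊆ F.support := by
    intro m hm
    rw [MvPolynomial.mem_support_iff, coeff_C_mul] at hm
    exact MvPolynomial.mem_support_iff.mpr (right_ne_zero_of_mul hm)
  rw [htPoly_eq_ht_of_support_subset _ hsub]
  have h : (fun m : F.support => coeff (m : ι →₀ ℕ) (C c * F)) =
      c • fun m : F.support => coeff (m : ι →₀ ℕ) F := by
    funext m
    simp [coeff_C_mul]
  rw [h, ht_smul _ hc]
  rfl

/-- L7.4 -/
theorem htPoly_map (σ : ℚ̄ →+* ℚ̄) (F : MvPolynomial ι ℚ̄) : htPoly (map σ F) = htPoly F := by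
  rw [htPoly_eq_ht_of_support_subset _ (support_map_subset σ F)]
  have h : (fun m : F.support => coeff (m : ι →₀ ℕ) (map σ F)) =
      fun m : F.support => σ (coeff (m : ι →₀ ℕ) F) := by
    funext m
    rw [coeff_map]
  rw [h, ht_map]
  rfl

/-- helper (helper5554): coefficients of a linear form. -/
theorem polymul5554_coeff_linear (x : ι → ℚ̄) (i : ι) :
    coeff (Finsupp.single i 1) (∑ j, C (x j) * X j : MvPolynomial ι ℚ̄) = x i := by
  classical
  rw [coeff_sum]
  simp only [coeff_C_mul, coeff_X, Finsupp.single_left_inj (one_ne_zero (α := ℕ))]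
  simp

/-- helper (helper5554): the support of a linear form consists of monomials `X i`. -/
theorem polymul5554_support_linear (x : ι → ℚ̄) [DecidableEq (ι →₀ ℕ)] :
    (∑ j, C (x j) * X j : MvPolynomial ι ℚ̄).support ⊆
      Finset.univ.image (fun i : ι => Finsupp.single i 1) := by
  classical
  intro m hm
  by_contra hmT
  rw [MvPolynomial.mem_support_iff] at hm
  apply hm
  rw [coeff_sum]
  refine Finset.sum_eq_zero fun j _ => ?_
  rw [coeff_C_mul, coeff_X, if_neg, mul_zero]
  intro h
  exact hmT (h ▸ Finset.mem_image_of_mem _ (Finset.mem_univ j))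

/-- L7.5: the height of a linear form is the height of its coefficient vector. -/
theorem htPoly_linear (x : ι → ℚ̄) : htPoly (∑ i, C (x i) * X i) = ht x := by
  classical
  rw [htPoly_eq_ht_of_support_subset _ (polymul5554_support_linear x)]
  let e : ι ≃ (Finset.univ.image (fun i : ι => Finsupp.single i 1) : Finset (ι →₀ ℕ)) :=
    Equiv.ofBijective
      (fun i => ⟨Finsupp.single i 1, Finset.mem_image_of_mem _ (Finset.mem_univ i)⟩)
      ⟨fun i i' h => (Finsupp.single_left_inj (one_ne_zero (α := ℕ))).mp (Subtype.ext_iff.mp h),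
        fun m => by
          obtain ⟨i, -, hi⟩ := Finset.mem_image.mp m.2
          exact ⟨i, Subtype.ext hi⟩⟩
  rw [← ht_comp_equiv e]
  congr 1
  funext i
  exact polymul5554_coeff_linear x i

/-- helper (helper5554): `htPoly` of a polynomial coming from a number field. -/
theorem polymul5554_htPoly_map_eq {K : Type*} [Field K] [NumberField K] (j : K →+* ℚ̄)
    (F' : MvPolynomial ι K) :
    htPoly (map j F') = Real.log (H5554.polyMulHeight F') / (Module.finrank ℚ K : ℝ) := by
  rw [htPoly_eq_ht_of_support_subset _ (support_map_subset j F')]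
  have h : (fun m : F'.support => coeff (m : ι →₀ ℕ) (map j F')) =
      fun m : F'.support => j ((fun m : F'.support => coeff (m : ι →₀ ℕ) F') m) := by
    funext m
    rw [coeff_map]
  rw [h, ht_eq_logHeight_div j]
  rfl

omit [Fintype ι] in
/-- helper (helper5554): two polynomials over `ℚ̄` come from a common number field. -/
theorem polymul5554_exists_lift (F G : MvPolynomial ι ℚ̄) :
    ∃ (K : Type) (_ : Field K) (_ : NumberField K) (j : K →+* ℚ̄) (F' G' : MvPolynomial ι K),
      map j F' = F ∧ map j G' = G := by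
  classical
  obtain ⟨K, _, _, j, hj⟩ := basic5554_exists_field ((F.coeffs ∪ G.coeffs : Finset ℚ̄) : Set ℚ̄)
    (Finset.finite_toSet _)
  have hF : F ∈ Set.range (map j) := by
    rw [mem_range_map_iff_coeffs_subset]
    intro a ha
    exact hj a (by simp only [Finset.coe_union, Set.mem_union]; exact Or.inl ha)
  have hG : G ∈ Set.range (map j) := by
    rw [mem_range_map_iff_coeffs_subset]
    intro a ha
    exact hj a (by simp only [Finset.coe_union, Set.mem_union]; exact Or.inr ha)
  obtain ⟨F', hF'⟩ := hF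
  obtain ⟨G', hG'⟩ := hG
  exact ⟨K, inferInstance, inferInstance, j, F', G', hF', hG'⟩

/-- helper (helper5554): real arithmetic for `htPoly_mul`. -/
theorem polymul5554_real (n : ℕ) (hn : 0 < n) (a b cc lc lN : ℝ)
    (h1 : n * lc + (a + b) ≤ cc) (h2 : cc ≤ n * lN + (a + b)) :
    |cc / n - (a / n + b / n)| ≤ max |lc| |lN| := by
  have hn' : (0 : ℝ) < n := by exact_mod_cast hn
  have e : cc / n - (a / n + b / n) = (cc - (a + b)) / n := by ring
  rw [e, abs_le]
  constructor
  · have : lc ≤ (cc - (a + b)) / n := by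
      rw [le_div_iff₀ hn']
      linarith
    have h3 : -|lc| ≤ lc := neg_abs_le lc
    have h4 : |lc| ≤ max |lc| |lN| := le_max_left _ _
    linarith
  · have : (cc - (a + b)) / n ≤ lN := by
      rw [div_le_iff₀ hn']
      linarith
    have h3 : lN ≤ |lN| := le_abs_self lN
    have h4 : |lN| ≤ max |lc| |lN| := le_max_right _ _
    linarith

/-- L7.6: **Gauss–Gelfond**. -/
theorem htPoly_mul (d : ℕ) :
    ∃ C : ℝ, ∀ F G : MvPolynomial ι ℚ̄, F ≠ 0 → G ≠ 0 → F.totalDegree ≤ d → G.totalDegree ≤ d →
      |htPoly (F * G) - (htPoly F + htPoly G)| ≤ C := by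
  obtain ⟨c, hc, H⟩ :=
    H5554.exists_pos_pow_mul_le_polyMulHeight_mul.{0} (H5554.degFinset ι d) (H5554.degFinset ι d)
  refine ⟨max |Real.log c| |Real.log (((H5554.degFinset ι d).card : ℝ) + 1)|, ?_⟩
  intro F G hF0 hG0 hF hG
  obtain ⟨K, _, _, j, F', G', rfl, rfl⟩ := polymul5554_exists_lift F G
  have hF'0 : F' ≠ 0 := fun h => hF0 (by rw [h, map_zero])
  have hG'0 : G' ≠ 0 := fun h => hG0 (by rw [h, map_zero])
  have hF'S : ∀ u, coeff u F' ≠ 0 → u ∈ H5554.degFinset ι d := by
    intro u hu
    refine H5554.mem_degFinset_of_coeff_ne_zero (map j F') hF u ?_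
    rw [coeff_map]
    exact (map_ne_zero j).mpr hu
  have hG'S : ∀ u, coeff u G' ≠ 0 → u ∈ H5554.degFinset ι d := by
    intro u hu
    refine H5554.mem_degFinset_of_coeff_ne_zero (map j G') hG u ?_
    rw [coeff_map]
    exact (map_ne_zero j).mpr hu
  have hlow := H K F' G' hF'0 hG'0 hF'S hG'S
  have hup := H5554.polyMulHeight_mul_le F' G' hF'0 hG'0
  rw [NumberField.totalWeight_eq_finrank] at hup
  have hn : 0 < Module.finrank ℚ K := Module.finrank_pos
  have hHf := H5554.polyMulHeight_pos F'
  have hHg := H5554.polyMulHeight_pos G'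
  have hHfg := H5554.polyMulHeight_pos (F' * G')
  have hcard : (F'.support.card : ℝ) ≤ ((H5554.degFinset ι d).card : ℝ) + 1 := by
    have h1 : F'.support ⊆ H5554.degFinset ι d := fun u hu =>
      hF'S u (MvPolynomial.mem_support_iff.mp hu)
    have h2 : (F'.support.card : ℝ) ≤ ((H5554.degFinset ι d).card : ℝ) := by
      exact_mod_cast Finset.card_le_card h1
    linarith
  have hN1 : (0 : ℝ) < ((H5554.degFinset ι d).card : ℝ) + 1 := by positivity
  have hup' : H5554.polyMulHeight (F' * G') ≤
      (((H5554.degFinset ι d).card : ℝ) + 1) ^ Module.finrank ℚ K *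
        (H5554.polyMulHeight F' * H5554.polyMulHeight G') := by
    refine hup.trans ?_
    gcongr
  rw [← map_mul, polymul5554_htPoly_map_eq, polymul5554_htPoly_map_eq, polymul5554_htPoly_map_eq]
  refine polymul5554_real _ hn _ _ _ _ _ ?_ ?_
  · have := Real.log_le_log (by positivity) hlow
    rwa [Real.log_mul (by positivity) (by positivity), Real.log_pow,
      Real.log_mul hHf.ne' hHg.ne'] at this
  · have := Real.log_le_log hHfg hup'
    rwa [Real.log_mul (by positivity) (by positivity), Real.log_pow,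
      Real.log_mul hHf.ne' hHg.ne'] at this

/-- helper (helper5554) -/
theorem polymul5554_htPoly_one : htPoly (1 : MvPolynomial ι ℚ̄) = 0 := by
  classical
  have hsub : (1 : MvPolynomial ι ℚ̄).support ⊆ {0} := by
    intro m hm
    rw [MvPolynomial.mem_support_iff, coeff_one] at hm
    rw [Finset.mem_singleton]
    by_contra h
    exact hm (if_neg (Ne.symm h))
  rw [htPoly_eq_ht_of_support_subset _ hsub]
  have : Subsingleton ({0} : Finset (ι →₀ ℕ)) :=
    ⟨fun a b => Subtype.ext (by rw [Finset.mem_singleton.mp a.2, Finset.mem_singleton.mp b.2])⟩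
  exact ht_of_subsingleton _

/-- L7.7 -/
theorem htPoly_prod (d n : ℕ) :
    ∃ C : ℝ, ∀ F : Fin n → MvPolynomial ι ℚ̄, (∀ a, F a ≠ 0) → (∀ a, (F a).totalDegree ≤ d) →
      |htPoly (∏ a, F a) - ∑ a, htPoly (F a)| ≤ C := by
  induction n with
  | zero =>
    refine ⟨0, fun F _ _ => ?_⟩
    simp [polymul5554_htPoly_one]
  | succ n ih =>
    obtain ⟨C1, h1⟩ := ih
    obtain ⟨C2, h2⟩ := htPoly_mul (ι := ι) (max d (n * d))
    refine ⟨C2 + C1, fun F hF0 hFd => ?_⟩
    rw [Fin.prod_univ_succ, Fin.sum_univ_succ]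
    have hG0 : (∏ a : Fin n, F a.succ) ≠ 0 :=
      Finset.prod_ne_zero_iff.mpr fun a _ => hF0 a.succ
    have hGd : (∏ a : Fin n, F a.succ).totalDegree ≤ max d (n * d) := by
      refine le_trans (totalDegree_finsetProd _ _) (le_trans ?_ (le_max_right _ _))
      calc ∑ a : Fin n, (F a.succ).totalDegree ≤ ∑ _a : Fin n, d :=
            Finset.sum_le_sum fun a _ => hFd a.succ
        _ = n * d := by simp
    have e1 := h2 (F 0) (∏ a : Fin n, F a.succ) (hF0 0) hG0
      (le_trans (hFd 0) (le_max_left _ _)) hGd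
    have e2 := h1 (fun a => F a.succ) (fun a => hF0 a.succ) (fun a => hFd a.succ)
    have e3 : htPoly (F 0 * ∏ a : Fin n, F a.succ) - (htPoly (F 0) + ∑ a : Fin n, htPoly (F a.succ))
        = (htPoly (F 0 * ∏ a : Fin n, F a.succ) - (htPoly (F 0) + htPoly (∏ a : Fin n, F a.succ)))
          + (htPoly (∏ a : Fin n, F a.succ) - ∑ a : Fin n, htPoly (F a.succ)) := by ring
    rw [e3]
    exact (abs_add_le _ _).trans (add_le_add e1 e2)

/-- L7.8: the height of the Chow form `∏ a, ⟨λ, x a⟩` of `n` points is the sum of the heights of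
the points, up to a constant depending only on `n` and `ι`. -/
theorem htPoly_prod_linear (n : ℕ) :
    ∃ B : ℝ, ∀ x : Fin n → ι → ℚ̄, (∀ a, x a ≠ 0) →
      |htPoly (∏ a, ∑ i, C (x a i) * X i) - ∑ a, ht (x a)| ≤ B := by
  obtain ⟨B, h⟩ := htPoly_prod (ι := ι) 1 n
  refine ⟨B, fun x hx => ?_⟩
  have h0 : ∀ a, (∑ i, C (x a i) * X i : MvPolynomial ι ℚ̄) ≠ 0 := by
    intro a h0
    apply hx a
    funext i
    have := polymul5554_coeff_linear (x a) i
    rw [h0, coeff_zero] at this
    exact this.symm
  have h1 : ∀ a, (∑ i, C (x a i) * X i : MvPolynomial ι ℚ̄).totalDegree ≤ 1 := by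
    intro a
    refine totalDegree_finsetSum_le fun i _ => ?_
    refine (totalDegree_mul _ _).trans ?_
    rw [totalDegree_C, totalDegree_X, zero_add]
  have := h (fun a => ∑ i, C (x a i) * X i) h0 h1
  simp only [htPoly_linear] at this
  exact this

end Fermat.Agent.S17.HT
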