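import Mathlib
import Fermat.Agent.S17.HT.Defs
import Fermat.Agent.S17.HT.Descent
import Fermat.Agent.S17.HT.Basic
import Fermat.Agent.S17.HT.PolyMul

set_option autoImplicit false

/-!
# S17 / HT leaf L8 `Northcott` — FROZEN v0

Northcott finiteness statements for `ht`.

`finite_rat_ht_le`: by `ht_ratCast`, `ht_pair_le` and Mathlib's Northcott for `ℚ`
(`NumberField.finite_setOfPred_logHeight₁_le ℚ`, `Height.logHeight₁_eq_logHeight`): every
coordinate lies in a finite set.
`finite_degree_ht_le` (Northcott for bounded degree): each coordinate `α` has `ht ![α, 1] ≤ B`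
and degree `≤ d`; the coefficients of `minpoly ℚ α = ∏ (X - α_i)` have height
`≤ d * B + C(d)` (`ht_map` for the conjugates + `htPoly_prod_linear` with two variables, or the
elementary bound for elementary symmetric functions), so by `finite_rat_ht_le` there are finitely
many minimal polynomials, each with finitely many roots.
`rat_of_fixed`: the fixed field of `Gal(ℚ̄/ℚ)` is `ℚ` (`IsGalois ℚ ℚ̄`, `InfiniteGalois` /
`IsGalois.mem_bot_iff_fixed` style lemma).

Proofs by helper9746.  Helper declarations carry the prefix `N9746_`.  The four frozen theorems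
are proved in the order L8.1, L8.4, L8.3, L8.2 (statements unchanged).

Proof of L8.2 as written here: for `α : ℚ̄` let `S` be the finite set of roots of `minpoly ℚ α`
in `ℚ̄` and `G_α = ∏_{ρ ∈ S} (ρ X₀ + X₁)`, a binary form with rational coefficients
(Galois-stable + `rat_of_fixed`), coefficient `1` at `X₁^{#S}`, total degree `≤ #S ≤ d` and
`htPoly G_α ≤ #S * ht ![α, 1] + B(#S)` (`htPoly_prod_linear`, `ht_map`).  By L8.3 there are
finitely many `G_α`, and `G_β = G_α` forces `β ∈ S`.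
-/

namespace Fermat.Agent.S17.HT

open Height MvPolynomial

local notation "ℚ̄" => AlgebraicClosure ℚ

variable {ι : Type*} [Finite ι]

/-- `ht` of an affine rational point of the line is Mathlib's `logHeight₁`. -/
theorem N9746_ht_pair_ratCast (q : ℚ) : ht ![(q : ℚ̄), 1] = logHeight₁ q := by
  have h := ht_ratCast (ι := Fin 2) ![q, 1]
  rw [Height.logHeight₁_eq_logHeight, ← h]
  congr 1
  funext j
  fin_cases j <;> simp

/-- L8.1: Northcott for rational points with a normalised coordinate. -/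
theorem finite_rat_ht_le (i₀ : ι) (B : ℝ) :
    {x : ι → ℚ̄ | x i₀ = 1 ∧ (∀ i, ∃ q : ℚ, x i = (q : ℚ̄)) ∧ ht x ≤ B}.Finite := by
  have hS : {q : ℚ | logHeight₁ q ≤ B}.Finite := NumberField.finite_setOfPred_logHeight₁_le ℚ B
  have hS' : ((fun q : ℚ => (q : ℚ̄)) '' {q : ℚ | logHeight₁ q ≤ B}).Finite := hS.image _
  refine (Set.Finite.pi' (fun _ : ι => hS')).subset ?_
  rintro x ⟨h1, hq, hx⟩ i
  obtain ⟨q, hq⟩ := hq i
  refine ⟨q, ?_, hq.symm⟩
  have h2 := ht_pair_le x i i₀
  rw [h1, hq, N9746_ht_pair_ratCast] at h2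
  exact h2.trans hx

/-- `ℚ̄` is Galois over `ℚ` for the canonical `ℚ`-algebra structure of a field of
characteristic zero (the instance found by unification in `ℚ̄ ≃ₐ[ℚ] ℚ̄`). -/
theorem N9746_isGalois : IsGalois ℚ ℚ̄ := by
  have h : (DivisionRing.toRatAlgebra : Algebra ℚ ℚ̄) = AlgebraicClosure.instAlgebra ℚ :=
    Subsingleton.elim _ _
  rw [h]
  infer_instance

/-- L8.4: Galois-fixed algebraic numbers are rational. -/
theorem rat_of_fixed (a : ℚ̄) (h : ∀ σ : ℚ̄ ≃ₐ[ℚ] ℚ̄, σ a = a) : ∃ q : ℚ, a = (q : ℚ̄) := by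
  have hG := N9746_isGalois
  obtain ⟨q, hq⟩ := (InfiniteGalois.mem_range_algebraMap_iff_fixed (k := ℚ) (K := ℚ̄) a).mpr h
  exact ⟨q, by rw [← hq]; simp⟩

/-- L8.3: Northcott for rational polynomials of bounded degree with a normalised coefficient. -/
theorem finite_htPoly_le (m₀ : ι →₀ ℕ) (d : ℕ) (B : ℝ) :
    {F : MvPolynomial ι ℚ̄ | F.totalDegree ≤ d ∧ (∀ m, ∃ q : ℚ, coeff m F = (q : ℚ̄)) ∧
      coeff m₀ F = 1 ∧ htPoly F ≤ B}.Finite := by
  classical
  have : Fintype ι := Fintype.ofFinite ι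
  have hTfin : {m : ι →₀ ℕ | Finsupp.degree m ≤ d}.Finite := Finsupp.finite_of_degree_le d
  have hsupp : ∀ F : MvPolynomial ι ℚ̄, F.totalDegree ≤ d → F.support ⊆ hTfin.toFinset := by
    intro F hF m hm
    rw [Set.Finite.mem_toFinset]
    have h1 := le_totalDegree hm
    have h2 : Finsupp.degree m = m.sum fun _ e => e := by
      rw [Finsupp.degree_apply]; rfl
    show Finsupp.degree m ≤ d
    rw [h2]
    exact h1.trans hF
  by_cases hm₀ : m₀ ∈ hTfin.toFinset
  · have hfin := finite_rat_ht_le (ι := hTfin.toFinset) ⟨m₀, hm₀⟩ B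
    refine Set.Finite.of_injOn
      (f := fun F : MvPolynomial ι ℚ̄ => fun m : hTfin.toFinset => coeff (m : ι →₀ ℕ) F)
      ?_ ?_ hfin
    · rintro F ⟨hF, hq, h1, hB⟩
      refine ⟨h1, fun m => hq m, ?_⟩
      rw [← htPoly_eq_ht_of_support_subset F (hsupp F hF)]
      exact hB
    · rintro F ⟨hF, -, -, -⟩ G ⟨hG, -, -, -⟩ hFG
      ext m
      by_cases hm : m ∈ hTfin.toFinset
      · exact congrFun hFG ⟨m, hm⟩
      · have h1 : coeff m F = 0 := by
          rw [← notMem_support_iff]; exact fun h => hm (hsupp F hF h)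
        have h2 : coeff m G = 0 := by
          rw [← notMem_support_iff]; exact fun h => hm (hsupp G hG h)
        rw [h1, h2]
  · refine Set.finite_empty.subset ?_
    rintro F ⟨hF, -, h1, -⟩
    exact absurd (hsupp F hF (by rw [mem_support_iff, h1]; exact one_ne_zero)) hm₀

/-! ### Bounded degree -/

open Classical in
/-- The finite set of roots in `ℚ̄` of the minimal polynomial of `α`. -/
noncomputable def N9746_conj (α : ℚ̄) : Finset ℚ̄ := ((minpoly ℚ α).aroots ℚ̄).toFinset

theorem N9746_isIntegral (α : ℚ̄) : IsIntegral ℚ α := by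
  have hG := N9746_isGalois
  exact Algebra.IsIntegral.isIntegral α

theorem N9746_mem_conj_iff {α ρ : ℚ̄} :
    ρ ∈ N9746_conj α ↔ Polynomial.aeval ρ (minpoly ℚ α) = 0 := by
  classical
  rw [N9746_conj, Multiset.mem_toFinset, Polynomial.mem_aroots]
  exact ⟨fun h => h.2, fun h => ⟨minpoly.ne_zero (N9746_isIntegral α), h⟩⟩

theorem N9746_mem_conj_self (α : ℚ̄) : α ∈ N9746_conj α :=
  N9746_mem_conj_iff.mpr (minpoly.aeval ℚ α)

theorem N9746_card_conj_le (α : ℚ̄) : (N9746_conj α).card ≤ (minpoly ℚ α).natDegree := by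
  classical
  rw [N9746_conj]
  refine (Multiset.toFinset_card_le _).trans ?_
  rw [Polynomial.aroots_def]
  exact (Polynomial.card_roots' _).trans (Polynomial.natDegree_map_le)

theorem N9746_exists_algEquiv {α ρ : ℚ̄} (h : ρ ∈ N9746_conj α) :
    ∃ σ : ℚ̄ ≃ₐ[ℚ] ℚ̄, σ α = ρ := by
  have hG := N9746_isGalois
  exact minpoly.exists_algEquiv_of_root' (N9746_isIntegral α).isAlgebraic
    (N9746_mem_conj_iff.mp h)

theorem N9746_image_conj (σ : ℚ̄ ≃ₐ[ℚ] ℚ̄) (α : ℚ̄) [DecidableEq ℚ̄] :
    (N9746_conj α).image σ = N9746_conj α := by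
  refine Finset.eq_of_subset_of_card_le ?_ ?_
  · intro ρ hρ
    obtain ⟨ρ', hρ', rfl⟩ := Finset.mem_image.mp hρ
    rw [N9746_mem_conj_iff] at hρ' ⊢
    rw [Polynomial.aeval_algHom_apply, hρ', map_zero]
  · rw [Finset.card_image_of_injective _ σ.injective]

/-- The binary form `∏ (ρ X₀ + X₁)` over the conjugates `ρ` of `α`. -/
noncomputable def N9746_form (α : ℚ̄) : MvPolynomial (Fin 2) ℚ̄ :=
  ∏ ρ ∈ N9746_conj α, (C ρ * X 0 + X 1)

theorem N9746_form_map (σ : ℚ̄ ≃ₐ[ℚ] ℚ̄) (α : ℚ̄) :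
    map (σ : ℚ̄ →+* ℚ̄) (N9746_form α) = N9746_form α := by
  classical
  rw [N9746_form, map_prod]
  conv_rhs => rw [← N9746_image_conj σ α]
  rw [Finset.prod_image (fun x _ y _ h => σ.injective h)]
  refine Finset.prod_congr rfl fun ρ _ => ?_
  simp

theorem N9746_form_coeff_rat (α : ℚ̄) (m : Fin 2 →₀ ℕ) :
    ∃ q : ℚ, coeff m (N9746_form α) = (q : ℚ̄) := by
  refine rat_of_fixed _ fun σ => ?_
  have h := congrArg (coeff m) (N9746_form_map σ α)
  rw [coeff_map] at h
  exact h

theorem N9746_form_totalDegree_le (α : ℚ̄) :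
    (N9746_form α).totalDegree ≤ (N9746_conj α).card := by
  rw [N9746_form]
  refine (totalDegree_finsetProd _ _).trans ?_
  rw [Finset.card_eq_sum_ones]
  refine Finset.sum_le_sum fun ρ _ => ?_
  refine (totalDegree_add _ _).trans (max_le ?_ ?_)
  · refine (totalDegree_mul _ _).trans ?_
    rw [totalDegree_C, totalDegree_X, zero_add]
  · rw [totalDegree_X]

theorem N9746_coeff_top [DecidableEq ℚ̄] (S : Finset ℚ̄) :
    coeff (Finsupp.single (1 : Fin 2) S.card)
      (∏ ρ ∈ S, (C ρ * X 0 + X 1 : MvPolynomial (Fin 2) ℚ̄)) = 1 := by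
  induction S using Finset.induction_on with
  | empty => simp
  | insert a S ha ih =>
    rw [Finset.prod_insert ha, Finset.card_insert_of_notMem ha, add_mul, coeff_add, mul_assoc,
      coeff_C_mul, coeff_X_mul', coeff_X_mul']
    have h0 : (0 : Fin 2) ∉ (Finsupp.single (1 : Fin 2) (S.card + 1)).support := by
      simp
    have h1 : (1 : Fin 2) ∈ (Finsupp.single (1 : Fin 2) (S.card + 1)).support := by
      simp
    rw [if_neg h0, if_pos h1, mul_zero, zero_add]
    have h2 : Finsupp.single (1 : Fin 2) (S.card + 1) - Finsupp.single 1 1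
        = Finsupp.single (1 : Fin 2) S.card := by
      rw [← Finsupp.single_tsub]; simp
    rw [h2, ih]

theorem N9746_form_coeff_top (α : ℚ̄) :
    coeff (Finsupp.single (1 : Fin 2) (N9746_conj α).card) (N9746_form α) = 1 := by
  classical
  exact N9746_coeff_top _

theorem N9746_eval_form (α β : ℚ̄) :
    eval ![1, -β] (N9746_form α) = ∏ ρ ∈ N9746_conj α, (ρ - β) := by
  rw [N9746_form, map_prod]
  refine Finset.prod_congr rfl fun ρ _ => ?_
  simp [sub_eq_add_neg]

theorem N9746_ht_conj {α ρ : ℚ̄} (h : ρ ∈ N9746_conj α) : ht ![ρ, 1] = ht ![α, 1] := by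
  obtain ⟨σ, rfl⟩ := N9746_exists_algEquiv h
  rw [← ht_map (σ : ℚ̄ →+* ℚ̄) ![α, 1]]
  congr 1
  funext j
  fin_cases j <;> simp

/-- The constants of `htPoly_prod_linear` for binary forms. -/
noncomputable def N9746_bound (n : ℕ) : ℝ :=
  Classical.choose (htPoly_prod_linear (ι := Fin 2) n)

theorem N9746_htPoly_form_le (α : ℚ̄) :
    htPoly (N9746_form α) ≤
      (N9746_conj α).card * ht ![α, 1] + N9746_bound (N9746_conj α).card := by
  classical
  set n := (N9746_conj α).card with hn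
  let e : Fin n ≃ N9746_conj α := (N9746_conj α).equivFin.symm
  let x : Fin n → Fin 2 → ℚ̄ := fun a => ![(e a : ℚ̄), 1]
  have hx : ∀ a, x a ≠ 0 := by
    intro a h
    have := congrFun h 1
    simp [x] at this
  have hprod : (∏ a, ∑ i, C (x a i) * X i : MvPolynomial (Fin 2) ℚ̄) = N9746_form α := by
    rw [N9746_form, ← Finset.prod_coe_sort (N9746_conj α)
      (fun ρ => (C ρ * X 0 + X 1 : MvPolynomial (Fin 2) ℚ̄)),
      ← Equiv.prod_comp e (fun i : N9746_conj α => (C (i : ℚ̄) * X 0 + X 1 :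
        MvPolynomial (Fin 2) ℚ̄))]
    refine Finset.prod_congr rfl fun a _ => ?_
    simp [x, Fin.sum_univ_two]
  have hsum : ∑ a, ht (x a) = n * ht ![α, 1] := by
    have : ∀ a, ht (x a) = ht ![α, 1] := fun a => N9746_ht_conj (e a).2
    simp [this]
  have hB := Classical.choose_spec (htPoly_prod_linear (ι := Fin 2) n) x hx
  rw [hprod, hsum] at hB
  have := (abs_le.mp hB).2
  change htPoly (N9746_form α) - n * ht ![α, 1] ≤ N9746_bound n at this
  linarith

/-- Northcott for algebraic numbers of bounded degree. -/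
theorem N9746_finite_alg (d : ℕ) (B : ℝ) :
    {α : ℚ̄ | (minpoly ℚ α).natDegree ≤ d ∧ ht ![α, 1] ≤ B}.Finite := by
  refine Set.Finite.of_finite_fibers N9746_form ?_ ?_
  · have hfin : (⋃ n ∈ Finset.range (d + 1), {F : MvPolynomial (Fin 2) ℚ̄ | F.totalDegree ≤ d ∧
        (∀ m, ∃ q : ℚ, coeff m F = (q : ℚ̄)) ∧ coeff (Finsupp.single (1 : Fin 2) n) F = 1 ∧
        htPoly F ≤ n * B + N9746_bound n}).Finite :=
      Set.Finite.biUnion (Finset.finite_toSet _) fun n _ => finite_htPoly_le _ d _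
    refine hfin.subset ?_
    rintro F ⟨α, ⟨hd, hB⟩, rfl⟩
    have hcard : (N9746_conj α).card ≤ d := (N9746_card_conj_le α).trans hd
    refine Set.mem_biUnion (x := (N9746_conj α).card) (by simpa [Nat.lt_succ_iff] using hcard) ?_
    refine ⟨(N9746_form_totalDegree_le α).trans hcard, N9746_form_coeff_rat α,
      N9746_form_coeff_top α, (N9746_htPoly_form_le α).trans ?_⟩
    have : ((N9746_conj α).card : ℝ) * ht ![α, 1] ≤ (N9746_conj α).card * B :=
      mul_le_mul_of_nonneg_left hB (Nat.cast_nonneg _)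
    linarith
  · rintro F ⟨α, -, rfl⟩
    refine (Finset.finite_toSet (N9746_conj α)).subset ?_
    rintro β ⟨-, hβ⟩
    have hβ' : N9746_form β = N9746_form α := hβ
    have h0 : eval ![1, -β] (N9746_form β) = 0 := by
      rw [N9746_eval_form]
      exact Finset.prod_eq_zero (N9746_mem_conj_self β) (sub_self β)
    rw [hβ', N9746_eval_form, Finset.prod_eq_zero_iff] at h0
    obtain ⟨ρ, hρ, h⟩ := h0
    rw [sub_eq_zero] at h
    rw [← h]
    exact hρ

/-- L8.2: Northcott for points of bounded degree. -/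
theorem finite_degree_ht_le (i₀ : ι) (d : ℕ) (B : ℝ) :
    {x : ι → ℚ̄ | x i₀ = 1 ∧ (∀ i, (minpoly ℚ (x i)).natDegree ≤ d) ∧ ht x ≤ B}.Finite := by
  refine (Set.Finite.pi' (fun _ : ι => N9746_finite_alg d B)).subset ?_
  rintro x ⟨h1, hd, hx⟩ i
  refine ⟨hd i, ?_⟩
  have h2 := ht_pair_le x i i₀
  rw [h1] at h2
  exact h2.trans hx

end Fermat.Agent.S17.HT
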