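/-
S17 / HT: the HT deliverable (N) of `Fermat/Agent/S17/H/Interfaces.lean` (v2), statement VERBATIM:

  `northcott_stable (S : Setup F₀) (n : ℕ) (B : ℝ) :
     {D | 0 ≤ D ∧ degree D ≤ n ∧ IsStable D ∧ hSum (hX S.φ) D ≤ B}.Finite`

Proof by helper7378 (`HT/Northcott7378.lean` on origin/helper7378), re-based by helper636 on the
HT package itself: the bounded-degree Northcott input is leaf L8.2 `finite_degree_ht_le` and the
height comparison is L1.14 `ht_pair_le` (through `hbar_eq_ht`), so that no second height library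
is needed.  The evaluation library is helper7378's `HT/Eval7378.lean`.

For a place `P ≠ P₀` put `aff P = (φ_i(P))_i ∈ ℚ̄^{r+1}` (all `φ_i ∈ L(m P₀)` are regular
at `P`, and `φ_0 = 1`).  Then
  * `hX φ P = hbar (aff P)`                      (`pointVec` is a nonzero multiple of `aff P`);
  * `aff (σ P) = σ (aff P)`                      (`φ` rational, `evalAt_smul`);
  * `r ≥ 1` (Riemann's inequality of the landed `S27/A/Riemann.lean`: `ℓ(m P₀) ≥ m + 1 - g ≥ 2`),
    so the last coordinate function `φ_r` is not constant, and a non-constant function takes each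
    value at finitely many places (support of the divisor of `φ_r - a`);
  * if `P` lies on a stable effective divisor of degree `≤ n`, the coordinate `φ_r(P)` has at most
    `n` conjugates, hence degree `≤ n`, and height `≤ hX φ P` (the coordinate `φ_0(P)` is `1`);
  * Northcott in bounded degree (`finite_degree_ht_le`).
So only finitely many places occur, and there are finitely many divisors `0 ≤ D` of degree `≤ n`
supported on a finite set.
-/
import Fermat.Agent.S17.HT.Eval7378
import Fermat.Agent.S17.HT.Bridge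
import Fermat.Agent.S17.HT.Northcott
import Fermat.Agent.S27.A.Riemann
import Fermat.Agent.S27.A.Bridge

set_option autoImplicit false

namespace Fermat.Agent.S17.HT.NS636

open AlgebraicCurve ModularCurve Fermat.Agent.S17.H Fermat.Agent.S17.FND
  Fermat.Agent.S17.HT.H7378 Fermat.Agent.S24.A564.SO

section Equivariance

open scoped Pointwise

variable {K F : Type*} [Field K] [Field F] [Algebra K F] [IsAlgClosed K] [IsCurveOver K F]

/-- Galois (semilinear) equivariance of evaluation. -/
theorem evalAt_smul (g : SemilinearAut K F) (P : Place K F) (f : F) :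
    evalAt (g • P) (g • f) = SemilinearAut.baseAut g (evalAt P f) := by
  by_cases hf : f ∈ P.toValuationSubring
  · have hgf : g • f ∈ (g • P).toValuationSubring :=
      ValuationSubring.smul_mem_pointwise_smul g f P.toValuationSubring hf
    refine evalAt_eq_of_residue (g • P) hgf ?_
    rw [← SemilinearAut.smulResidueRingEquiv_algebraMap g P, evalAt_spec P hf]
    have h1 : SemilinearAut.smulResidueRingEquiv g P
          (IsLocalRing.residue P.toValuationSubring ⟨f, hf⟩)
        = IsLocalRing.residue (g • P).toValuationSubring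
            (SemilinearAut.smulValuationSubringEquiv g P.toValuationSubring ⟨f, hf⟩) := by
      unfold SemilinearAut.smulResidueRingEquiv
      rw [IsLocalRing.ResidueField.mapEquiv_apply, IsLocalRing.ResidueField.map_residue]
      rfl
    rw [h1]
    rfl
  · have hgf : g • f ∉ (g • P).toValuationSubring := by
      intro h
      apply hf
      have h2 := (ValuationSubring.mem_pointwise_smul_iff_inv_smul_mem (g := g)
        (S := P.toValuationSubring) (x := g • f)).mp h
      rwa [inv_smul_smul] at h2
    rw [evalAt_of_notMem _ hf, evalAt_of_notMem _ hgf, map_zero]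

end Equivariance

/-! ### Non-constant functions have finite fibres -/

section Fiber

variable {K F : Type*} [Field K] [Field F] [Algebra K F] [IsAlgClosed K] [IsCurveOver K F]

/-- A non-constant function takes each value at only finitely many places. -/
theorem finite_evalAt_eq (f : F) (hf : ∀ a : K, f ≠ algebraMap K F a) (a : K) :
    {P : Place K F | f ∈ P.toValuationSubring ∧ evalAt P f = a}.Finite := by
  classical
  have hne : f - algebraMap K F a ≠ 0 := sub_ne_zero.mpr (hf a)
  refine (divF (K := K) (f - algebraMap K F a)).support.finite_toSet.subset ?_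
  rintro P ⟨hmem, hev⟩
  have hmem' : f - algebraMap K F a ∈ P.toValuationSubring :=
    sub_mem hmem (P.algebraMap_mem' a)
  have h0 : evalAt P (f - algebraMap K F a) = 0 := by
    have h1 : f - algebraMap K F a = f + algebraMap K F (-a) := by rw [map_neg]; ring
    rw [h1, evalAt_add P hmem (P.algebraMap_mem' _), evalAt_algebraMap, hev]
    ring
  have h1 := (evalAt_eq_zero_iff P hmem').mp h0
  rw [Finset.mem_coe, Finsupp.mem_support_iff, divF_apply]
  rcases h1 with h1 | h1
  · exact absurd h1 hne
  · omega

end Fiber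

/-! ### Degree of an algebraic number from its conjugates; heights of coordinates -/

/-- If all conjugates of `α` lie in a finite set `T`, then `α` has degree `≤ #T`. -/
theorem natDegree_minpoly_le_card (α : Qbar) (T : Finset Qbar) (h : ∀ σ : GalQ, σ α ∈ T) :
    (minpoly ℚ α).natDegree ≤ T.card := by
  classical
  have hα : IsIntegral ℚ α := Algebra.IsIntegral.isIntegral α
  have hnorm : Normal ℚ Qbar :=
    normal_iff.mpr fun x => ⟨Algebra.IsIntegral.isIntegral x, IsAlgClosed.splits _⟩
  have hsep : (minpoly ℚ α).Separable := (minpoly.irreducible hα).separable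
  have hsplit : ((minpoly ℚ α).map (algebraMap ℚ Qbar)).Splits := IsAlgClosed.splits _
  rw [← Polynomial.card_rootSet_eq_natDegree hsep hsplit, ← Fintype.card_coe T]
  refine Fintype.card_le_of_injective
    (fun x : (minpoly ℚ α).rootSet Qbar => (⟨x.1, ?_⟩ : T)) ?_
  · obtain ⟨x, hx⟩ := x
    obtain ⟨σ, hσ⟩ := minpoly.exists_algEquiv_of_root' (K := ℚ) (L := Qbar) (x := x) (y := α)
      hα.isAlgebraic (Polynomial.mem_rootSet.mp hx).2
    show x ∈ T
    rw [← hσ]
    exact h σ
  · intro x y hxy
    exact Subtype.ext (congrArg (fun t : T => (t : Qbar)) hxy)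

/-- A coordinate of a tuple containing a `1` has height at most the height of the tuple. -/
theorem hbar_pair_le_hbar {ι : Type*} [Finite ι] (x : ι → Qbar) (i j : ι) (hj : x j = 1) :
    hbar ![x i, 1] ≤ hbar x := by
  rw [hbar_eq_ht, hbar_eq_ht, ← hj]
  exact ht_pair_le x i j

/-- Northcott in bounded degree, in the form used below. -/
theorem finite_degree_hbar_le (n : ℕ) (B : ℝ) :
    {α : Qbar | (minpoly ℚ α).natDegree ≤ n ∧ hbar ![α, 1] ≤ B}.Finite := by
  have h := finite_degree_ht_le (ι := Fin 2) 1 (max n 1) B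
  refine (h.image (fun x => x 0)).subset ?_
  rintro α ⟨hd, hh⟩
  refine ⟨![α, 1], ⟨rfl, ?_, ?_⟩, rfl⟩
  · intro i
    fin_cases i
    · exact hd.trans (le_max_left _ _)
    · show (minpoly ℚ (1 : Qbar)).natDegree ≤ max n 1
      rw [minpoly.one, ← Polynomial.C_1, Polynomial.natDegree_X_sub_C]
      exact le_max_right _ _
  · rw [← hbar_eq_ht]
    exact hh

/-! ### The set-up -/

section Setup

variable {F₀ : IntermediateField ℚ (LaurentSeries ℚ)} [IsCurveOver Qbar (FB F₀)]

/-- Affine coordinates `(φ_i(P))_i` of a place `P ≠ P₀`. -/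
noncomputable def aff (S : Setup F₀) (P : Place Qbar (FB F₀)) : Fin (S.r + 1) → Qbar :=
  fun i => evalAt P (S.φ i)

omit [IsCurveOver Qbar (FB F₀)] in
theorem phi_mem (S : Setup F₀) {P : Place Qbar (FB F₀)} (hP : P ≠ S.P₀) (i : Fin (S.r + 1)) :
    S.φ i ∈ P.toValuationSubring := by
  have h1 : S.φ i ∈ riemannRochSpace ((S.m : ℤ) • pt S.P₀) := by
    rw [← S.basis.2]
    exact Submodule.subset_span ⟨i, rfl⟩
  rcases mem_riemannRochSpace_iff.mp h1 P with h0 | h2
  · rw [h0]; exact zero_mem _
  · have h3 : ((S.m : ℤ) • pt S.P₀) P = 0 := by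
      simp [pt, hP.symm]
    rw [h3, neg_zero] at h2
    exact Place_mem_of_ord_nonneg P h2

theorem aff_zero (S : Setup F₀) (P : Place Qbar (FB F₀)) : aff S P 0 = 1 := by
  unfold aff
  rw [S.one, evalAt_one]

/-- The point height is the height of the affine coordinate vector. -/
theorem hX_eq_hbar_aff (S : Setup F₀) {P : Place Qbar (FB F₀)} (hP : P ≠ S.P₀) :
    hX S.φ P = hbar (aff S P) := by
  classical
  have hex : ∃ i, ∀ j, P.ord (S.φ i) ≤ P.ord (S.φ j) :=
    Finite.exists_min (fun i => P.ord (S.φ i))
  have hmin : minIdx S.φ P = hex.choose := by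
    unfold minIdx
    rw [dif_pos hex]
  have hspec := hex.choose_spec
  rw [← hmin] at hspec
  set i0 := minIdx S.φ P with hi0
  have hord : P.ord (S.φ i0) = 0 := by
    have h1 := hspec 0
    rw [S.one, Place.ord_one] at h1
    have h2 := Place_ord_nonneg_of_mem P (phi_mem S hP i0)
    omega
  have hne : S.φ i0 ≠ 0 := S.basis.1.ne_zero i0
  have hinv_ord : P.ord (S.φ i0)⁻¹ = 0 := by rw [Place.ord_inv, hord, neg_zero]
  have hinv_mem : (S.φ i0)⁻¹ ∈ P.toValuationSubring := Place_mem_of_ord_nonneg P hinv_ord.ge
  have hc : evalAt P (S.φ i0)⁻¹ ≠ 0 :=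
    evalAt_ne_zero_of_ord_eq_zero P (inv_ne_zero hne) hinv_ord
  have hpv : pointVec S.φ P = evalAt P (S.φ i0)⁻¹ • aff S P := by
    funext i
    show evalAt P (S.φ i / S.φ (minIdx S.φ P)) = evalAt P (S.φ i0)⁻¹ * evalAt P (S.φ i)
    rw [← hi0, div_eq_mul_inv, evalAt_mul P (phi_mem S hP i) hinv_mem, mul_comm]
  unfold hX
  rw [hpv, hbar_smul _ hc]

/-- Galois equivariance of the affine coordinates. -/
theorem aff_smul (S : Setup F₀) (σ : GalQ) (P : Place Qbar (FB F₀)) :
    aff S (arithmeticGalois F₀ σ • P) = fun i => σ (aff S P i) := by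
  funext i
  unfold aff
  have h := evalAt_smul (arithmeticGalois F₀ σ) P (S.φ i)
  rw [S.rat σ i] at h
  rw [h]
  rfl

/-- Riemann's inequality gives at least two embedding functions. -/
theorem one_le_r [Algebra.EssFiniteType Qbar (FB F₀)] (S : Setup F₀) : 1 ≤ S.r := by
  have H : Fermat.Agent.S27.A.Hyp Qbar (FB F₀) := Fermat.Agent.S27.A.hyp_of_isCurveOver
  have hR := Fermat.Agent.S27.A.riemann H ((S.m : ℤ) • pt S.P₀)
  have h0 := Fermat.Agent.S27.A.one_le_ell_zero H
  have hdeg : Divisor.degree ((S.m : ℤ) • pt S.P₀) = S.m := by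
    have hd : ((S.P₀).deg : ℤ) = 1 := by
      rw [IsCurveOver.deg_eq_one_of_isAlgClosed S.P₀]; rfl
    rw [map_zsmul, Divisor.degree_single, hd]; simp
  have hell : Fermat.Agent.S27.A.ell ((S.m : ℤ) • pt S.P₀) = S.r + 1 := by
    unfold Fermat.Agent.S27.A.ell
    rw [← S.basis.2, finrank_span_eq_card S.basis.1, Fintype.card_fin]
  have hm : 2 * genusFF Qbar (FB F₀) + 1 ≤ S.m := S.hm
  rw [hdeg, hell] at hR
  have hspec : (0 : ℤ) ≤ Fermat.Agent.S27.A.spec ((S.m : ℤ) • pt S.P₀) := Int.natCast_nonneg _
  push_cast at hR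
  omega

/-- The last embedding function is not constant. -/
theorem phi_last_ne_const [Algebra.EssFiniteType Qbar (FB F₀)] (S : Setup F₀) (a : Qbar) :
    S.φ (Fin.last S.r) ≠ algebraMap Qbar (FB F₀) a := by
  classical
  intro h
  have hr := one_le_r S
  have hne : Fin.last S.r ≠ 0 := by
    intro h0
    have h1 := congrArg Fin.val h0
    simp at h1
    omega
  have hli := linearIndependent_iff'.mp S.basis.1 {0, Fin.last S.r}
    (fun i => if i = 0 then -a else 1) (by
      rw [Finset.sum_pair hne.symm, if_pos rfl, if_neg hne, S.one, h, Algebra.smul_def,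
        mul_one, one_smul, map_neg, neg_add_cancel]) (Fin.last S.r) (by simp)
  rw [if_neg hne] at hli
  exact one_ne_zero hli

/-- **HT** (N): Northcott for Galois-stable effective divisors of bounded degree. -/
theorem northcott_stable [Algebra.EssFiniteType Qbar (FB F₀)] (S : Setup F₀) (n : ℕ) (B : ℝ) :
    {D : Divisor Qbar (FB F₀) | 0 ≤ D ∧ Divisor.degree D ≤ n ∧ IsStable D ∧
      hSum (hX S.φ) D ≤ B}.Finite := by
  classical
  set i1 : Fin (S.r + 1) := Fin.last S.r with hi1
  have hN := finite_degree_hbar_le n B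
  -- the finitely many places whose last coordinate is a Northcott number
  have hPl : {P : Place Qbar (FB F₀) | S.φ i1 ∈ P.toValuationSubring ∧
      evalAt P (S.φ i1) ∈ {α : Qbar | (minpoly ℚ α).natDegree ≤ n ∧
        hbar ![α, 1] ≤ B}}.Finite := by
    refine (hN.biUnion fun a _ => finite_evalAt_eq (S.φ i1) (phi_last_ne_const S) a).subset ?_
    intro P hP
    exact Set.mem_biUnion hP.2 ⟨hP.1, rfl⟩
  set T : Finset (Place Qbar (FB F₀)) := insert S.P₀ hPl.toFinset with hT
  set E : Divisor Qbar (FB F₀) :=
    Finsupp.onFinset T (fun v => if v ∈ T then (n : ℤ) else 0) (fun v hv => by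
      by_contra hvT
      exact hv (if_neg hvT)) with hE
  refine (Set.finite_Icc (0 : Divisor Qbar (FB F₀)) E).subset ?_
  rintro D ⟨hD0, hDn, hDst, hDB⟩
  have hDnn : ∀ v, 0 ≤ D v := fun v => hD0 v
  have hdeg1 : ∀ v : Place Qbar (FB F₀), (v.deg : ℤ) = 1 := fun v => by
    rw [IsCurveOver.deg_eq_one_of_isAlgClosed v]; rfl
  have hdeg : Divisor.degree D = ∑ v ∈ D.support, D v := by
    unfold Divisor.degree
    rw [Finsupp.liftAddHom_apply, Finsupp.sum]
    refine Finset.sum_congr rfl fun v _ => ?_
    show D v * (v.deg : ℤ) = D v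
    rw [hdeg1 v, mul_one]
  have hle_deg : ∀ v, D v ≤ Divisor.degree D := by
    intro v
    rw [hdeg]
    by_cases hv : v ∈ D.support
    · exact Finset.single_le_sum (f := fun v => D v) (fun i _ => hDnn i) hv
    · rw [Finsupp.notMem_support_iff.mp hv]
      exact Finset.sum_nonneg fun i _ => hDnn i
  have hone : ∀ v ∈ D.support, 1 ≤ D v := by
    intro v hv
    have h1 := hDnn v
    have h2 := Finsupp.mem_support_iff.mp hv
    omega
  have hcard : (D.support.card : ℤ) ≤ Divisor.degree D := by
    rw [hdeg]
    have h1 : (D.support.card : ℤ) = ∑ v ∈ D.support, (1 : ℤ) := by simp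
    rw [h1]
    exact Finset.sum_le_sum hone
  have hhX : ∀ v : Place Qbar (FB F₀), 0 ≤ hX S.φ v := fun v => hbar_nonneg _
  have hsupp : ∀ P : Place Qbar (FB F₀), D P ≠ 0 → P ∈ T := by
    intro P hP
    rw [hT, Finset.mem_insert]
    by_cases hP0 : P = S.P₀
    · exact Or.inl hP0
    · right
      rw [Set.Finite.mem_toFinset]
      have hPs : P ∈ D.support := Finsupp.mem_support_iff.mpr hP
      refine ⟨phi_mem S hP0 i1, ?_, ?_⟩
      · -- degree: all conjugates are coordinates of places of the support
        have hconj : ∀ σ : GalQ, σ (evalAt P (S.φ i1)) ∈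
            D.support.image (fun Q => aff S Q i1) := by
          intro σ
          refine Finset.mem_image.mpr ⟨arithmeticGalois F₀ σ • P, ?_, ?_⟩
          · rw [Finsupp.mem_support_iff]
            have h1 := SemilinearAut.divisor_smul_apply_smul (arithmeticGalois F₀ σ) D P
            rw [hDst σ] at h1
            rw [h1]
            exact hP
          · exact congrFun (aff_smul S σ P) i1
        have h1 := natDegree_minpoly_le_card _ _ hconj
        have h2 : (D.support.image (fun Q => aff S Q i1)).card ≤ D.support.card :=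
          Finset.card_image_le
        have h3 : (D.support.card : ℤ) ≤ n := hcard.trans hDn
        have h4 : D.support.card ≤ n := by exact_mod_cast h3
        exact h1.trans (h2.trans h4)
      · -- height
        have h1 : hbar ![aff S P i1, 1] ≤ hbar (aff S P) :=
          hbar_pair_le_hbar (aff S P) i1 0 (aff_zero S P)
        rw [← hX_eq_hbar_aff S hP0] at h1
        have h2 : hX S.φ P ≤ (D P : ℝ) * hX S.φ P := by
          have h3 : (1 : ℝ) ≤ (D P : ℝ) := by exact_mod_cast hone P hPs
          exact le_mul_of_one_le_left (hhX P) h3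
        have h3 : (D P : ℝ) * hX S.φ P ≤ hSum (hX S.φ) D := by
          unfold hSum
          rw [Finsupp.sum]
          refine Finset.single_le_sum (f := fun v => (D v : ℝ) * hX S.φ v) (fun v _ => ?_) hPs
          exact mul_nonneg (by exact_mod_cast hDnn v) (hhX v)
        exact h1.trans (h2.trans (h3.trans hDB))
  refine ⟨hD0, ?_⟩
  intro v
  rw [hE, Finsupp.onFinset_apply]
  by_cases hv : v ∈ T
  · rw [if_pos hv]
    exact (hle_deg v).trans hDn
  · rw [if_neg hv]
    by_contra hne
    exact hv (hsupp v fun h0 => hne (by rw [h0]))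

end Setup

end Fermat.Agent.S17.HT.NS636
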