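import Mathlib
import Fermat.Agent.S17.H.Defs
import Fermat.Agent.S17.HT.Bridge
import Fermat.Agent.S17.HT.NorthcottStable636

set_option autoImplicit false

/-!
# S17 / HT leaf L10 `Stable` — v0.4, DONE: `delta_symm` and `northcott_stable` of the H-interface

Both statements are verbatim those of `Fermat/Agent/S17/H/Interfaces.lean` (v2); standard axioms
only.  `northcott_stable` is the proof of helper7378 re-based on the HT leaves
(`HT/NorthcottStable636.lean`, evaluation library `HT/Eval7378.lean`, Riemann's inequality from the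
landed `S27/A/Riemann.lean` for `1 ≤ S.r`); `delta_symm` is `hbar_smul` with the scalar `-1`.

Rewire in `H/Interfaces.lean`:  `exact HT.delta_symm S P Q`, `exact HT.northcott_stable S n B`
(and `HT.hbar_nonneg`, `HT.hbar_smul`, `HT.hbar_galois`, `HT.hbar_tensor`, `HT.hbar_rat` from
`HT/Bridge.lean`).
-/

namespace Fermat.Agent.S17.HT

open AlgebraicCurve ModularCurve Fermat.Agent.S17.H Fermat.Agent.S17.FND

variable {F₀ : IntermediateField ℚ (LaurentSeries ℚ)}
  [IsCurveOver Qbar (FB F₀)] [Algebra.EssFiniteType Qbar (FB F₀)]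

/-- L10.1 = **HT** (H-interface): the Δ-height is symmetric. -/
theorem delta_symm (S : Setup F₀) (P Q : Place Qbar (FB F₀)) :
    delta S.φ P Q = delta S.φ Q P := by
  classical
  unfold delta
  by_cases h : P = Q
  · subst h
    rfl
  · have h' : ¬ Q = P := fun h' => h h'.symm
    rw [if_neg h, if_neg h']
    have hm : minorVec S.φ Q P = (-1 : Qbar) • minorVec S.φ P Q := by
      funext ab
      simp only [minorVec, Pi.smul_apply, smul_eq_mul]
      ring
    rw [hm, hbar_smul _ (by norm_num : (-1 : Qbar) ≠ 0)]
    ring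

/-- L10.6 = **HT** (N) (H-interface): Northcott for Galois-stable effective divisors of bounded
degree. -/
theorem northcott_stable (S : Setup F₀) (n : ℕ) (B : ℝ) :
    {D : Divisor Qbar (FB F₀) | 0 ≤ D ∧ Divisor.degree D ≤ n ∧ IsStable D ∧
      hSum (hX S.φ) D ≤ B}.Finite :=
  NS636.northcott_stable S n B

end Fermat.Agent.S17.HT
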