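import Mathlib
import Fermat.Agent.S17.HT.Defs
import Fermat.Agent.S17.HT.Descent
import Fermat.Agent.S17.HT.Basic

set_option autoImplicit false

/-!
# S17 / HT leaf L2 `Eval` — FROZEN v0, PROVED (helper3746), no sorry in this file

Height bounds for polynomial maps with coefficients in `ℚ̄`, constants UNIFORM in the point.

Proof (the "alternative proof avoiding `mulHeightBound`" of the skeleton header):

* `Eval3746.ht_mulVec_le_explicit`: `ht (A x) ≤ log #ι + ht A + ht x`, by putting the entries of
  `A` and `x` in one number field `K ⊆ ℚ̄` (`exists_numberField_of_finite`), rewriting with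
  `ht_eq_logHeight_div` and using Mathlib's `Height.logHeight_linearMap_apply_le` together with
  `NumberField.totalWeight_eq_finrank`.
* `Eval3746.ht_tensorPow`: the `N`-fold tensor power `f ↦ ∏ a, x (f a)` (`f : Fin N → ι`) has
  height `N * ht x` (`ht_pi_prod`).
* a homogeneous polynomial map of degree `N` is a fixed linear map applied to the vector of
  monomials of degree `N`, which is a subfamily of the tensor power (`ht_comp_le`).
* the lower bound follows from the two upper bounds exactly as in Mathlib's `mulHeight_eval_ge`.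
-/

namespace Fermat.Agent.S17.HT

open Height MvPolynomial

local notation "ℚ̄" => AlgebraicClosure ℚ

variable {ι ι' : Type*} [Fintype ι] [Fintype ι']

namespace Eval3746

/-- Explicit form of L2.1. -/
theorem ht_mulVec_le_explicit (A : Matrix ι' ι ℚ̄) (x : ι → ℚ̄) :
    ht (A.mulVec x) ≤ Real.log (Fintype.card ι) + ht (fun p : ι' × ι => A p.1 p.2) + ht x := by
  classical
  have hs : (Set.range (fun p : ι' × ι => A p.1 p.2) ∪ Set.range x).Finite :=
    (Set.finite_range _).union (Set.finite_range _)
  obtain ⟨K, hK, hsK⟩ := exists_numberField_of_finite _ hs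
  have : NumberField K := {}
  let AK : ι' × ι → K := fun p => ⟨A p.1 p.2, hsK (Or.inl ⟨p, rfl⟩)⟩
  let xK : ι → K := fun i => ⟨x i, hsK (Or.inr ⟨i, rfl⟩)⟩
  let j : K →+* ℚ̄ := algebraMap K ℚ̄
  have h1 : A.mulVec x = fun i' => j (∑ i, AK (i', i) * xK i) := by
    funext i'
    simp only [Matrix.mulVec, dotProduct, map_sum, map_mul]
    rfl
  have h2 : (fun p : ι' × ι => A p.1 p.2) = fun p => j (AK p) := rfl
  have h3 : x = fun i => j (xK i) := rfl
  have key := Height.logHeight_linearMap_apply_le AK xK
  have hd : (0 : ℝ) < Module.finrank ℚ K := by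
    have : 0 < Module.finrank ℚ K := Module.finrank_pos
    exact_mod_cast this
  rw [h1, ht_eq_logHeight_div j, h2, ht_eq_logHeight_div j AK]
  conv_rhs => rw [h3, ht_eq_logHeight_div j xK]
  rw [NumberField.totalWeight_eq_finrank K, Nat.card_eq_fintype_card] at key
  rw [div_le_iff₀ hd]
  calc logHeight (fun i' => ∑ i, AK (i', i) * xK i)
      ≤ (Module.finrank ℚ K : ℝ) * Real.log (Fintype.card ι) + logHeight AK + logHeight xK := key
    _ = (Real.log (Fintype.card ι) + logHeight AK / (Module.finrank ℚ K : ℝ) +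
          logHeight xK / (Module.finrank ℚ K : ℝ)) * (Module.finrank ℚ K : ℝ) := by
        field_simp

/-- The height of the `N`-fold tensor power of a point. -/
theorem ht_tensorPow (x : ι → ℚ̄) (N : ℕ) :
    ht (fun f : Fin N → ι => ∏ a, x (f a)) = N * ht x := by
  by_cases hx : x = 0
  · subst hx
    rcases Nat.eq_zero_or_pos N with rfl | hN
    · rw [ht_of_subsingleton]; simp
    · have : (fun f : Fin N → ι => ∏ a, (0 : ι → ℚ̄) (f a)) = 0 := by
        funext f
        exact Finset.prod_eq_zero (Finset.mem_univ (⟨0, hN⟩ : Fin N)) rfl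
      rw [this, ht_zero, ht_zero, mul_zero]
  · have := ht_pi_prod (α := Fin N) (κ := fun _ => ι) (fun _ => x) (fun _ => hx)
    rw [this]
    simp

/-- Every exponent vector of degree `N` is the exponent vector of a "word" of length `N`. -/
theorem exists_word (s : ι →₀ ℕ) (N : ℕ) (hs : N = ∑ i ∈ s.support, s i) :
    ∃ f : Fin N → ι, ∀ x : ι → ℚ̄, ∏ a, x (f a) = ∏ i, x i ^ s i := by
  classical
  have hlen : s.toMultiset.toList.length = N := by
    rw [Multiset.length_toList, Finsupp.card_toMultiset, hs]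
    rfl
  subst hlen
  refine ⟨fun a => s.toMultiset.toList.get a, fun x => ?_⟩
  have h1 : ∏ a : Fin s.toMultiset.toList.length, x (s.toMultiset.toList.get a) =
      (s.toMultiset.toList.map x).prod := by
    rw [← List.prod_ofFn]
    congr 1
    apply List.ext_get
    · simp
    · intro n h1 h2
      simp
  have h2 : (s.toMultiset.toList.map x).prod = (s.toMultiset.map x).prod := by
    conv_rhs => rw [← Multiset.coe_toList s.toMultiset]
    rfl
  rw [h1, h2, Finsupp.toMultiset_map, Finsupp.prod_toMultiset,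
    Finsupp.prod_mapDomain_index (fun _ => pow_zero _) (fun _ _ _ => pow_add _ _ _)]
  rw [Finsupp.prod, Finset.prod_subset (Finset.subset_univ _)]
  intro i _ hi
  rw [Finsupp.notMem_support_iff.mp hi, pow_zero]

/-- Explicit form of L2.2 at a single point. -/
theorem ht_eval_le_aux {N : ℕ} (p : ι' → MvPolynomial ι ℚ̄) (hp : ∀ j, (p j).IsHomogeneous N) :
    ∃ C : ℝ, ∀ x : ι → ℚ̄, ht (fun j => eval x (p j)) ≤ N * ht x + C := by
  classical
  let U : Finset (ι →₀ ℕ) := Finset.univ.biUnion fun j => (p j).support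
  have hU : ∀ s : U, N = ∑ i ∈ s.1.support, s.1 i := by
    rintro ⟨s, hs⟩
    obtain ⟨j, -, hj⟩ := Finset.mem_biUnion.mp hs
    exact (hp j).degree_eq_sum_deg_support hj
  choose φ hφ using fun s : U => exists_word s.1 N (hU s)
  let A : Matrix ι' U ℚ̄ := fun j s => coeff s.1 (p j)
  refine ⟨Real.log (Fintype.card U) + ht (fun q : ι' × U => A q.1 q.2), fun x => ?_⟩
  let m : U → ℚ̄ := fun s => ∏ i, x i ^ s.1 i
  have h1 : (fun j => eval x (p j)) = A.mulVec m := by
    funext j
    rw [eval_eq']
    simp only [Matrix.mulVec, dotProduct, A, m]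
    rw [Finset.sum_coe_sort U (fun s => coeff s (p j) * ∏ i, x i ^ s i)]
    refine Finset.sum_subset ?_ ?_
    · exact Finset.subset_biUnion_of_mem (fun j => (p j).support) (Finset.mem_univ j)
    · intro s _ hs
      rw [notMem_support_iff.mp hs, zero_mul]
  have h2 : m = (fun f : Fin N → ι => ∏ a, x (f a)) ∘ φ := by
    funext s
    exact (hφ s x).symm
  have h3 : ht m ≤ N * ht x := by
    rw [h2, ← ht_tensorPow x N]
    exact ht_comp_le φ _
  have h4 := ht_mulVec_le_explicit A m
  rw [h1]
  linarith

end Eval3746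

/-- L2.1: linear maps increase the height by at most a constant. -/
theorem ht_mulVec_le (A : Matrix ι' ι ℚ̄) :
    ∃ C : ℝ, ∀ x : ι → ℚ̄, ht (A.mulVec x) ≤ ht x + C :=
  ⟨Real.log (Fintype.card ι) + ht (fun p : ι' × ι => A p.1 p.2), fun x => by
    have := Eval3746.ht_mulVec_le_explicit A x
    linarith⟩

/-- L2.2: upper bound for homogeneous polynomial maps of degree `N`. -/
theorem ht_eval_le {N : ℕ} (p : ι' → MvPolynomial ι ℚ̄) (hp : ∀ j, (p j).IsHomogeneous N) :
    ∃ C : ℝ, ∀ x : ι → ℚ̄, ht (fun j => eval x (p j)) ≤ N * ht x + C :=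
  Eval3746.ht_eval_le_aux p hp

/-- L2.3: lower bound from a pointwise Nullstellensatz certificate (constant depends on `q` only). -/
theorem ht_eval_ge {M N : ℕ} (q : ι × ι' → MvPolynomial ι ℚ̄) (hq : ∀ a, (q a).IsHomogeneous M) :
    ∃ C : ℝ, ∀ (p : ι' → MvPolynomial ι ℚ̄) (x : ι → ℚ̄),
      (∀ k, ∑ j, eval x (q (k, j)) * eval x (p j) = x k ^ (M + N)) →
      N * ht x ≤ ht (fun j => eval x (p j)) + C := by
  obtain ⟨Cq, hCq⟩ := Eval3746.ht_eval_le_aux q hq
  refine ⟨Real.log (Fintype.card ι') + Cq, fun p x h => ?_⟩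
  let Q : Matrix ι ι' ℚ̄ := fun k j => eval x (q (k, j))
  have h1 : Q.mulVec (fun j => eval x (p j)) = fun k => x k ^ (M + N) := by
    funext k
    simp only [Matrix.mulVec, dotProduct, Q]
    exact h k
  have h2 := Eval3746.ht_mulVec_le_explicit Q (fun j => eval x (p j))
  rw [h1, ht_pow] at h2
  have h3 : ht (fun a : ι × ι' => Q a.1 a.2) ≤ M * ht x + Cq := hCq x
  push_cast at h2
  linarith

end Fermat.Agent.S17.HT
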