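import Mathlib
import Fermat.Agent.S17.HT.Defs
import Fermat.Agent.S17.HT.Descent
import Fermat.Agent.S17.HT.Basic
import Fermat.Agent.S17.HT.Eval

set_option autoImplicit false

/-!
# S17 / HT leaf L3 `Null` — FROZEN v0

Projective Nullstellensatz certificates and the resulting lower bound ("comparison of
base-point-free systems on a projective variety").  The variety is given by a SET `S` of
homogeneous equations.

`exists_certificate` (pure algebra, any algebraically closed field): let `J = span S + span (range p)`.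
Its zero locus in affine space is `⊆ {0}`, so by Mathlib's Nullstellensatz
(`MvPolynomial.vanishingIdeal_zeroLocus_eq_radical`) every `X k` is in the radical of `J`:
`X k ^ n ∈ J`.  Take `n` uniform and `≥ N`, write `X k ^ n = ∑ j, a j * p j + (element of span S)`
and pass to homogeneous components of degree `n` (`span S` is a homogeneous ideal because `S`
consists of homogeneous elements; the component of degree `n - N` of `a j` is `q (k, j)`).

`ht_eval_ge_of_zeroLocus`: `exists_certificate` + `ht_eval_ge` (the certificate holds at every point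
of the zero locus of `S` since the correction term vanishes there).
-/

namespace Fermat.Agent.S17.HT

open Height MvPolynomial

local notation "ℚ̄" => AlgebraicClosure ℚ

variable {ι ι' : Type*} [Fintype ι] [Fintype ι']

section Null777Aux

attribute [local instance] MvPolynomial.gradedAlgebra

/-- Homogeneous component of a product with a homogeneous factor on the right. -/
theorem null777_homogeneousComponent_mul_right {σ k : Type*} [CommRing k]
    (a p : MvPolynomial σ k) {M N : ℕ} (hp : p.IsHomogeneous N) :
    homogeneousComponent (M + N) (a * p) = homogeneousComponent M a * p := by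
  classical
  have h := DirectSum.coe_decompose_mul_add_of_right_mem (homogeneousSubmodule σ k)
    (a := a) (b := p) (i := M) (j := N) ((mem_homogeneousSubmodule N p).2 hp)
  have e : ∀ (φ : MvPolynomial σ k) (i : ℕ),
      (DirectSum.decompose (homogeneousSubmodule σ k) φ i : MvPolynomial σ k)
        = homogeneousComponent i φ := fun φ i => decomposition.decompose'_apply φ i
  rw [e, e] at h
  exact h

/-- The ideal spanned by a set of homogeneous polynomials is a homogeneous ideal. -/
theorem null777_span_isHomogeneous {σ k : Type*} [CommRing k]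
    (S : Set (MvPolynomial σ k)) (hS : ∀ f ∈ S, ∃ n : ℕ, f.IsHomogeneous n) :
    (Ideal.span S).IsHomogeneous (homogeneousSubmodule σ k) := by
  apply Ideal.homogeneous_span
  intro f hf
  obtain ⟨n, hn⟩ := hS f hf
  exact ⟨n, (mem_homogeneousSubmodule n f).2 hn⟩

/-- The ideal spanned by a set of homogeneous polynomials is stable under homogeneous
components. -/
theorem null777_homogeneousComponent_mem_span {σ k : Type*} [CommRing k]
    (S : Set (MvPolynomial σ k)) (hS : ∀ f ∈ S, ∃ n : ℕ, f.IsHomogeneous n)
    {s : MvPolynomial σ k} (hs : s ∈ Ideal.span S) (n : ℕ) :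
    homogeneousComponent n s ∈ Ideal.span S :=
  homogeneousComponent_mem_of_mem (null777_span_isHomogeneous S hS) hs n

end Null777Aux

/-- A polynomial in the ideal spanned by `S` vanishes at every common zero of `S`. -/
theorem null777_eval_eq_zero_of_mem_span {σ k : Type*} [CommRing k]
    (S : Set (MvPolynomial σ k)) (x : σ → k) (hx : ∀ f ∈ S, eval x f = 0)
    {g : MvPolynomial σ k} (hg : g ∈ Ideal.span S) : eval x g = 0 := by
  have hle : Ideal.span S ≤ RingHom.ker (eval x) :=
    Ideal.span_le.2 fun f hf => RingHom.mem_ker.2 (hx f hf)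
  exact RingHom.mem_ker.1 (hle hg)

/-- L3.1: projective Nullstellensatz certificate. -/
theorem exists_certificate {k : Type*} [Field k] [IsAlgClosed k]
    (S : Set (MvPolynomial ι k)) (hS : ∀ f ∈ S, ∃ n : ℕ, f.IsHomogeneous n)
    {N : ℕ} (p : ι' → MvPolynomial ι k) (hp : ∀ j, (p j).IsHomogeneous N)
    (h0 : ∀ x : ι → k, (∀ f ∈ S, eval x f = 0) → (∀ j, eval x (p j) = 0) → x = 0) :
    ∃ (M : ℕ) (q : ι × ι' → MvPolynomial ι k), (∀ a, (q a).IsHomogeneous M) ∧
      ∀ i, X i ^ (M + N) - ∑ j, q (i, j) * p j ∈ Ideal.span S := by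
  classical
  set J : Ideal (MvPolynomial ι k) := Ideal.span S ⊔ Ideal.span (Set.range p) with hJ
  -- every variable lies in the radical of `J` (Nullstellensatz)
  have hrad : ∀ i, (X i : MvPolynomial ι k) ∈ J.radical := by
    intro i
    rw [← vanishingIdeal_zeroLocus_eq_radical (K := k) J]
    intro x hx
    have hx0 : x = 0 := by
      apply h0 x
      · intro f hf
        have := hx f (Ideal.mem_sup_left (Ideal.subset_span hf))
        simpa using this
      · intro j
        have := hx (p j) (Ideal.mem_sup_right (Ideal.subset_span (Set.mem_range_self j)))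
        simpa using this
    subst hx0
    simp
  choose n hn using hrad
  -- a uniform exponent
  set M : ℕ := ∑ i, n i with hM
  have hpow : ∀ i, (X i : MvPolynomial ι k) ^ (M + N) ∈ J := by
    intro i
    have hle : n i ≤ M + N :=
      (Finset.single_le_sum (fun _ _ => Nat.zero_le _) (Finset.mem_univ i)).trans
        (Nat.le_add_right _ _)
    obtain ⟨c, hc⟩ := Nat.exists_eq_add_of_le hle
    rw [hc, pow_add]
    exact Ideal.mul_mem_right _ _ (hn i)
  -- write `X i ^ (M + N)` as a combination of the `p j` modulo `span S`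
  have hdec : ∀ i, ∃ a : ι' → MvPolynomial ι k,
      (X i : MvPolynomial ι k) ^ (M + N) - ∑ j, a j * p j ∈ Ideal.span S := by
    intro i
    obtain ⟨s, hs, t, ht, hst⟩ := Submodule.mem_sup.1 (hpow i)
    obtain ⟨a, ha⟩ := (Ideal.mem_span_range_iff_exists_fun).1 ht
    refine ⟨a, ?_⟩
    rw [ha, ← hst]
    simpa using hs
  choose a ha using hdec
  -- pass to the homogeneous component of degree `M + N`
  refine ⟨M, fun ij => homogeneousComponent M (a ij.1 ij.2), fun ij =>
    homogeneousComponent_isHomogeneous M _, fun i => ?_⟩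
  have key := null777_homogeneousComponent_mem_span S hS (ha i) (M + N)
  have hX : homogeneousComponent (M + N) ((X i : MvPolynomial ι k) ^ (M + N))
      = X i ^ (M + N) :=
    homogeneousComponent_eq_self (isHomogeneous_X_pow i (M + N))
  rw [map_sub, hX, map_sum] at key
  have hsum : ∑ j, homogeneousComponent (M + N) (a i j * p j)
      = ∑ j, homogeneousComponent M (a i j) * p j :=
    Finset.sum_congr rfl fun j _ => null777_homogeneousComponent_mul_right _ _ (hp j)
  rw [hsum] at key
  exact key

/-- L3.2: a base-point-free system of forms of degree `N` on the projective variety `V(S)`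
has height `≥ N * ht - C`. -/
theorem ht_eval_ge_of_zeroLocus
    (S : Set (MvPolynomial ι ℚ̄)) (hS : ∀ f ∈ S, ∃ n : ℕ, f.IsHomogeneous n)
    {N : ℕ} (p : ι' → MvPolynomial ι ℚ̄) (hp : ∀ j, (p j).IsHomogeneous N)
    (h0 : ∀ x : ι → ℚ̄, (∀ f ∈ S, eval x f = 0) → (∀ j, eval x (p j) = 0) → x = 0) :
    ∃ C : ℝ, ∀ x : ι → ℚ̄, (∀ f ∈ S, eval x f = 0) →
      N * ht x ≤ ht (fun j => eval x (p j)) + C := by
  obtain ⟨M, q, hq, hcert⟩ := exists_certificate S hS p hp h0
  obtain ⟨C, hC⟩ := ht_eval_ge (M := M) (N := N) q hq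
  refine ⟨C, fun x hx => hC p x fun i => ?_⟩
  have hz := null777_eval_eq_zero_of_mem_span S x hx (hcert i)
  rw [map_sub, map_pow, eval_X, map_sum] at hz
  rw [sub_eq_zero.1 hz]
  exact Finset.sum_congr rfl fun j _ => (map_mul (eval x) _ _).symm

/-- L3.3: two base-point-free systems of the same degree on `V(S)` have comparable heights. -/
theorem ht_eval_sub_le_of_zeroLocus {ι'' : Type*} [Fintype ι'']
    (S : Set (MvPolynomial ι ℚ̄)) (hS : ∀ f ∈ S, ∃ n : ℕ, f.IsHomogeneous n)
    {N : ℕ} (p : ι' → MvPolynomial ι ℚ̄) (hp : ∀ j, (p j).IsHomogeneous N)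
    (p' : ι'' → MvPolynomial ι ℚ̄) (hp' : ∀ j, (p' j).IsHomogeneous N)
    (h0 : ∀ x : ι → ℚ̄, (∀ f ∈ S, eval x f = 0) → (∀ j, eval x (p j) = 0) → x = 0)
    (h0' : ∀ x : ι → ℚ̄, (∀ f ∈ S, eval x f = 0) → (∀ j, eval x (p' j) = 0) → x = 0) :
    ∃ C : ℝ, ∀ x : ι → ℚ̄, (∀ f ∈ S, eval x f = 0) →
      |ht (fun j => eval x (p j)) - ht (fun j => eval x (p' j))| ≤ C := by
  obtain ⟨C1, h1⟩ := ht_eval_ge_of_zeroLocus S hS p hp h0
  obtain ⟨C2, h2⟩ := ht_eval_ge_of_zeroLocus S hS p' hp' h0'
  obtain ⟨D1, g1⟩ := ht_eval_le p hp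
  obtain ⟨D2, g2⟩ := ht_eval_le p' hp'
  refine ⟨max (D1 + C2) (D2 + C1), fun x hx => ?_⟩
  have a1 := h1 x hx
  have a2 := h2 x hx
  have b1 := g1 x
  have b2 := g2 x
  have m1 := le_max_left (D1 + C2) (D2 + C1)
  have m2 := le_max_right (D1 + C2) (D2 + C1)
  rw [abs_le]
  constructor <;> linarith

end Fermat.Agent.S17.HT
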