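import Mathlib
import Fermat.Agent.S17.HT.Defs
import Fermat.Agent.S17.HT.Descent
import Fermat.Agent.S17.HT.Basic
import Fermat.Agent.S17.HT.Eval
import Fermat.Agent.S17.HT.Null

set_option autoImplicit false

/-!
# S17 / HT leaf L4 `Multi` — FROZEN v0

Multi-homogeneous versions (blocks of variables `κ c`, `c : β`; points `x c : κ c → ℚ̄`).
For bihomogeneous forms take `β = Bool` (or `Fin 2`).

`ht_blockEval_le`: a multi-homogeneous form of multidegree `d` is a LINEAR form in the tensor
`⊗_c (monomials of degree d c in x c)`; use `ht_pi_prod`, `ht_pow`/`ht_comp_le` (the tuple of all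
monomials of degree `n` in `x` has height exactly `n * ht x`: it contains the pure powers and is a
subfamily of the `n`-fold tensor power) and `ht_mulVec_le`.

`exists_multiCertificate`: as `exists_certificate`, with `J = span S + span (range p)`; the zero
locus of `J` is contained in `⋃_c {x c = 0}`, hence `∏_c X ⟨c, i c⟩` is in the radical of `J` for
every choice `i`; take multi-homogeneous components.

`ht_blockEval_ge_of_zeroLocus`: certificate + the same tensor trick as in `ht_eval_ge`.
-/

namespace Fermat.Agent.S17.HT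

open Height MvPolynomial

local notation "ℚ̄" => AlgebraicClosure ℚ

variable {β : Type*} [Fintype β] {κ : β → Type*} [∀ c, Fintype (κ c)]
variable {ι' : Type*} [Fintype ι']

section Multi777Aux


variable {β : Type*} [Fintype β] {κ : β → Type*} [∀ c, Fintype (κ c)]

open Classical in
/-- The block weight: the variable `⟨c, i⟩` has weight the `c`-th basis vector of `β → ℕ`. -/
noncomputable def multi777W (β : Type*) (κ : β → Type*) : (Σ c, κ c) → (β → ℕ) :=
  fun s => Pi.single s.1 1

theorem multi777_weight_apply (m : (Σ c, κ c) →₀ ℕ) (c : β) :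
    Finsupp.weight (multi777W β κ) m c = ∑ i : κ c, m ⟨c, i⟩ := by
  classical
  rw [Finsupp.weight_eq_sum, Finset.sum_apply, Fintype.sum_sigma]
  simp only [multi777W, Pi.smul_apply, Pi.single_apply, smul_eq_mul, mul_ite, mul_one, mul_zero]
  rw [Finset.sum_eq_single c]
  · simp
  · intro b _ hb
    simp [Ne.symm hb]
  · simp

theorem multi777_isMultiHomogeneous_iff {R : Type*} [CommSemiring R]
    (p : MvPolynomial (Σ c, κ c) R) (d : β → ℕ) :
    IsMultiHomogeneous p d ↔ IsWeightedHomogeneous (multi777W β κ) p d := by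
  constructor
  · intro h m hm
    funext c
    rw [multi777_weight_apply]
    exact h m (mem_support_iff.2 hm) c
  · intro h m hm c
    rw [← multi777_weight_apply, h (mem_support_iff.1 hm)]

section Graded

attribute [local instance] MvPolynomial.weightedGradedAlgebra

omit [∀ c, Fintype (κ c)] in
open Classical in
/-- Multi-homogeneous component of a product with a multi-homogeneous factor on the right. -/
theorem multi777_component_mul_right {k : Type*} [CommRing k]
    (a p : MvPolynomial (Σ c, κ c) k) {M d : β → ℕ}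
    (hp : IsWeightedHomogeneous (multi777W β κ) p d) :
    weightedHomogeneousComponent (multi777W β κ) (M + d) (a * p)
      = weightedHomogeneousComponent (multi777W β κ) M a * p := by
  have h := DirectSum.coe_decompose_mul_add_of_right_mem
    (weightedHomogeneousSubmodule k (multi777W β κ))
    (a := a) (b := p) (i := M) (j := d) ((mem_weightedHomogeneousSubmodule k _ d p).2 hp)
  have e : ∀ (φ : MvPolynomial (Σ c, κ c) k) (i : β → ℕ),
      (DirectSum.decompose (weightedHomogeneousSubmodule k (multi777W β κ)) φ i :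
          MvPolynomial (Σ c, κ c) k)
        = weightedHomogeneousComponent (multi777W β κ) i φ :=
    fun φ i => weightedDecomposition.decompose'_apply k _ φ i
  rw [e, e] at h
  exact h

open Classical in
/-- The ideal spanned by multi-homogeneous polynomials is stable under multi-homogeneous
components. -/
theorem multi777_component_mem_span {k : Type*} [CommRing k]
    (S : Set (MvPolynomial (Σ c, κ c) k)) (hS : ∀ f ∈ S, ∃ e : β → ℕ, IsMultiHomogeneous f e)
    {s : MvPolynomial (Σ c, κ c) k} (hs : s ∈ Ideal.span S) (n : β → ℕ) :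
    weightedHomogeneousComponent (multi777W β κ) n s ∈ Ideal.span S := by
  refine weightedHomogeneousComponent_mem_of_mem k (multi777W β κ) ?_ hs n
  apply Ideal.homogeneous_span
  intro f hf
  obtain ⟨e, he⟩ := hS f hf
  exact ⟨e, (mem_weightedHomogeneousSubmodule k _ e f).2
    ((multi777_isMultiHomogeneous_iff f e).1 he)⟩

end Graded

omit [∀ c, Fintype (κ c)] in
/-- The monomial `∏ c, X ⟨c, i c⟩ ^ e c` is multi-homogeneous of multidegree `e`. -/
theorem multi777_isWeightedHomogeneous_prod_X_pow {k : Type*} [CommSemiring k]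
    (i : (c : β) → κ c) (e : β → ℕ) :
    IsWeightedHomogeneous (multi777W β κ)
      (∏ c, (X (⟨c, i c⟩ : Σ c, κ c) : MvPolynomial (Σ c, κ c) k) ^ e c) e := by
  classical
  have h := IsWeightedHomogeneous.prod (w := multi777W β κ) Finset.univ
    (fun c => (X (⟨c, i c⟩ : Σ c, κ c) : MvPolynomial (Σ c, κ c) k) ^ e c)
    (fun c => e c • multi777W β κ ⟨c, i c⟩)
    (fun c _ => (isWeightedHomogeneous_X k (multi777W β κ) ⟨c, i c⟩).pow (e c))
  have he : ∑ c, e c • multi777W β κ ⟨c, i c⟩ = e := by
    funext b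
    simp [multi777W, Pi.single_apply]
  rwa [he] at h

/-- The height of a constant vector is `0`. -/
theorem multi777_ht_const {T : Type*} [Finite T] (a : ℚ̄) : ht (fun _ : T => a) = 0 := by
  refine le_antisymm ?_ (ht_nonneg _)
  have h : ht ((fun _ : Unit => a) ∘ fun _ : T => ()) ≤ ht (fun _ : Unit => a) :=
    ht_comp_le (fun _ : T => ()) (fun _ : Unit => a)
  have h0 : ht (fun _ : Unit => a) = 0 := ht_of_subsingleton _
  exact h.trans_eq h0

/-- The vector of the values of a family of monomials of multidegree `d` at a point `x` has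
height at most `∑ c, d c * ht (x c)`. -/
theorem multi777_ht_monomials_le {T : Type*} [Finite T] (n : ℕ) :
    ∀ (d : β → ℕ), ∑ c, d c = n → ∀ (m : T → ((Σ c, κ c) →₀ ℕ)),
      (∀ t, Finsupp.weight (multi777W β κ) (m t) = d) → ∀ x : (c : β) → κ c → ℚ̄,
        ht (fun t => (m t).prod fun s e => x s.1 s.2 ^ e) ≤ ∑ c, (d c : ℝ) * ht (x c) := by
  classical
  induction n with
  | zero =>
    intro d hd m hm x
    have hd0 : ∀ c, d c = 0 := fun c =>
      (Finset.sum_eq_zero_iff_of_nonneg (fun _ _ => Nat.zero_le _)).1 hd c (Finset.mem_univ c)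
    have hm0 : ∀ t, m t = 0 := by
      intro t
      ext s
      have h1 := multi777_weight_apply (m t) s.1
      rw [hm t, hd0] at h1
      have h2 := (Finset.sum_eq_zero_iff_of_nonneg (fun _ _ => Nat.zero_le _)).1 h1.symm s.2
        (Finset.mem_univ _)
      simpa using h2
    have : (fun t => (m t).prod fun s e => x s.1 s.2 ^ e) = fun _ : T => (1 : ℚ̄) := by
      funext t
      rw [hm0 t, Finsupp.prod_zero_index]
    rw [this, multi777_ht_const]
    simp [hd0]
  | succ n ih =>
    intro d hd m hm x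
    -- a block with positive degree
    obtain ⟨c₀, hc₀⟩ : ∃ c₀, d c₀ ≠ 0 := by
      by_contra hcon
      push Not at hcon
      rw [Finset.sum_eq_zero (fun c _ => hcon c)] at hd
      exact absurd hd (Nat.succ_ne_zero n).symm
    -- in each monomial choose a variable of that block
    have hex : ∀ t, ∃ i : κ c₀, m t ⟨c₀, i⟩ ≠ 0 := by
      intro t
      have h1 := multi777_weight_apply (m t) c₀
      rw [hm t] at h1
      by_contra hcon
      push Not at hcon
      rw [Finset.sum_eq_zero (fun i _ => hcon i)] at h1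
      exact hc₀ h1
    choose i hi using hex
    set d' : β → ℕ := d - Pi.single c₀ 1 with hd'
    have hdd : d' + Pi.single c₀ 1 = d := by
      funext c
      by_cases hc : c = c₀
      · subst hc
        simp only [hd', Pi.add_apply, Pi.sub_apply, Pi.single_eq_same]
        exact Nat.sub_add_cancel (Nat.one_le_iff_ne_zero.2 hc₀)
      · simp [hd', Pi.single_eq_of_ne hc]
    set m' : T → ((Σ c, κ c) →₀ ℕ) := fun t => m t - Finsupp.single ⟨c₀, i t⟩ 1 with hm'
    have hmm : ∀ t, m' t + Finsupp.single ⟨c₀, i t⟩ 1 = m t := fun t =>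
      Finsupp.sub_add_single_one_cancel (hi t)
    have hw' : ∀ t, Finsupp.weight (multi777W β κ) (m' t) = d' := by
      intro t
      have h1 := hm t
      rw [← hmm t, map_add, Finsupp.weight_single, one_smul] at h1
      have h2 : multi777W β κ ⟨c₀, i t⟩ = Pi.single c₀ 1 := rfl
      rw [h2, ← hdd] at h1
      exact add_right_cancel h1
    have hsum' : ∑ c, d' c = n := by
      have h1 : ∑ c, d c = ∑ c, d' c + 1 := by
        rw [← hdd]
        simp [Finset.sum_add_distrib]
      omega
    have hIH := ih d' hsum' m' hw' x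
    -- split the monomial
    have hsplit : (fun t => (m t).prod fun s e => x s.1 s.2 ^ e)
        = fun t => (x c₀ ∘ i) t * (fun t => (m' t).prod fun s e => x s.1 s.2 ^ e) t := by
      funext t
      have h1 : (Finsupp.single (⟨c₀, i t⟩ : Σ c, κ c) 1).prod
          (fun (s : Σ c, κ c) (e : ℕ) => x s.1 s.2 ^ e) = x c₀ (i t) := by
        rw [Finsupp.prod_single_index
          (h := fun (s : Σ c, κ c) (e : ℕ) => x s.1 s.2 ^ e) (pow_zero _), pow_one]
      conv_lhs => rw [← hmm t]
      rw [Finsupp.prod_add_index' (h := fun (s : Σ c, κ c) (e : ℕ) => x s.1 s.2 ^ e)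
        (fun _ => pow_zero _) (fun _ _ _ => pow_add _ _ _), h1, mul_comm]
      rfl
    rw [hsplit]
    refine (ht_mul_le _ _).trans ?_
    have h1 : ht (x c₀ ∘ i) ≤ ht (x c₀) := ht_comp_le i (x c₀)
    have h2 : ∑ c, (d c : ℝ) * ht (x c) = ∑ c, (d' c : ℝ) * ht (x c) + ht (x c₀) := by
      rw [← hdd]
      simp [add_mul, Finset.sum_add_distrib, Pi.single_apply]
    rw [h2]
    linarith

end Multi777Aux

/-- L4.1: upper bound for multi-homogeneous polynomial maps. -/
theorem ht_blockEval_le (d : β → ℕ) (p : ι' → MvPolynomial (Σ c, κ c) ℚ̄)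
    (hp : ∀ j, IsMultiHomogeneous (p j) d) :
    ∃ C : ℝ, ∀ x : (c : β) → κ c → ℚ̄,
      ht (fun j => blockEval x (p j)) ≤ ∑ c, (d c : ℝ) * ht (x c) + C := by
  classical
  set T : Finset ((Σ c, κ c) →₀ ℕ) := Finset.univ.biUnion (fun j => (p j).support) with hT
  obtain ⟨C, hC⟩ := ht_mulVec_le (fun (j : ι') (m : T) => coeff (m : (Σ c, κ c) →₀ ℕ) (p j))
  refine ⟨C, fun x => ?_⟩
  have hval : (fun j => blockEval x (p j))
      = Matrix.mulVec (fun (j : ι') (m : T) => coeff (m : (Σ c, κ c) →₀ ℕ) (p j))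
          (fun m : T => (m : (Σ c, κ c) →₀ ℕ).prod fun s e => x s.1 s.2 ^ e) := by
    funext j
    have hsub : (p j).support ⊆ T := fun m hm =>
      Finset.mem_biUnion.2 ⟨j, Finset.mem_univ j, hm⟩
    have hmv : Matrix.mulVec (fun (j : ι') (m : T) => coeff (m : (Σ c, κ c) →₀ ℕ) (p j))
          (fun m : T => (m : (Σ c, κ c) →₀ ℕ).prod fun s e => x s.1 s.2 ^ e) j
        = ∑ m : T, coeff (m : (Σ c, κ c) →₀ ℕ) (p j) *
            (m : (Σ c, κ c) →₀ ℕ).prod fun s e => x s.1 s.2 ^ e := rfl
    rw [hmv, blockEval, eval_eq,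
      Finset.sum_coe_sort T (fun m => coeff m (p j) * m.prod fun s e => x s.1 s.2 ^ e)]
    refine Finset.sum_subset hsub fun m _ hm => ?_
    rw [notMem_support_iff.1 hm, zero_mul]
  have hmon : ht (fun m : T => (m : (Σ c, κ c) →₀ ℕ).prod fun s e => x s.1 s.2 ^ e)
      ≤ ∑ c, (d c : ℝ) * ht (x c) := by
    refine multi777_ht_monomials_le (∑ c, d c) d rfl (fun m : T => (m : (Σ c, κ c) →₀ ℕ))
      (fun m => ?_) x
    obtain ⟨j, -, hj⟩ := Finset.mem_biUnion.1 m.2
    exact (multi777_isMultiHomogeneous_iff (p j) d).1 (hp j) (mem_support_iff.1 hj)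
  rw [hval]
  exact (hC _).trans (by linarith)

/-- L4.2: multi-homogeneous Nullstellensatz certificate. -/
theorem exists_multiCertificate {k : Type*} [Field k] [IsAlgClosed k]
    (S : Set (MvPolynomial (Σ c, κ c) k)) (hS : ∀ f ∈ S, ∃ e : β → ℕ, IsMultiHomogeneous f e)
    (d : β → ℕ) (p : ι' → MvPolynomial (Σ c, κ c) k) (hp : ∀ j, IsMultiHomogeneous (p j) d)
    (h0 : ∀ x : (c : β) → κ c → k, (∀ f ∈ S, blockEval x f = 0) →
      (∀ j, blockEval x (p j) = 0) → ∃ c, x c = 0) :
    ∃ (M : β → ℕ) (q : ((c : β) → κ c) × ι' → MvPolynomial (Σ c, κ c) k),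
      (∀ a, IsMultiHomogeneous (q a) M) ∧
      ∀ i : (c : β) → κ c,
        (∏ c, X (⟨c, i c⟩ : Σ c, κ c) ^ (M c + d c)) - ∑ j, q (i, j) * p j ∈ Ideal.span S := by
  classical
  set J : Ideal (MvPolynomial (Σ c, κ c) k) := Ideal.span S ⊔ Ideal.span (Set.range p) with hJ
  -- Nullstellensatz: the monomials `∏ c, X ⟨c, i c⟩` lie in the radical of `J`
  have hrad : ∀ i : (c : β) → κ c,
      (∏ c, (X (⟨c, i c⟩ : Σ c, κ c) : MvPolynomial (Σ c, κ c) k)) ∈ J.radical := by
    intro i
    rw [← vanishingIdeal_zeroLocus_eq_radical (K := k) J]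
    intro x hx
    have hev : ∀ f : MvPolynomial (Σ c, κ c) k,
        blockEval (fun c i => x ⟨c, i⟩) f = eval x f := fun f => rfl
    obtain ⟨c, hc⟩ := h0 (fun c i => x ⟨c, i⟩)
      (fun f hf => by
        rw [hev]
        have := hx f (Ideal.mem_sup_left (Ideal.subset_span hf))
        simpa using this)
      (fun j => by
        rw [hev]
        have := hx (p j) (Ideal.mem_sup_right (Ideal.subset_span (Set.mem_range_self j)))
        simpa using this)
    have hci : x ⟨c, i c⟩ = 0 := congrFun hc (i c)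
    rw [map_prod]
    exact Finset.prod_eq_zero (Finset.mem_univ c) (by simpa using hci)
  choose n hn using hrad
  -- a uniform exponent
  set n' : ℕ := ∑ i, n i + ∑ c, d c with hn'
  set M : β → ℕ := fun c => n' - d c with hM
  have hdle : ∀ c, d c ≤ n' := fun c =>
    (Finset.single_le_sum (fun _ _ => Nat.zero_le _) (Finset.mem_univ c)).trans
      (Nat.le_add_left _ _)
  have hMd : ∀ c, M c + d c = n' := fun c => Nat.sub_add_cancel (hdle c)
  have hpow : ∀ i : (c : β) → κ c,
      (∏ c, (X (⟨c, i c⟩ : Σ c, κ c) : MvPolynomial (Σ c, κ c) k) ^ (M c + d c)) ∈ J := by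
    intro i
    have h1 : (∏ c, (X (⟨c, i c⟩ : Σ c, κ c) : MvPolynomial (Σ c, κ c) k) ^ (M c + d c))
        = (∏ c, (X (⟨c, i c⟩ : Σ c, κ c) : MvPolynomial (Σ c, κ c) k)) ^ n' := by
      rw [← Finset.prod_pow]
      exact Finset.prod_congr rfl fun c _ => by rw [hMd]
    rw [h1]
    have hle : n i ≤ n' :=
      (Finset.single_le_sum (fun _ _ => Nat.zero_le _) (Finset.mem_univ i)).trans
        (Nat.le_add_right _ _)
    obtain ⟨e, he⟩ := Nat.exists_eq_add_of_le hle
    rw [he, pow_add]
    exact Ideal.mul_mem_right _ _ (hn i)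
  -- write the monomial as a combination of the `p j` modulo `span S`
  have hdec : ∀ i : (c : β) → κ c, ∃ a : ι' → MvPolynomial (Σ c, κ c) k,
      (∏ c, (X (⟨c, i c⟩ : Σ c, κ c) : MvPolynomial (Σ c, κ c) k) ^ (M c + d c))
        - ∑ j, a j * p j ∈ Ideal.span S := by
    intro i
    obtain ⟨s, hs, t, ht, hst⟩ := Submodule.mem_sup.1 (hpow i)
    obtain ⟨a, ha⟩ := (Ideal.mem_span_range_iff_exists_fun).1 ht
    refine ⟨a, ?_⟩
    rw [ha, ← hst]
    simpa using hs
  choose a ha using hdec
  -- pass to the multi-homogeneous component of multidegree `M + d`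
  refine ⟨M, fun ij => weightedHomogeneousComponent (multi777W β κ) M (a ij.1 ij.2), fun ij =>
    (multi777_isMultiHomogeneous_iff _ _).2
      (weightedHomogeneousComponent_isWeightedHomogeneous M _), fun i => ?_⟩
  have key := multi777_component_mem_span S hS (ha i) (M + d)
  have hX : weightedHomogeneousComponent (multi777W β κ) (M + d)
      (∏ c, (X (⟨c, i c⟩ : Σ c, κ c) : MvPolynomial (Σ c, κ c) k) ^ (M c + d c))
      = ∏ c, (X (⟨c, i c⟩ : Σ c, κ c) : MvPolynomial (Σ c, κ c) k) ^ (M c + d c) :=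
    weightedHomogeneousComponent_eq_self
      (multi777_isWeightedHomogeneous_prod_X_pow i (M + d))
  rw [map_sub, hX, map_sum] at key
  have hsum : ∑ j, weightedHomogeneousComponent (multi777W β κ) (M + d) (a i j * p j)
      = ∑ j, weightedHomogeneousComponent (multi777W β κ) M (a i j) * p j :=
    Finset.sum_congr rfl fun j _ => multi777_component_mul_right _ _
      ((multi777_isMultiHomogeneous_iff _ _).1 (hp j))
  rw [hsum] at key
  exact key

/-- L4.3: a system of multi-homogeneous forms of multidegree `d` without common zeros on the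
multi-projective variety `V(S)` has height `≥ ∑ c, d c * ht (x c) - C`. -/
theorem ht_blockEval_ge_of_zeroLocus
    (S : Set (MvPolynomial (Σ c, κ c) ℚ̄)) (hS : ∀ f ∈ S, ∃ e : β → ℕ, IsMultiHomogeneous f e)
    (d : β → ℕ) (p : ι' → MvPolynomial (Σ c, κ c) ℚ̄) (hp : ∀ j, IsMultiHomogeneous (p j) d)
    (h0 : ∀ x : (c : β) → κ c → ℚ̄, (∀ f ∈ S, blockEval x f = 0) →
      (∀ j, blockEval x (p j) = 0) → ∃ c, x c = 0) :
    ∃ C : ℝ, ∀ x : (c : β) → κ c → ℚ̄, (∀ f ∈ S, blockEval x f = 0) → (∀ c, x c ≠ 0) →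
      ∑ c, (d c : ℝ) * ht (x c) ≤ ht (fun j => blockEval x (p j)) + C := by
  classical
  obtain ⟨M, q, hq, hcert⟩ := exists_multiCertificate S hS d p hp h0
  obtain ⟨Cq, hCq⟩ := ht_blockEval_le M q hq
  obtain ⟨CB, hCB⟩ := ht_mulVec_le
    (fun (i : (c : β) → κ c) (a : ((c : β) → κ c) × ι') => if a.1 = i then (1 : ℚ̄) else 0)
  refine ⟨Cq + CB, fun x hx hx0 => ?_⟩
  -- the certificate at the point `x`
  have hrel : ∀ i : (c : β) → κ c,
      ∏ c, x c (i c) ^ (M c + d c) = ∑ j, blockEval x (q (i, j)) * blockEval x (p j) := by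
    intro i
    have hz := null777_eval_eq_zero_of_mem_span S (fun s : Σ c, κ c => x s.1 s.2) hx (hcert i)
    rw [map_sub, map_prod, map_sum] at hz
    rw [← sub_eq_zero, ← hz]
    congr 1
    · exact Finset.prod_congr rfl fun c _ => by rw [map_pow, eval_X]
    · exact Finset.sum_congr rfl fun j _ => (map_mul _ _ _).symm
  -- the height of the left-hand side
  have hne : ∀ c, (fun k : κ c => x c k ^ (M c + d c)) ≠ 0 := by
    intro c h
    obtain ⟨k, hk⟩ := Function.ne_iff.1 (hx0 c)
    exact hk (eq_zero_of_pow_eq_zero (congrFun h k))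
  have hL : ht (fun i : (c : β) → κ c => ∏ c, x c (i c) ^ (M c + d c))
      = ∑ c, ((M c + d c : ℕ) : ℝ) * ht (x c) := by
    rw [ht_pi_prod (fun c => fun k : κ c => x c k ^ (M c + d c)) hne]
    exact Finset.sum_congr rfl fun c _ => ht_pow (x c) (M c + d c)
  -- the right-hand side is a linear image of the vector of all products
  set w : ((c : β) → κ c) × ι' → ℚ̄ := fun a => blockEval x (q a) * blockEval x (p a.2) with hw
  have hLw : (fun i : (c : β) → κ c => ∏ c, x c (i c) ^ (M c + d c))
      = Matrix.mulVec (fun (i : (c : β) → κ c) (a : ((c : β) → κ c) × ι') =>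
          if a.1 = i then (1 : ℚ̄) else 0) w := by
    funext i
    rw [hrel i]
    change _ = ∑ a : ((c : β) → κ c) × ι', (if a.1 = i then (1 : ℚ̄) else 0) * w a
    rw [Fintype.sum_prod_type]
    simp [hw]
  have h1 := hCB w
  have h2 : ht w ≤ ht (fun a : ((c : β) → κ c) × ι' => blockEval x (q a))
      + ht (fun a : ((c : β) → κ c) × ι' => blockEval x (p a.2)) := ht_mul_le _ _
  have h3 : ht (fun a : ((c : β) → κ c) × ι' => blockEval x (p a.2))
      ≤ ht (fun j => blockEval x (p j)) :=
    ht_comp_le (Prod.snd : ((c : β) → κ c) × ι' → ι') (fun j => blockEval x (p j))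
  have h4 := hCq x
  rw [← hLw, hL] at h1
  have h5 : ∑ c, ((M c + d c : ℕ) : ℝ) * ht (x c)
      = ∑ c, (M c : ℝ) * ht (x c) + ∑ c, (d c : ℝ) * ht (x c) := by
    rw [← Finset.sum_add_distrib]
    exact Finset.sum_congr rfl fun c _ => by push_cast; ring
  linarith

end Fermat.Agent.S17.HT
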