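import Fermat.Agent.S17.HT.Defs
import Fermat.Agent.S17.HT.HeightExt636
import Fermat.Agent.S17.HT.Descent
import Fermat.Agent.S17.HT.Basic
import Fermat.Agent.S17.HT.Eval
import Fermat.Agent.S17.HT.Null
import Fermat.Agent.S17.HT.Multi
import Fermat.Agent.S17.HT.Gauss
import Fermat.Agent.S17.HT.Gelfond
import Fermat.Agent.S17.HT.PolyMul
import Fermat.Agent.S17.HT.Northcott

/-!
# S17 / package HT (heights) — v0.4: ALL LEAVES DONE, integrated by helper636 (sub-architect)

Consumers (INC, CERT, QF): `import Fermat.Agent.S17.HT.Skel` (core, Mathlib only) or
`import Fermat.Agent.S17.HT.SkelH` (core + the H- and INC-facing bridges); namespace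
`Fermat.Agent.S17.HT`.  Every theorem of the package has axioms
`[propext, Classical.choice, Quot.sound]` (checked with `#print axioms` on all 61 statements).

The package gives an ABSOLUTE logarithmic height `ht : (ι → ℚ̄) → ℝ` on finite tuples of algebraic
numbers (projective height of the point), so that no number field ever appears in INC/CERT/QF:

* `ht` is defined for every point of `X(ℚ̄)` individually (no Galois-stability needed), is Galois
  invariant (`ht_map`), projective (`ht_smul`), additive on tensors (`ht_tensor`, `ht_pi_prod`),
  `ht_pow`, monotone under subfamilies (`ht_comp_le`), and equals Mathlib's `logHeight` on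
  rational tuples (`ht_ratCast`).
* polynomial maps: `ht_eval_le` (upper bound), `ht_eval_ge` (lower bound from a pointwise
  certificate), `ht_eval_ge_of_zeroLocus` / `ht_eval_sub_le_of_zeroLocus` (base-point-free systems
  on a projective variety given by homogeneous equations: projective Nullstellensatz inside),
  multi-homogeneous versions `ht_blockEval_le`, `ht_blockEval_ge_of_zeroLocus`.
* Chow forms: `htPoly` = height of the coefficient vector; `htPoly_mul`, `htPoly_prod`,
  `htPoly_prod_linear` (height of a product of linear forms = sum of the heights of the points
  + O(1)); `htPoly_map` (Galois), `htPoly_eq_ht_of_support_subset`.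
* Northcott: `finite_rat_ht_le`, `finite_degree_ht_le` (bounded degree), `finite_htPoly_le`,
  `rat_of_fixed`.

| leaf | file | proved by (integrated version) | other complete deliveries |
|------|------|-------------------------------|---------------------------|
| L0 | Descent.lean (+ HeightExt636.lean) | helper636 | helper7356, helper4356, helper8577 |
| L1 | Basic.lean | helper5554 | helper4978, helper154, helper9154, helper8578 |
| L2 | Eval.lean | helper3746 | helper7956, helper8577 |
| L3 | Null.lean | helper777 | helper7356, helper7977, helper156, helper9777, helper9156 |
| L4 | Multi.lean | helper777 | helper3756, helper4954, helper6156, helper778, helper7978, helper7354, helper3177, helper756 |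
| L5 | Gauss.lean (+ ProdHeight5554.lean) | helper5554 | helper4356, helper8578, helper6746, helper1346, helper8546, helper1954, helper7954, helper6177, helper2554, helper9178, helper9156 |
| L6 | Gelfond.lean (+ Gelfond5554.lean) | helper5554 | helper1356, helper4356, helper8578, helper7377, helper5577, helper9177, helper1954, helper6177, helper2554, helper9156 |
| L7 | PolyMul.lean (+ ProdHeightNF5554.lean) | helper5554 | helper1978, helper5556, helper6154, helper754, helper177, helper9156, helper7954, helper5578, helper1377, helper2554, helper9178 |
| L8 | Northcott.lean | helper9746 | helper7946, helper4346, helper2546, helper178, helper6146 |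
| L9 | Bridge.lean, BridgeINC.lean (index `SkelH.lean`) | helper636 | helper1354, helper6178, helper2578, helper6778, helper4354 |
| L10 | Stable.lean (index `SkelH.lean`; NorthcottStable636.lean, Eval7378.lean) | helper7378, re-based on L1/L8 by helper636 | helper4354, helper6778, helper1977, helper4377, helper1956, helper3777 |

All frozen statements of v0.1/v0.2 are unchanged (script-checked against the deliveries), except
that the four v0.2 sub-leaves of L10 were withdrawn (not needed).

H-interface (`H/Interfaces.lean` v2) items owned by HT, all VERBATIM and sorry-free in `SkelH`: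
`HT.hbar_nonneg`, `HT.hbar_smul`, `HT.hbar_galois`, `HT.hbar_tensor`, `HT.hbar_rat` (Bridge.lean),
`HT.delta_symm`, `HT.northcott_stable` (Stable.lean).
INC §A (`INC/Skel.lean` v5): `HT.absLogHeight_smul` (A1), `HT.absLogHeight_nonneg` (A2),
`HT.absLogHeight_eq_of_mem` (A3), `HT.polyHeight_prod_linForm` (A4) in BridgeINC.lean, plus the
dictionary `HT.absLogHeight_eq_ht`, `HT.polyHeight_eq_htPoly`, `HT.hbar_eq_ht`.

`Defs.lean` has three global instances for `ℚ̄ = AlgebraicClosure ℚ` (`isAlgebraicQbar`,
`isAlgClosureQbar`, `normalQbar`): the default `Algebra ℚ ℚ̄` is `DivisionRing.toRatAlgebra`, for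
which `Algebra.IsAlgebraic ℚ ℚ̄` is NOT found by instance search otherwise.
-/
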